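import Fermat.Agent.MFDim.CosetsT
import Fermat.Prelude.Def_ModularCurve_GenusNumerics

/-!
# Index, elliptic fixed points and cusps of `Γ₀(N)` in terms of the genus numerics

`index_Gamma0_eq_dedekindPsi`, `card_fixed_S_eq_nuTwo`, `card_fixed_ST_eq_nuThree` and
`orbCount_T_eq_cuspCount` identify the group theoretic counts with the arithmetic ones.
-/

set_option autoImplicit false

open scoped MatrixGroups
open CongruenceSubgroup

namespace FLTAgent.MFDim

lemma dedekindPsi_eq_prod {N : ℕ} (hN : N ≠ 0) :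
    (ModularCurve.dedekindPsi N : ℚ) = N * ∏ p ∈ N.primeFactors, (1 + (p : ℚ)⁻¹) := by
  rw [ModularCurve.dedekindPsi, Nat.sum_divisors_filter_squarefree hN]
  have hset : (UniqueFactorizationMonoid.normalizedFactors N).toFinset = N.primeFactors := by
    rw [Nat.factors_eq]; rfl
  rw [hset, Finset.prod_one_add, Finset.mul_sum, Nat.cast_sum]
  refine Finset.sum_congr rfl fun s hs => ?_
  rw [Finset.mem_powerset] at hs
  have hdvd : s.val.prod ∣ N := by
    refine dvd_trans ?_ (Nat.prod_primeFactors_dvd N)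
    have := Finset.prod_dvd_prod_of_subset s N.primeFactors id hs
    rw [Finset.prod_eq_multiset_prod, Finset.prod_eq_multiset_prod] at this
    simp only [Multiset.map_id] at this
    rw [Finset.prod_eq_multiset_prod]
    simp only [Multiset.map_id']
    exact this
  have hne : (s.val.prod : ℚ) ≠ 0 := by
    have : s.val.prod ≠ 0 := fun h => hN (Nat.eq_zero_of_zero_dvd (h ▸ hdvd))
    exact_mod_cast this
  rw [Nat.cast_div hdvd hne, Finset.prod_inv_distrib, div_eq_mul_inv]
  congr 2
  rw [← Nat.cast_prod, Finset.prod_eq_multiset_prod, Multiset.map_id']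

lemma card_prim_mul {a b : ℕ} (hab : a.Coprime b) :
    Nat.card (Prim (a * b)) = Nat.card (Prim a) * Nat.card (Prim b) := by
  rw [← Nat.card_prod]
  refine Nat.card_congr ?_
  let e := ZMod.chineseRemainder hab
  let E : ZMod (a * b) × ZMod (a * b) ≃ (ZMod a × ZMod a) × (ZMod b × ZMod b) :=
    (Equiv.prodCongr e.toEquiv e.toEquiv).trans (Equiv.prodProdProdComm _ _ _ _)
  refine (E.subtypeEquiv ?_).trans
    (Equiv.subtypeProdEquivProd (p := fun v : ZMod a × ZMod a => ∃ s t, s * v.1 + t * v.2 = 1)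
      (q := fun v : ZMod b × ZMod b => ∃ s t, s * v.1 + t * v.2 = 1))
  rintro ⟨x, y⟩
  constructor
  · rintro ⟨s, t, h⟩
    have h' := congrArg e h
    simp only [map_add, map_mul, map_one, Prod.ext_iff] at h'
    exact ⟨⟨(e s).1, (e t).1, h'.1⟩, ⟨(e s).2, (e t).2, h'.2⟩⟩
  · rintro ⟨⟨s, t, h⟩, s', t', h'⟩
    refine ⟨e.symm (s, s'), e.symm (t, t'), e.injective ?_⟩
    simp only [map_add, map_mul, map_one, RingEquiv.apply_symm_apply]
    exact Prod.ext h h'

lemma isPrim_iff_prime_pow {p n : ℕ} (hp : p.Prime) (v : ZMod (p ^ n) × ZMod (p ^ n)) :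
    (∃ a b, a * v.1 + b * v.2 = 1) ↔ IsUnit v.1 ∨ IsUnit v.2 := by
  constructor
  · rintro ⟨a, b, h⟩
    by_contra hcon
    push Not at hcon
    have : NeZero (p ^ n) := ⟨pow_ne_zero _ hp.ne_zero⟩
    have key : ∀ z : ZMod (p ^ n), ¬IsUnit z → p ∣ z.val := by
      intro z hz
      rw [← ZMod.natCast_zmod_val z, ZMod.isUnit_iff_coprime] at hz
      by_contra hd
      exact hz (Nat.Coprime.pow_right n ((hp.coprime_iff_not_dvd.mpr hd).symm))
    rcases Nat.eq_zero_or_pos n with rfl | hn
    · have : Subsingleton (ZMod (p ^ 0)) := by rw [pow_zero]; infer_instance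
      exact hcon.1 (isUnit_of_subsingleton _)
    · have h1 := congrArg (ZMod.castHom (dvd_pow_self p hn.ne') (ZMod p)) h
      rw [← ZMod.natCast_zmod_val v.1, ← ZMod.natCast_zmod_val v.2] at h1
      simp only [map_add, map_mul, map_natCast, map_one,
        (ZMod.natCast_eq_zero_iff _ _).mpr (key _ hcon.1),
        (ZMod.natCast_eq_zero_iff _ _).mpr (key _ hcon.2), mul_zero, add_zero] at h1
      have : Fact p.Prime := ⟨hp⟩
      exact zero_ne_one h1
  · rintro (h | h)
    · exact ⟨↑h.unit⁻¹, 0, by simp⟩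
    · exact ⟨0, ↑h.unit⁻¹, by simp⟩

lemma card_prim_eq {N : ℕ} (hN : N ≠ 0) :
    (Nat.card (Prim N) : ℚ) = (N : ℚ) ^ 2 * ∏ p ∈ N.primeFactors, (1 - ((p : ℚ)⁻¹) ^ 2) := by
  induction N using Nat.recOnPrimeCoprime with
  | zero => exact absurd rfl hN
  | prime_pow p n hp =>
    classical
    have : NeZero (p ^ n) := ⟨pow_ne_zero _ hp.ne_zero⟩
    let P : ZMod (p ^ n) × ZMod (p ^ n) → Prop := fun v => IsUnit v.1 ∨ IsUnit v.2
    have h1 : Nat.card (Prim (p ^ n)) = Nat.card {v // P v} :=
      Nat.card_congr (Equiv.subtypeEquivRight fun v => isPrim_iff_prime_pow hp v)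
    have h2 : Nat.card {v // ¬P v} =
        Nat.card {x : ZMod (p ^ n) // ¬IsUnit x} ^ 2 := by
      rw [pow_two, ← Nat.card_prod]
      exact Nat.card_congr ((Equiv.subtypeEquivRight fun v => not_or).trans
        (Equiv.subtypeProdEquivProd (p := fun x : ZMod (p ^ n) => ¬IsUnit x)
          (q := fun x : ZMod (p ^ n) => ¬IsUnit x)))
    have h3 : Nat.card {x : ZMod (p ^ n) // ¬IsUnit x} + (p ^ n).totient = p ^ n := by
      have hu : Nat.card {x : ZMod (p ^ n) // IsUnit x} = (p ^ n).totient := by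
        rw [← ZMod.card_units_eq_totient, ← Nat.card_eq_fintype_card]
        exact Nat.card_congr (Equiv.ofBijective (fun x => x.2.unit)
          ⟨fun x y h => Subtype.ext (by simpa using congrArg Units.val h),
            fun u => ⟨⟨u, u.isUnit⟩, Units.ext rfl⟩⟩)
      rw [add_comm, ← hu, ← Nat.card_sum, Nat.card_congr (Equiv.sumCompl _), Nat.card_zmod]
    have h4 : Nat.card {v // P v} + Nat.card {v // ¬P v} = p ^ n * p ^ n := by
      rw [← Nat.card_sum, Nat.card_congr (Equiv.sumCompl _), Nat.card_prod, Nat.card_zmod]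
    rw [← h1, h2] at h4
    have h4' : (Nat.card (Prim (p ^ n)) : ℚ) +
        (Nat.card {x : ZMod (p ^ n) // ¬IsUnit x} : ℚ) ^ 2 = (p : ℚ) ^ n * (p : ℚ) ^ n := by
      exact_mod_cast congrArg (Nat.cast : ℕ → ℚ) h4
    have h3' : (Nat.card {x : ZMod (p ^ n) // ¬IsUnit x} : ℚ) + ((p ^ n).totient : ℚ) =
        (p : ℚ) ^ n := by
      exact_mod_cast congrArg (Nat.cast : ℕ → ℚ) h3
    have h5 := Nat.totient_eq_mul_prod_factors (p ^ n)
    rcases Nat.eq_zero_or_pos n with rfl | hn
    · have hx : (Nat.card {x : ZMod (p ^ 0) // ¬IsUnit x} : ℚ) = 0 := by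
        have e1 : ((p ^ 0).totient : ℚ) = 1 := by norm_num
        rw [pow_zero] at e1
        linear_combination (norm := (norm_num)) h3' - e1
      rw [show (p ^ 0).primeFactors = ∅ by simp, Finset.prod_empty]
      push_cast
      rw [hx] at h4'
      rw [zero_pow two_ne_zero, add_zero] at h4'
      rw [h4']
      ring
    · rw [Nat.primeFactors_prime_pow hn.ne' hp, Finset.prod_singleton] at h5 ⊢
      push_cast at h5 ⊢
      have h6 : (Nat.card {x : ZMod (p ^ n) // ¬IsUnit x} : ℚ) = (p : ℚ) ^ n * (p : ℚ)⁻¹ := by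
        linear_combination h3' - h5
      rw [h6] at h4'
      linear_combination h4'
  | coprime a b ha hb hab iha ihb =>
    rw [card_prim_mul hab, Nat.cast_mul, iha (by omega), ihb (by omega),
      hab.primeFactors_mul, Finset.prod_union hab.disjoint_primeFactors, Nat.cast_mul]
    ring

/-- The index of `Γ₀(N)` in `SL(2, ℤ)` is the Dedekind ψ function. -/
theorem index_Gamma0_eq_dedekindPsi (N : ℕ) [NeZero N] :
    (Gamma0 N).index = ModularCurve.dedekindPsi N := by
  have hN := NeZero.ne N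
  have h1 : ((Gamma0 N).index : ℚ) * N.totient = ModularCurve.dedekindPsi N * N.totient := by
    rw [← Nat.cast_mul, index_mul_totient, card_prim_eq hN, dedekindPsi_eq_prod hN,
      Nat.totient_eq_mul_prod_factors, mul_mul_mul_comm, ← Finset.prod_mul_distrib, pow_two]
    congr 1
    refine Finset.prod_congr rfl fun p _ => ?_
    ring
  have hφ : (N.totient : ℚ) ≠ 0 := by
    exact_mod_cast (Nat.totient_pos.mpr (NeZero.pos N)).ne'
  exact_mod_cast mul_right_cancel₀ hφ h1

/-- The fixed points of `S` on the cosets are counted by `nuTwo`. -/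
theorem card_fixed_S_eq_nuTwo (N : ℕ) [NeZero N] :
    Nat.card {q : Cos N // ModularGroup.S • q = q} = ModularCurve.nuTwo N :=
  card_fixed_S

/-- The fixed points of `S * T` on the cosets are counted by `nuThree`. -/
theorem card_fixed_ST_eq_nuThree (N : ℕ) [NeZero N] :
    Nat.card {q : Cos N // (ModularGroup.S * ModularGroup.T) • q = q} = ModularCurve.nuThree N :=
  card_fixed_ST

/-- The `T`-orbits on the cosets are counted by `cuspCount`. -/
theorem orbCount_T_eq_cuspCount (N : ℕ) [NeZero N] :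
    orbCount (Cos N) ModularGroup.T = ModularCurve.cuspCount N :=
  orbCount_T

/-- The orbit count of `S` on cosets of `Γ₀(N)`. -/
theorem two_mul_orbCount_S_eq (N : ℕ) [NeZero N] :
    2 * orbCount (Cos N) ModularGroup.S = ModularCurve.dedekindPsi N + ModularCurve.nuTwo N := by
  rw [two_mul_orbCount_S, index_Gamma0_eq_dedekindPsi]; rfl

/-- The orbit count of `ST` on cosets of `Γ₀(N)`. -/
theorem three_mul_orbCount_ST_eq (N : ℕ) [NeZero N] :
    3 * orbCount (Cos N) (ModularGroup.S * ModularGroup.T) =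
      ModularCurve.dedekindPsi N + 2 * ModularCurve.nuThree N := by
  rw [three_mul_orbCount_ST, index_Gamma0_eq_dedekindPsi]; rfl

end FLTAgent.MFDim
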