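import Fermat.Agent.MFDim.Theta
import Fermat.Agent.MFDim.Numerics

/-!
# The dimension of `S₂(Γ₀(N))`

`finrank_cuspForm_two`: the dimension of the space of weight two cusp forms on `Γ₀(N)` is the
genus formula. Used by Eichler–Shimura and S20.
-/

set_option autoImplicit false

noncomputable section

namespace FLTAgent.MFDim

theorem finrank_cuspForm_two (N : ℕ) [NeZero N] :
    (Module.finrank ℂ (CuspForm (CongruenceSubgroup.Gamma0 N) 2) : ℚ) =
      ModularCurve.genusFormula N := by
  rw [(cuspFormEquiv N).finrank_eq]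
  have h := two_mul_finrank_SSpace_two (sepGamma0 N) neg_one_mem_Gamma0
  rw [index_Gamma0_eq_dedekindPsi, orbCount_T_eq_cuspCount] at h
  have h2 : (2 : ℚ) * orbCount (Cos N) ModularGroup.S =
      ModularCurve.dedekindPsi N + ModularCurve.nuTwo N := by
    exact_mod_cast two_mul_orbCount_S_eq N
  have h3 : (3 : ℚ) * orbCount (Cos N) (ModularGroup.S * ModularGroup.T) =
      ModularCurve.dedekindPsi N + 2 * ModularCurve.nuThree N := by
    exact_mod_cast three_mul_orbCount_ST_eq N
  have h' := congrArg (fun n : ℕ => (n : ℚ)) h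
  push_cast at h'
  rw [ModularCurve.genusFormula]
  linear_combination h' / 2 - h2 / 4 - h3 / 6

end FLTAgent.MFDim

end
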