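import Fermat.Prelude.Thm_ModularForm_sturm_bound_Gamma0

/-!
# Weight two cusp forms of level one and two vanish

`cuspForm_weight_two_eq_zero`: no weight two cusp form on `Γ₀(N)` of index at most five, in
particular none at levels one and two.
-/

set_option autoImplicit false

open UpperHalfPlane
open scoped MatrixGroups

namespace FLTAgent.MFDim

open CongruenceSubgroup in
/-- `Γ₀(2)` has index at most `5`. -/
theorem index_Gamma0_two_le : (Gamma0 2).index ≤ 5 := by
  classical
  let F : SL(2, ℤ) ⧸ Gamma0 2 → {v : ZMod 2 × ZMod 2 // v ≠ 0} :=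
    Quotient.lift (fun g => ⟨((g 0 0 : ZMod 2), (g 1 0 : ZMod 2)), by
      intro h
      have hd := Matrix.det_fin_two (g : Matrix (Fin 2) (Fin 2) ℤ)
      rw [g.2] at hd
      have := congrArg (fun x : ℤ => (x : ZMod 2)) hd
      simp only [Prod.mk_eq_zero] at h
      push_cast at this
      rw [h.1, h.2] at this
      simp at this⟩) (by
      intro g h hgh
      have hm : g⁻¹ * h ∈ Gamma0 2 := QuotientGroup.leftRel_apply.mp hgh
      obtain ⟨x, rfl⟩ : ∃ x, h = g * x := ⟨g⁻¹ * h, by group⟩
      rw [inv_mul_cancel_left, Gamma0_mem] at hm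
      have h00 : (x 0 0 : ZMod 2) = 1 := by
        have hd := Matrix.det_fin_two (x : Matrix (Fin 2) (Fin 2) ℤ)
        rw [x.2] at hd
        have := congrArg (fun x : ℤ => (x : ZMod 2)) hd
        push_cast at this
        rw [hm, mul_zero, sub_zero] at this
        revert this
        generalize (x 0 0 : ZMod 2) = u
        generalize (x 1 1 : ZMod 2) = v
        revert u v
        decide
      ext <;>
        simp [Matrix.SpecialLinearGroup.coe_mul, Matrix.mul_apply, Fin.sum_univ_two, hm, h00])
  have hF : Function.Injective F := by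
    intro a b
    induction a using Quotient.inductionOn with | h g =>
    induction b using Quotient.inductionOn with | h h =>
    intro hab
    simp only [F, Quotient.lift_mk, Subtype.mk.injEq, Prod.mk.injEq] at hab
    apply Quotient.sound
    show (QuotientGroup.leftRel _) g h
    rw [QuotientGroup.leftRel_apply, Gamma0_mem]
    simp [Matrix.SpecialLinearGroup.coe_mul, Matrix.mul_apply, Fin.sum_univ_two,
      Matrix.SpecialLinearGroup.coe_inv, Matrix.adjugate_fin_two]
    rw [← hab.1, ← hab.2]
    generalize (g 1 0 : ZMod 2) = u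
    generalize (g 0 0 : ZMod 2) = v
    revert u v
    decide
  calc (Gamma0 2).index = Nat.card (SL(2, ℤ) ⧸ Gamma0 2) := rfl
    _ ≤ Nat.card {v : ZMod 2 × ZMod 2 // v ≠ 0} := Nat.card_le_card_of_injective F hF
    _ ≤ 5 := by
        rw [Nat.card_eq_fintype_card]
        decide

/-- There is no cusp form of weight two on `Γ₀(N)` of index at most `5`. -/
theorem cuspForm_weight_two_eq_zero (N : ℕ) [NeZero N]
    (hN : (CongruenceSubgroup.Gamma0 N).index ≤ 5)
    (f : CuspForm (CongruenceSubgroup.Gamma0 N) 2) : f = 0 := by
  have key : ModularFormClass.modularForm f = 0 := by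
    apply ModularForm.sturm_bound_Gamma0 N
    intro n hn
    obtain rfl : n = 0 := by omega
    have h1 : (1 : ℝ) ∈ ((CongruenceSubgroup.Gamma0 N : Subgroup SL(2, ℤ)) :
        Subgroup (GL (Fin 2) ℝ)).strictPeriods := by
      simp [CongruenceSubgroup.strictPeriods_Gamma0]
    exact CuspFormClass.qExpansion_coeff_zero f one_pos h1
  ext z
  exact DFunLike.congr_fun key z

end FLTAgent.MFDim
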