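import Mathlib

/-!
# Cosets of `Γ₀(N)` in `SL(2, ℤ)` and primitive vectors of `(ZMod N)²`

`col` sends `g` to the reduction modulo `N` of its first column; it identifies
`(SL(2, ℤ) ⧸ Γ₀(N)) × (ZMod N)ˣ` with the set `Prim N` of primitive vectors.
-/

set_option autoImplicit false

open scoped MatrixGroups
open CongruenceSubgroup

namespace FLTAgent.MFDim

variable (N : ℕ)

/-- The coset space `SL(2, ℤ) ⧸ Γ₀(N)`. -/
abbrev Cos : Type := SL(2, ℤ) ⧸ Gamma0 N

/-- Primitive vectors of `(ZMod N)²`. -/
abbrev Prim : Type := {v : ZMod N × ZMod N // ∃ a b : ZMod N, a * v.1 + b * v.2 = 1}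

/-- Number of orbits of (the group generated by) `g` on a type. -/
noncomputable def orbCount {G : Type*} [Group G] (X : Type*) [MulAction G X] (g : G) : ℕ :=
  Nat.card (Quotient (MulAction.orbitRel (Subgroup.zpowers g) X))

variable {N}

/-- Action of an integral matrix on pairs modulo `N`. -/
def actVec (g : SL(2, ℤ)) (v : ZMod N × ZMod N) : ZMod N × ZMod N :=
  ((g 0 0 : ZMod N) * v.1 + (g 0 1 : ZMod N) * v.2, (g 1 0 : ZMod N) * v.1 + (g 1 1 : ZMod N) * v.2)

lemma det_cast (g : SL(2, ℤ)) :
    (g 0 0 : ZMod N) * (g 1 1 : ZMod N) - (g 0 1 : ZMod N) * (g 1 0 : ZMod N) = 1 := by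
  have hd := Matrix.det_fin_two (g : Matrix (Fin 2) (Fin 2) ℤ)
  rw [g.2] at hd
  have := congrArg (fun x : ℤ => (x : ZMod N)) hd.symm
  push_cast at this
  exact this

/-- The first column modulo `N`. -/
def col (g : SL(2, ℤ)) : Prim N :=
  ⟨((g 0 0 : ZMod N), (g 1 0 : ZMod N)), (g 1 1 : ZMod N), -(g 0 1 : ZMod N), by
    linear_combination det_cast (N := N) g⟩

lemma col_mul (g h : SL(2, ℤ)) : (col (g * h)).1 = actVec g (col h : Prim N).1 := by
  simp [col, actVec, Matrix.SpecialLinearGroup.coe_mul, Matrix.mul_apply, Fin.sum_univ_two]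

lemma actVec_smul (g : SL(2, ℤ)) (c : ZMod N) (v : ZMod N × ZMod N) :
    actVec g (c • v) = c • actVec g v := by
  simp only [actVec, Prod.smul_fst, Prod.smul_snd, smul_eq_mul, Prod.smul_mk]
  ext <;> ring

/-- Scaling a primitive vector by a unit. -/
def unitSmul (u : (ZMod N)ˣ) (v : Prim N) : Prim N :=
  ⟨(u : ZMod N) • v.1, by
    obtain ⟨a, b, h⟩ := v.2
    refine ⟨a * ↑u⁻¹, b * ↑u⁻¹, ?_⟩
    simp only [Prod.smul_fst, Prod.smul_snd, smul_eq_mul]
    linear_combination h + (a * v.1.1 + b * v.1.2) * Units.inv_mul u⟩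

@[simp] lemma unitSmul_val (u : (ZMod N)ˣ) (v : Prim N) :
    (unitSmul u v).1 = (u : ZMod N) • v.1 := rfl

lemma unitSmul_inj {u u' : (ZMod N)ˣ} {v : Prim N}
    (h : unitSmul u v = unitSmul u' v) : u = u' := by
  obtain ⟨a, b, hv⟩ := v.2
  have h' := congrArg Subtype.val h
  simp only [unitSmul_val, Prod.ext_iff, Prod.smul_fst, Prod.smul_snd, smul_eq_mul] at h'
  ext
  linear_combination a * h'.1 + b * h'.2 - ((u : ZMod N) - u') * hv

/-- Two cosets agree iff the first columns are proportional by a unit. -/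
lemma mk_eq_mk_iff (g h : SL(2, ℤ)) :
    ((g : Cos N) = (h : Cos N)) ↔ ∃ u : (ZMod N)ˣ, (col h : Prim N).1 =
        (u : ZMod N) • (col g).1 := by
  rw [QuotientGroup.eq]
  constructor
  · intro hm
    rw [Gamma0_mem] at hm
    have hu : IsUnit (((g⁻¹ * h) 0 0 : ℤ) : ZMod N) := by
      have := det_cast (N := N) (g⁻¹ * h)
      rw [hm, mul_zero, sub_zero] at this
      exact IsUnit.of_mul_eq_one _ this
    refine ⟨hu.unit, ?_⟩
    have hh : h = g * (g⁻¹ * h) := by group
    conv_lhs => rw [hh]
    rw [col_mul, IsUnit.unit_spec]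
    refine Prod.ext ?_ ?_ <;>
      simp only [actVec, col, hm, Prod.smul_fst, Prod.smul_snd, smul_eq_mul] <;> ring
  · rintro ⟨u, hu⟩
    rw [Gamma0_mem]
    have hc : (col (g⁻¹ * h) : Prim N).1.2 = 0 := by
      rw [col_mul, hu, actVec_smul, ← col_mul, inv_mul_cancel]
      simp [col]
    simpa [col] using hc

lemma exists_col (v : Prim N) [NeZero N] : ∃ g : SL(2, ℤ), col g = v := by
  obtain ⟨a, b, hab⟩ := v.2
  set x := v.1.1.val
  set y := v.1.2.val + N with hy
  have hy0 : 0 < y := by have := NeZero.pos N; omega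
  have : NeZero y := ⟨hy0.ne'⟩
  set g := N.gcd y
  have hgN : g ∣ N := Nat.gcd_dvd_left N y
  have hgy : g ∣ y := Nat.gcd_dvd_right N y
  have hxunit : IsUnit ((x : ℕ) : ZMod g) := by
    have h1 : ((v.1.2.val : ℕ) : ZMod g) = 0 := by
      rw [ZMod.natCast_eq_zero_iff]
      have := (Nat.dvd_add_left hgN).mp hgy
      exact this
    have h2 := congrArg (ZMod.castHom hgN (ZMod g)) hab
    simp only [map_add, map_mul, map_one] at h2
    rw [← ZMod.natCast_zmod_val v.1.1, ← ZMod.natCast_zmod_val v.1.2, map_natCast, map_natCast,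
      h1, mul_zero, add_zero] at h2
    exact IsUnit.of_mul_eq_one_right _ h2
  obtain ⟨w, hw⟩ := ZMod.unitsMap_surjective hgy hxunit.unit
  have hcompat : x ≡ (w : ZMod y).val [MOD N.gcd y] := by
    rw [← ZMod.natCast_eq_natCast_iff]
    have := congrArg (Units.val) hw
    rw [ZMod.unitsMap_val, IsUnit.unit_spec] at this
    rw [← this, ZMod.cast_eq_val]
  obtain ⟨X, hX1, hX2⟩ := Nat.chineseRemainder' hcompat
  have hcop : Nat.Coprime X y := by
    rw [← ZMod.isUnit_iff_coprime]
    have : ((X : ℕ) : ZMod y) = (w : ZMod y) := by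
      rw [← ZMod.natCast_zmod_val (w : ZMod y), ZMod.natCast_eq_natCast_iff]
      exact hX2
    rw [this]
    exact w.isUnit
  obtain ⟨p, q, hpq⟩ := Nat.isCoprime_iff_coprime.mpr hcop
  refine ⟨⟨!![(X : ℤ), -q; (y : ℤ), p], ?_⟩, Subtype.ext ?_⟩
  · rw [Matrix.det_fin_two_of]
    linear_combination hpq
  · refine Prod.ext ?_ ?_
    · show (((X : ℕ) : ℤ) : ZMod N) = v.1.1
      rw [Int.cast_natCast, (ZMod.natCast_eq_natCast_iff _ _ _).mpr hX1, ZMod.natCast_zmod_val]
    · show (((y : ℕ) : ℤ) : ZMod N) = v.1.2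
      simp [hy]

/-- `(coset, unit) ↦ unit • first column` as a bijection. -/
noncomputable def primEquiv [NeZero N] : Cos N × (ZMod N)ˣ ≃ Prim N :=
  Equiv.ofBijective (fun p => unitSmul p.2 (col p.1.out)) <| by
    constructor
    · rintro ⟨q, u⟩ ⟨q', u'⟩ h
      have hq : q = q' := by
        rw [← QuotientGroup.out_eq' q, ← QuotientGroup.out_eq' q', mk_eq_mk_iff]
        refine ⟨u'⁻¹ * u, ?_⟩
        have h' := congrArg Subtype.val h
        simp only [unitSmul_val] at h'
        rw [Units.val_mul, mul_smul, h', ← mul_smul, Units.inv_mul, one_smul]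
      subst hq
      exact Prod.ext rfl (unitSmul_inj h)
    · intro v
      obtain ⟨g, rfl⟩ := exists_col v
      obtain ⟨u, hu⟩ := (mk_eq_mk_iff _ g).mp (QuotientGroup.out_eq' (g : Cos N))
      exact ⟨⟨(g : Cos N), u⟩, Subtype.ext hu.symm⟩

lemma primEquiv_apply [NeZero N] (p : Cos N × (ZMod N)ˣ) :
    (primEquiv p).1 = (p.2 : ZMod N) • (col p.1.out : Prim N).1 := rfl

lemma index_mul_totient [NeZero N] :
    (Gamma0 N).index * N.totient = Nat.card (Prim N) := by
  rw [← Nat.card_congr primEquiv, Nat.card_prod, Nat.card_eq_fintype_card (α := (ZMod N)ˣ),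
    ZMod.card_units_eq_totient]
  rfl

/-- Vectors fixed up to a unit by `g`. -/
abbrev EigVec (N : ℕ) (g : SL(2, ℤ)) : Type :=
  {v : Prim N // ∃ c : (ZMod N)ˣ, actVec g v.1 = (c : ZMod N) • v.1}

lemma card_fixed_mul_totient [NeZero N] (g : SL(2, ℤ)) :
    Nat.card {q : Cos N // g • q = q} * N.totient = Nat.card (EigVec N g) := by
  have e : {q : Cos N // g • q = q} × (ZMod N)ˣ ≃ EigVec N g := by
    refine (Equiv.prodSubtypeFstEquivSubtypeProd (p := fun q : Cos N => g • q = q)).symm.trans
      (Equiv.subtypeEquiv (p := fun p : Cos N × (ZMod N)ˣ => g • p.1 = p.1) primEquiv ?_)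
    rintro ⟨q, u⟩
    rw [primEquiv_apply, actVec_smul]
    conv_lhs => rw [← QuotientGroup.out_eq' q]
    rw [MulAction.Quotient.smul_coe, eq_comm, mk_eq_mk_iff, smul_eq_mul]
    constructor
    · rintro ⟨c, hc⟩
      exact ⟨c, by rw [← col_mul, hc, smul_comm]⟩
    · rintro ⟨c, hc⟩
      refine ⟨c, ?_⟩
      rw [smul_comm] at hc
      rw [col_mul]
      have := congrArg (fun w => ((u⁻¹ : (ZMod N)ˣ) : ZMod N) • w) hc
      simpa only [← mul_smul, ← mul_assoc, Units.inv_mul, one_mul, one_smul] using this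
  rw [← Nat.card_congr e, Nat.card_prod, Nat.card_eq_fintype_card (α := (ZMod N)ˣ),
    ZMod.card_units_eq_totient]

/-- `-1` lies in `Γ₀(N)`. -/
lemma neg_one_mem_Gamma0 : (-1 : SL(2, ℤ)) ∈ Gamma0 N := by
  simp

lemma neg_one_smul_cos (q : Cos N) : (-1 : SL(2, ℤ)) • q = q := by
  induction q using QuotientGroup.induction_on with | H g =>
  rw [MulAction.Quotient.smul_coe, QuotientGroup.eq, smul_eq_mul]
  simp

lemma coe_S_mul_T :
    ((ModularGroup.S * ModularGroup.T : SL(2, ℤ)) : Matrix (Fin 2) (Fin 2) ℤ) =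
        !![0, -1; 1, 1] := by
  simp [ModularGroup.coe_S, ModularGroup.coe_T]

lemma card_eigVec_S [NeZero N] :
    Nat.card (EigVec N ModularGroup.S) =
      Nat.card {x : ZMod N // x ^ 2 + 1 = 0} * N.totient := by
  have hS : ∀ v : ZMod N × ZMod N, actVec ModularGroup.S v = (-v.2, v.1) := by
    intro v; simp [actVec, ModularGroup.coe_S]
  let F : {x : ZMod N // x ^ 2 + 1 = 0} × (ZMod N)ˣ → EigVec N ModularGroup.S := fun p =>
    ⟨⟨(p.1.1 * p.2, (p.2 : ZMod N)), 0, ↑p.2⁻¹, by simp⟩,
      (IsUnit.of_mul_eq_one (a := p.1.1) (-p.1.1) (by linear_combination -p.1.2)).unit, by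
        rw [hS, IsUnit.unit_spec]
        refine Prod.ext ?_ ?_ <;> simp only [Prod.smul_fst, Prod.smul_snd, smul_eq_mul]
        linear_combination -(p.2 : ZMod N) * p.1.2⟩
  have hF : Function.Bijective F := by
    constructor
    · rintro ⟨r, u⟩ ⟨r', u'⟩ h
      simp only [F, Subtype.mk.injEq, Prod.mk.injEq] at h
      obtain rfl : u = u' := Units.ext h.2
      exact Prod.ext (Subtype.ext (by simpa using h.1)) rfl
    · rintro ⟨⟨⟨x, y⟩, a, b, hab⟩, c, hc⟩
      simp only [hS, Prod.ext_iff, Prod.smul_fst, Prod.smul_snd, smul_eq_mul] at hc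
      obtain ⟨h1, h2⟩ := hc
      dsimp only at hab
      have hy : IsUnit y := by
        refine IsUnit.of_mul_eq_one (a * c + b) ?_
        linear_combination hab - a * h2
      have hroot : (c : ZMod N) ^ 2 + 1 = 0 := by
        have : ((c : ZMod N) ^ 2 + 1) * y = 0 := by
          linear_combination -h1 - (c : ZMod N) * h2
        exact (hy.mul_left_eq_zero).mp this
      refine ⟨⟨⟨c, hroot⟩, hy.unit⟩, ?_⟩
      simp [F, h2]
  rw [← Nat.card_congr (Equiv.ofBijective F hF), Nat.card_prod,
    Nat.card_eq_fintype_card (α := (ZMod N)ˣ), ZMod.card_units_eq_totient]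

lemma card_eigVec_ST [NeZero N] :
    Nat.card (EigVec N (ModularGroup.S * ModularGroup.T)) =
      Nat.card {x : ZMod N // x ^ 2 + x + 1 = 0} * N.totient := by
  have hS : ∀ v : ZMod N × ZMod N,
      actVec (ModularGroup.S * ModularGroup.T) v = (-v.2, v.1 + v.2) := by
    intro v; rw [actVec, coe_S_mul_T]; simp
  let F : {x : ZMod N // x ^ 2 + x + 1 = 0} × (ZMod N)ˣ →
      EigVec N (ModularGroup.S * ModularGroup.T) := fun p =>
    ⟨⟨((p.2 : ZMod N), p.1.1 * p.2), ↑p.2⁻¹, 0, by simp⟩,
      (IsUnit.of_mul_eq_one (a := -p.1.1) (1 + p.1.1) (by linear_combination -p.1.2)).unit, by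
        rw [hS, IsUnit.unit_spec]
        refine Prod.ext ?_ ?_ <;> simp only [Prod.smul_fst, Prod.smul_snd, smul_eq_mul]
        · ring
        · linear_combination (p.2 : ZMod N) * p.1.2⟩
  have hF : Function.Bijective F := by
    constructor
    · rintro ⟨r, u⟩ ⟨r', u'⟩ h
      simp only [F, Subtype.mk.injEq, Prod.mk.injEq] at h
      obtain rfl : u = u' := Units.ext h.1
      exact Prod.ext (Subtype.ext (by simpa using h.2)) rfl
    · rintro ⟨⟨⟨x, y⟩, a, b, hab⟩, c, hc⟩
      simp only [hS, Prod.ext_iff, Prod.smul_fst, Prod.smul_snd, smul_eq_mul] at hc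
      obtain ⟨h1, h2⟩ := hc
      dsimp only at hab
      have hx : IsUnit x := by
        refine IsUnit.of_mul_eq_one (a - b * c) ?_
        linear_combination hab + b * h1
      have hroot : (-(c : ZMod N)) ^ 2 + -(c : ZMod N) + 1 = 0 := by
        have : ((-(c : ZMod N)) ^ 2 + -(c : ZMod N) + 1) * x = 0 := by
          linear_combination h2 + (1 - (c : ZMod N)) * h1
        exact (hx.mul_left_eq_zero).mp this
      refine ⟨⟨⟨-c, hroot⟩, hx.unit⟩, ?_⟩
      simp only [F, IsUnit.unit_spec, Subtype.mk.injEq, Prod.mk.injEq, true_and]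
      linear_combination h1
  rw [← Nat.card_congr (Equiv.ofBijective F hF), Nat.card_prod,
    Nat.card_eq_fintype_card (α := (ZMod N)ˣ), ZMod.card_units_eq_totient]

theorem card_fixed_S [NeZero N] :
    Nat.card {q : Cos N // ModularGroup.S • q = q} =
      Nat.card {x : ZMod N // x ^ 2 + 1 = 0} :=
  mul_right_cancel₀ (Nat.totient_pos.mpr (NeZero.pos N)).ne'
    ((card_fixed_mul_totient _).trans card_eigVec_S)

theorem card_fixed_ST [NeZero N] :
    Nat.card {q : Cos N // (ModularGroup.S * ModularGroup.T) • q = q} =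
      Nat.card {x : ZMod N // x ^ 2 + x + 1 = 0} :=
  mul_right_cancel₀ (Nat.totient_pos.mpr (NeZero.pos N)).ne'
    ((card_fixed_mul_totient _).trans card_eigVec_ST)

/-- Orbit count of an element of prime order (as a permutation). -/
lemma orbCount_of_prime {G X : Type*} [Group G] [MulAction G X] [Finite X] (g : G) {p : ℕ}
    (hp : p.Prime) (hg : ∀ x : X, g ^ p • x = x) :
    p * orbCount X g = Nat.card X + (p - 1) * Nat.card {x : X // g • x = x} := by
  classical
  let := Fintype.ofFinite X
  let r := MulAction.orbitRel (Subgroup.zpowers g) X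
  let π : X → Quotient r := Quotient.mk r
  let fib : Quotient r → Finset X := fun w => Finset.univ.filter fun x => π x = w
  have hfib : ∀ w, (fib w).card + (p - 1) * ((fib w).filter fun x => g • x = x).card = p := by
    intro w
    induction w using Quotient.inductionOn with | h x =>
    have hset : (fib (Quotient.mk r x) : Set X) = MulAction.orbit (Subgroup.zpowers g) x := by
      ext y
      simp [fib, π, r, Quotient.eq, MulAction.orbitRel_apply]
    have hcard : (fib (Quotient.mk r x)).card = Function.minimalPeriod (g • ·) x := by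
      rw [MulAction.minimalPeriod_eq_card, ← Set.toFinset_card]
      congr 1
      ext y
      rw [Set.mem_toFinset, ← hset, Finset.mem_coe]
    have hper : Function.IsPeriodicPt (g • ·) p x := by
      rw [Function.IsPeriodicPt, Function.IsFixedPt, smul_iterate]
      exact hg x
    rcases (Nat.dvd_prime hp).mp hper.minimalPeriod_dvd with h1 | h1
    · have hx : g • x = x := Function.minimalPeriod_eq_one_iff_isFixedPt.mp h1
      rw [h1] at hcard
      obtain ⟨y, hy⟩ := Finset.card_eq_one.mp hcard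
      have hxy : x = y := by
        have : x ∈ fib (Quotient.mk r x) := by simp [fib, π]
        rw [hy] at this
        simpa using this
      subst hxy
      rw [hy, Finset.filter_singleton, if_pos hx]
      simp only [Finset.card_singleton, mul_one]
      have := hp.pos
      omega
    · have hemp : ((fib (Quotient.mk r x)).filter fun y => g • y = y) = ∅ := by
        rw [Finset.filter_eq_empty_iff]
        intro y hy hgy
        have hy' : y ∈ MulAction.orbit (Subgroup.zpowers g) x := by rw [← hset]; exact hy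
        obtain ⟨⟨k, j, rfl⟩, rfl⟩ := hy'
        have hx : g • x = x := by
          simp only [Subgroup.smul_def] at hgy
          rw [smul_smul, ← zpow_one_add, add_comm, zpow_add, zpow_one, mul_smul] at hgy
          exact MulAction.injective _ hgy
        have hx' : Function.IsFixedPt (g • ·) x := hx
        have := Function.minimalPeriod_eq_one_iff_isFixedPt.mpr hx'
        exact hp.one_lt.ne' (h1.symm.trans this)
      rw [hemp, hcard, h1]
      simp
  have h1 : Nat.card X = ∑ w, (fib w).card := by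
    rw [Nat.card_eq_fintype_card, ← Finset.card_univ]
    exact Finset.card_eq_sum_card_fiberwise fun x _ => Finset.mem_univ (π x)
  have h2 : Nat.card {x : X // g • x = x} = ∑ w, ((fib w).filter fun x => g • x = x).card := by
    rw [Nat.card_eq_fintype_card, Fintype.card_subtype,
      Finset.card_eq_sum_card_fiberwise (f := π) (t := Finset.univ) fun x _ => Finset.mem_univ _]
    refine Finset.sum_congr rfl fun w _ => ?_
    simp only [fib, Finset.filter_filter, and_comm]
  rw [h1, h2, Finset.mul_sum, ← Finset.sum_add_distrib, Finset.sum_congr rfl fun w _ => hfib w,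
    Finset.sum_const, orbCount, Nat.card_eq_fintype_card, Finset.card_univ, smul_eq_mul, mul_comm]

lemma S_mul_S : ModularGroup.S * ModularGroup.S = (-1 : SL(2, ℤ)) := by
  ext i j
  fin_cases i <;> fin_cases j <;>
    simp [ModularGroup.coe_S, Matrix.mul_apply, Fin.sum_univ_two]

lemma ST_pow_three : (ModularGroup.S * ModularGroup.T) ^ 3 = (-1 : SL(2, ℤ)) := by
  ext i j
  rw [pow_succ, pow_two, Matrix.SpecialLinearGroup.coe_mul, Matrix.SpecialLinearGroup.coe_mul,
    coe_S_mul_T]
  fin_cases i <;> fin_cases j <;> simp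

theorem two_mul_orbCount_S [NeZero N] :
    2 * orbCount (Cos N) ModularGroup.S =
      (Gamma0 N).index + Nat.card {x : ZMod N // x ^ 2 + 1 = 0} := by
  rw [orbCount_of_prime _ Nat.prime_two fun q => by rw [pow_two, S_mul_S, neg_one_smul_cos],
    card_fixed_S, show (2 : ℕ) - 1 = 1 from rfl, one_mul]
  rfl

theorem three_mul_orbCount_ST [NeZero N] :
    3 * orbCount (Cos N) (ModularGroup.S * ModularGroup.T) =
      (Gamma0 N).index + 2 * Nat.card {x : ZMod N // x ^ 2 + x + 1 = 0} := by
  rw [orbCount_of_prime _ Nat.prime_three fun q => by rw [ST_pow_three, neg_one_smul_cos],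
    card_fixed_ST]
  rfl

end FLTAgent.MFDim
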