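import Fermat.Agent.MFDim.Cosets

/-!
# Orbits of the translation `T` on `SL(2, ℤ) ⧸ Γ₀(N)`: cusps

`orbCount_T` matches the `T`-orbits on the cosets with the `CuspIndex` pairs of a divisor and a
unit, via the criterion `T_orbit_iff` on first columns.
-/

set_option autoImplicit false

open scoped MatrixGroups
open CongruenceSubgroup

namespace FLTAgent.MFDim

variable {N : ℕ}

lemma actVec_T_zpow (t : ℤ) (v : ZMod N × ZMod N) :
    actVec (ModularGroup.T ^ t) v = (v.1 + (t : ZMod N) * v.2, v.2) := by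
  simp [actVec, ModularGroup.coe_T_zpow]

/-- Two cosets lie in the same `T`-orbit iff the first columns agree up to unit and translation. -/
lemma T_orbit_iff (g h : SL(2, ℤ)) :
    MulAction.orbitRel (Subgroup.zpowers ModularGroup.T) (Cos N) (h : Cos N) (g : Cos N) ↔
      ∃ (t : ℤ) (u : (ZMod N)ˣ), (col h : Prim N).1 =
        (u : ZMod N) • ((col g : Prim N).1.1 + (t : ZMod N) * (col g : Prim N).1.2,
          (col g : Prim N).1.2) := by
  rw [MulAction.orbitRel_apply, MulAction.mem_orbit_iff]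
  constructor
  · rintro ⟨⟨k, t, rfl⟩, hk⟩
    have hk' : ((ModularGroup.T ^ t * g : SL(2, ℤ)) : Cos N) = (h : Cos N) := hk
    obtain ⟨u, hu⟩ := (mk_eq_mk_iff _ _).mp hk'
    rw [col_mul, actVec_T_zpow] at hu
    exact ⟨t, u, hu⟩
  · rintro ⟨t, u, hu⟩
    refine ⟨⟨_, t, rfl⟩, ?_⟩
    show ((ModularGroup.T ^ t * g : SL(2, ℤ)) : Cos N) = (h : Cos N)
    exact (mk_eq_mk_iff _ _).mpr ⟨u, by rw [col_mul, actVec_T_zpow]; exact hu⟩

/-- A natural number congruent to a prescribed unit modulo `g` and coprime to a multiple `d`. -/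
lemma exists_coprime_rep {g d : ℕ} [NeZero d] (hgd : g ∣ d) (r : (ZMod g)ˣ) :
    ∃ x : ℕ, x.Coprime d ∧ (x : ZMod g) = r := by
  obtain ⟨w, hw⟩ := ZMod.unitsMap_surjective hgd r
  refine ⟨(w : ZMod d).val, ZMod.val_coe_unit_coprime w, ?_⟩
  rw [← hw, ZMod.unitsMap_val, ZMod.cast_eq_val]

lemma neZero_gcd_div [NeZero N] {δ : ℕ} (hδ : δ ∣ N) : NeZero (Nat.gcd δ (N / δ)) :=
  ⟨(Nat.gcd_pos_of_pos_left _ (Nat.pos_of_dvd_of_pos hδ (NeZero.pos N))).ne'⟩

lemma move_rep [NeZero N] {δ : ℕ} (hδ : δ ∣ N) {x x' : ℕ} (hx : x.Coprime δ) (hx' : x'.Coprime δ)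
    (h : (x : ZMod (Nat.gcd δ (N / δ))) = x') :
    ∃ (u : (ZMod N)ˣ) (t : ℤ), (u : ZMod N) * δ = δ ∧
      (x' : ZMod N) = (u : ZMod N) * ((x : ZMod N) + (t : ZMod N) * δ) := by
  have : NeZero δ := ⟨(Nat.pos_of_dvd_of_pos hδ (NeZero.pos N)).ne'⟩
  set g := Nat.gcd δ (N / δ)
  have hg : g ∣ δ := Nat.gcd_dvd_left _ _
  set w : (ZMod δ)ˣ := ZMod.unitOfCoprime x' hx' * (ZMod.unitOfCoprime x hx)⁻¹
  have hw1 : ZMod.unitsMap hg w = 1 := by
    have e : ZMod.unitsMap hg (ZMod.unitOfCoprime x' hx') =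
        ZMod.unitsMap hg (ZMod.unitOfCoprime x hx) := by
      ext
      simp only [ZMod.unitsMap_val, ZMod.coe_unitOfCoprime, ZMod.cast_natCast hg]
      exact h.symm
    rw [map_mul, map_inv, e, mul_inv_cancel]
  have hcompat : (w : ZMod δ).val ≡ 1 [MOD δ.gcd (N / δ)] := by
    rw [← ZMod.natCast_eq_natCast_iff, Nat.cast_one]
    have := congrArg Units.val hw1
    rw [ZMod.unitsMap_val, Units.val_one, ZMod.cast_eq_val] at this
    exact this
  obtain ⟨k, hk1, hk2⟩ := Nat.chineseRemainder' hcompat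
  have hkw : (k : ZMod δ) = (w : ZMod δ) := by
    rw [← ZMod.natCast_zmod_val (w : ZMod δ), ZMod.natCast_eq_natCast_iff]
    exact hk1
  have hkN : k.Coprime N := by
    have h1 : k.Coprime δ := by
      rw [← ZMod.isUnit_iff_coprime, hkw]
      exact w.isUnit
    have h2 : k.Coprime (N / δ) := by
      rw [Nat.Coprime, hk2.gcd_eq, Nat.gcd_one_left]
    have := Nat.Coprime.mul_right h1 h2
    rwa [Nat.mul_div_cancel' hδ] at this
  have hkδ : (k : ZMod N) * δ = δ := by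
    rw [← Nat.cast_mul, ZMod.natCast_eq_natCast_iff]
    have := hk2.mul_left' δ
    rwa [mul_one, Nat.mul_div_cancel' hδ, mul_comm] at this
  obtain ⟨s, hs⟩ : (δ : ℤ) ∣ (x' : ℤ) - k * x := by
    rw [← ZMod.intCast_zmod_eq_zero_iff_dvd]
    push_cast
    rw [hkw, sub_eq_zero]
    show _ = ((w : ZMod δ)) * (x : ZMod δ)
    have : w * ZMod.unitOfCoprime x hx = ZMod.unitOfCoprime x' hx' := inv_mul_cancel_right _ _
    have := congrArg Units.val this
    simpa using this.symm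
  set u := ZMod.unitOfCoprime k hkN
  refine ⟨u, ((((u⁻¹ : (ZMod N)ˣ) : ZMod N)).val : ℤ) * s, hkδ, ?_⟩
  have hs' := congrArg (fun z : ℤ => (z : ZMod N)) hs
  push_cast at hs'
  have hu : (u : ZMod N) = k := ZMod.coe_unitOfCoprime k hkN
  push_cast
  rw [ZMod.natCast_zmod_val]
  linear_combination hs' - (δ : ZMod N) * s * Units.mul_inv u - (x : ZMod N) * hu

lemma exists_unit_mul_divisor [NeZero N] (y : ZMod N) :
    ∃ (δ : ℕ) (u : (ZMod N)ˣ), δ ∣ N ∧ y = (u : ZMod N) * δ := by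
  set δ := Nat.gcd y.val N
  have hδN : δ ∣ N := Nat.gcd_dvd_right _ _
  have hδ0 : 0 < δ := Nat.gcd_pos_of_pos_right _ (NeZero.pos N)
  have hcop : (y.val / δ).Coprime (N / δ) := Nat.coprime_div_gcd_div_gcd hδ0
  obtain ⟨k, hkN, hk⟩ := exists_coprime_rep (d := N) (Nat.div_dvd_of_dvd hδN)
    (ZMod.unitOfCoprime _ hcop)
  refine ⟨δ, ZMod.unitOfCoprime k hkN, hδN, ?_⟩
  rw [ZMod.coe_unitOfCoprime, ← Nat.cast_mul]
  conv_lhs => rw [← ZMod.natCast_zmod_val y]
  rw [ZMod.natCast_eq_natCast_iff]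
  have h1 : k ≡ y.val / δ [MOD N / δ] := by
    rw [← ZMod.natCast_eq_natCast_iff]
    simpa using hk
  have := (h1.mul_left' δ).symm
  rwa [Nat.mul_div_cancel' hδN, Nat.mul_div_cancel' (Nat.gcd_dvd_left y.val N), mul_comm δ k]
    at this

lemma divisor_eq_of_unit_mul [NeZero N] {δ δ' : ℕ} (hδ : δ ∣ N) (hδ' : δ' ∣ N) (u : (ZMod N)ˣ)
    (h : (δ' : ZMod N) = (u : ZMod N) * δ) : δ' = δ := by
  have key : ∀ {a b : ℕ} (c : ZMod N), a ∣ N → (b : ZMod N) = c * a → a ∣ b := by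
    intro a b c ha hb
    rw [← ZMod.natCast_zmod_val c, ← Nat.cast_mul, ZMod.natCast_eq_natCast_iff] at hb
    exact (Nat.ModEq.dvd_iff (hb.of_dvd ha) dvd_rfl).mpr (dvd_mul_left _ _)
  refine Nat.dvd_antisymm (key ((u⁻¹ : (ZMod N)ˣ) : ZMod N) hδ' ?_) (key _ hδ h)
  rw [h, ← mul_assoc, Units.inv_mul, one_mul]

/-- Index type of the cusps: a divisor `δ` and a unit modulo `gcd δ (N / δ)`. -/
abbrev CuspIndex (N : ℕ) : Type :=
  Σ δ : N.divisors, (ZMod (Nat.gcd δ.1 (N / δ.1)))ˣ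

theorem orbCount_T [NeZero N] :
    orbCount (Cos N) ModularGroup.T = ∑ δ ∈ N.divisors, Nat.totient (Nat.gcd δ (N / δ)) := by
  classical
  have hdvd : ∀ δ : N.divisors, δ.1 ∣ N := fun δ => Nat.dvd_of_mem_divisors δ.2
  have hnz : ∀ δ : N.divisors, NeZero δ.1 := fun δ =>
    ⟨(Nat.pos_of_dvd_of_pos (hdvd δ) (NeZero.pos N)).ne'⟩
  have hchoice : ∀ i : CuspIndex N, ∃ g : SL(2, ℤ), ∃ x : ℕ, x.Coprime i.1.1 ∧
      (x : ZMod (Nat.gcd i.1.1 (N / i.1.1))) = i.2 ∧
      (col g : Prim N).1 = ((x : ZMod N), (i.1.1 : ZMod N)) := by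
    rintro ⟨δ, r⟩
    have := hnz δ
    obtain ⟨x, hx, hxr⟩ := exists_coprime_rep (Nat.gcd_dvd_left δ.1 (N / δ.1)) r
    obtain ⟨p, q, hpq⟩ := Nat.isCoprime_iff_coprime.mpr hx
    have hv : ∃ a b : ZMod N, a * (x : ZMod N) + b * (δ.1 : ZMod N) = 1 :=
      ⟨p, q, by exact_mod_cast congrArg (fun z : ℤ => (z : ZMod N)) hpq⟩
    obtain ⟨g, hg⟩ := exists_col (⟨((x : ZMod N), (δ.1 : ZMod N)), hv⟩ : Prim N)
    exact ⟨g, x, hx, hxr, congrArg Subtype.val hg⟩
  choose G x hx hxr hG using hchoice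
  let F : CuspIndex N → Quotient (MulAction.orbitRel (Subgroup.zpowers ModularGroup.T) (Cos N)) :=
    fun i => Quotient.mk _ (G i : Cos N)
  have hF : Function.Bijective F := by
    constructor
    · intro i i' hii
      obtain ⟨t, u, hu⟩ := (T_orbit_iff (G i') (G i)).mp (Quotient.exact hii)
      rw [hG, hG, Prod.ext_iff] at hu
      simp only [Prod.smul_fst, Prod.smul_snd, smul_eq_mul] at hu
      obtain ⟨δ, r⟩ := i
      obtain ⟨δ', r'⟩ := i'
      dsimp only at hu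
      obtain rfl : δ = δ' := Subtype.ext (divisor_eq_of_unit_mul (hdvd δ') (hdvd δ) u hu.2)
      suffices h : r = r' by rw [h]
      have hgN : Nat.gcd δ.1 (N / δ.1) ∣ N := (Nat.gcd_dvd_left _ _).trans (hdvd δ)
      have hug : ZMod.castHom hgN (ZMod (Nat.gcd δ.1 (N / δ.1))) (u : ZMod N) = 1 := by
        have h2 := hu.2
        rw [← ZMod.natCast_zmod_val (u : ZMod N), ← Nat.cast_mul, ZMod.natCast_eq_natCast_iff]
          at h2
        have h3 : 1 ≡ (u : ZMod N).val [MOD N / δ.1] := by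
          apply Nat.ModEq.mul_left_cancel' (hnz δ).ne
          rwa [mul_one, Nat.mul_div_cancel' (hdvd δ), mul_comm]
        have h4 := (ZMod.natCast_eq_natCast_iff _ _ (Nat.gcd δ.1 (N / δ.1))).mpr
          (h3.of_dvd (Nat.gcd_dvd_right _ _))
        rw [← ZMod.natCast_zmod_val (u : ZMod N), map_natCast, ← h4, Nat.cast_one]
      have h5 := congrArg (ZMod.castHom hgN (ZMod (Nat.gcd δ.1 (N / δ.1)))) hu.1
      rw [map_natCast, map_mul, hug, one_mul, map_add, map_mul, map_natCast, map_natCast,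
        (ZMod.natCast_eq_zero_iff _ _).mpr (Nat.gcd_dvd_left _ _), mul_zero, add_zero] at h5
      exact Units.ext ((hxr ⟨δ, r⟩).symm.trans (h5.trans (hxr ⟨δ, r'⟩)))
    · intro w
      induction w using Quotient.inductionOn with | h q =>
      induction q using QuotientGroup.induction_on with | H g =>
      obtain ⟨δ, u, hδ, hy⟩ := exists_unit_mul_divisor (col g : Prim N).1.2
      set x₁ : ℕ := (((u⁻¹ : (ZMod N)ˣ) : ZMod N) * (col g : Prim N).1.1).val
      have hx₁ : (col g : Prim N).1.1 = (u : ZMod N) * x₁ := by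
        rw [ZMod.natCast_zmod_val, ← mul_assoc, Units.mul_inv, one_mul]
      have : NeZero δ := ⟨(Nat.pos_of_dvd_of_pos hδ (NeZero.pos N)).ne'⟩
      have hcop : x₁.Coprime δ := by
        obtain ⟨a, b, hab⟩ := (col g : Prim N).2
        rw [hy, hx₁] at hab
        have h1 := congrArg (ZMod.castHom hδ (ZMod δ)) hab
        simp only [map_add, map_mul, map_natCast, map_one, ZMod.natCast_self, mul_zero, add_zero,
          ← mul_assoc] at h1
        exact (ZMod.isUnit_iff_coprime _ _).mp (IsUnit.of_mul_eq_one_right _ h1)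
      have := neZero_gcd_div hδ
      set δ' : N.divisors := ⟨δ, Nat.mem_divisors.mpr ⟨hδ, NeZero.ne N⟩⟩
      set i : CuspIndex N := ⟨δ', ZMod.unitOfCoprime x₁
        (hcop.coprime_dvd_right (Nat.gcd_dvd_left δ (N / δ)))⟩
      obtain ⟨v, t, hvδ, hvx⟩ := move_rep hδ hcop (hx i) (hxr i).symm
      refine ⟨i, Quotient.sound ((T_orbit_iff g (G i)).mpr ⟨t, v * u⁻¹, ?_⟩)⟩
      rw [hG, hy, hx₁]
      refine Prod.ext ?_ ?_ <;>
        simp only [Prod.smul_fst, Prod.smul_snd, smul_eq_mul, Units.val_mul]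
      · linear_combination hvx - (v : ZMod N) * ((x₁ : ZMod N) + (t : ZMod N) * δ) * Units.inv_mul u
      · linear_combination -hvδ - (v : ZMod N) * δ * Units.inv_mul u
  have : ∀ δ : N.divisors, NeZero (Nat.gcd δ.1 (N / δ.1)) := fun δ => neZero_gcd_div (hdvd δ)
  refine (Nat.card_congr (Equiv.ofBijective F hF)).symm.trans ?_
  rw [Nat.card_sigma, ← Finset.sum_coe_sort N.divisors]
  exact Finset.sum_congr rfl fun δ _ => by
    rw [Nat.card_eq_fintype_card, ZMod.card_units_eq_totient]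

end FLTAgent.MFDim
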