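import Fermat.Agent.MFDim.Duality
import Fermat.Agent.MFDim.Cosets

/-!
# Counting generators; the dimension of weight two cusp forms

Counts the generators of the forms over level one weight by weight and deduces
`two_mul_finrank_SSpace_two`, the dimension formula for weight two cusp forms of a subgroup with a
separating form.
-/

set_option autoImplicit false

noncomputable section

open UpperHalfPlane Filter Function
open scoped MatrixGroups ModularForm Manifold Topology

namespace FLTAgent.MFDim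


variable {Γ : Subgroup SL(2, ℤ)} [Γ.FiniteIndex] {k : ℤ}

lemma SSpace.eq_zero_of_nonpos {f : ℍ → ℂ} (hk : k ≤ 0) (hf : f ∈ SSpace Γ k) : f = 0 := by
  rcases hk.lt_or_eq with h | rfl
  · exact MSpace.eq_zero_of_neg h hf.1
  · obtain ⟨c, rfl⟩ := MSpace.eq_const hf.1
    have h1 := hf.2 1
    rw [SlashAction.slash_one] at h1
    have : Tendsto (fun _ : ℍ => c) atImInfty (𝓝 0) := h1.congr fun τ => by simp
    rw [tendsto_nhds_unique tendsto_const_nhds this, zero_smul]

omit [Γ.FiniteIndex] in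
lemma MSpace.eq_zero_of_odd {f : ℍ → ℂ} (hneg : (-1 : SL(2, ℤ)) ∈ Γ) (hk : Odd k)
    (hf : f ∈ MSpace Γ k) : f = 0 := by
  funext z
  have h := congrFun (MSpace.slash_eq hf hneg) z
  rw [ModularForm.SL_slash_apply] at h
  have h1 : ((-1 : SL(2, ℤ)) • z) = z := by
    ext1
    simp
  rw [h1, ModularGroup.denom_apply,
    show ((((-1 : SL(2, ℤ)) 1 0 : ℤ) : ℂ) * (z : ℂ) + (((-1 : SL(2, ℤ)) 1 1 : ℤ) : ℂ)) = -1 by
      simp, hk.neg.neg_zpow, one_zpow] at h
  simp only [Pi.zero_apply]
  linear_combination -h / 2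

/-- All data: a separating form and minimal generators. -/
structure Setup (Γ : Subgroup SL(2, ℤ)) [Γ.FiniteIndex] where
  S : SepForm Γ
  B : Gens Γ
  neg : (-1 : SL(2, ℤ)) ∈ Γ

namespace Setup

variable (P : Setup Γ)

/-- The dual cusp forms. -/
def dual (a : P.B.Idx) : ℍ → ℂ := (P.S.exists_dual P.B a).choose

lemma dual_mem (a : P.B.Idx) : P.dual a ∈ SSpace Γ (12 - P.B.wt a) :=
  (P.S.exists_dual P.B a).choose_spec.1

lemma tr_dual (a : P.B.Idx) {k : ℤ} {f : ℍ → ℂ} (hf : f ∈ MSpace Γ k) :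
    tr Γ (k + (12 - P.B.wt a)) (f * P.dual a) = dF * P.B.coef a k f :=
  (P.S.exists_dual P.B a).choose_spec.2 k f hf

open Classical in
lemma tr_gen_dual (a b : P.B.Idx) :
    tr Γ (P.B.wt b + (12 - P.B.wt a)) (P.B.g b * P.dual a) = dF * (if a = b then 1 else 0) := by
  rw [P.tr_dual a (P.B.mem b.1 b.2), Gens.coef_gen]

lemma wt_lt_twelve (a : P.B.Idx) : P.B.wt a < 12 := by
  classical
  by_contra h
  have h0 := SSpace.eq_zero_of_nonpos (by omega) (P.dual_mem a)
  have h1 := congrFun (P.tr_gen_dual a a) UpperHalfPlane.I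
  rw [h0, mul_zero, tr_apply, if_pos rfl, mul_one] at h1
  simp only [sh_zero, Pi.zero_apply, Finset.sum_const_zero] at h1
  exact dF_ne_zero _ h1.symm

instance : Fintype P.B.Idx :=
  ⟨P.B.upTo 11, fun a => by
    rw [Gens.mem_upTo]
    have := P.wt_lt_twelve a
    omega⟩

lemma mem_upTo_eleven (a : P.B.Idx) : a ∈ P.B.upTo 11 := by
  rw [Gens.mem_upTo]
  have := P.wt_lt_twelve a
  omega

lemma sum_univ_eq (x : P.B.Idx → ℍ → ℂ) (hx : ∀ a, x a ∈ LSpace (k - P.B.wt a)) :
    ∑ a, x a * P.B.g a = ∑ a ∈ P.B.upTo k, x a * P.B.g a := by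
  refine (Finset.sum_subset (Finset.subset_univ _) fun a _ ha => ?_).symm
  rw [Gens.mem_upTo] at ha
  rw [LSpace.eq_zero_of_neg (by omega) (hx a), zero_mul]

/-- Coordinates of a form. -/
def mEquiv (k : ℤ) : MSpace Γ k ≃ₗ[ℂ] ∀ a : P.B.Idx, LSpace (k - P.B.wt a) :=
  LinearEquiv.symm
    { toFun := fun x => ⟨∑ a, (x a).1 * P.B.g a, by
        exact Gens.sum_mem (fun a => (x a).1) (fun a => (x a).2) _⟩
      map_add' := fun x y => Subtype.ext (by simp [add_mul, Finset.sum_add_distrib])
      map_smul' := fun c x => Subtype.ext (by simp [Finset.smul_sum])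
      invFun := fun f a => ⟨P.B.coef a k f.1, P.B.coef_mem a k f.1⟩
      left_inv := fun x => funext fun a => Subtype.ext (Gens.coef_unique (fun a => (x a).2)
        (P.sum_univ_eq _ fun a => (x a).2) a)
      right_inv := fun f => Subtype.ext (by
        change ∑ a, P.B.coef a k f.1 * P.B.g a = f.1
        rw [P.sum_univ_eq _ fun a => P.B.coef_mem a k f.1, ← Gens.coef_spec f.2]) }

lemma finrank_MSpace (k : ℤ) :
    Module.finrank ℂ (MSpace Γ k) = ∑ a, Module.finrank ℂ (LSpace (k - P.B.wt a)) := by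
  rw [(P.mEquiv k).finrank_eq, Module.finrank_pi_fintype]

lemma tr_smul_dual {x : ℍ → ℂ} {a b : P.B.Idx} (hx : x ∈ LSpace (k + P.B.wt a - 12)) :
    tr Γ (P.B.wt b + k) (P.B.g b * (x * P.dual a)) =
      (x * dF) * P.B.coef a (P.B.wt b) (P.B.g b) := by
  rw [mul_left_comm, tr_mul_left (k₂ := P.B.wt b + (12 - P.B.wt a)) (by ring) hx,
    P.tr_dual a (P.B.mem b.1 b.2), mul_assoc]

/-- Coordinates of a cusp form. -/
def sMap (k : ℤ) : (∀ a : P.B.Idx, LSpace (k + P.B.wt a - 12)) →ₗ[ℂ] SSpace Γ k where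
  toFun x := ⟨∑ a, (x a).1 * P.dual a, Submodule.sum_mem _ fun a _ =>
    mul_mem_SSpace (k₁ := k + P.B.wt a - 12) (by ring) (LSpace_le_MSpace (x a).2) (P.dual_mem a)⟩
  map_add' x y := Subtype.ext (by simp [add_mul, Finset.sum_add_distrib])
  map_smul' c x := Subtype.ext (by simp [Finset.smul_sum])

lemma tr_gen_sMap (x : ∀ a : P.B.Idx, LSpace (k + P.B.wt a - 12)) (b : P.B.Idx) :
    tr Γ (P.B.wt b + k) (P.B.g b * (P.sMap k x).1) = dF * (x b).1 := by
  classical
  change tr Γ _ (P.B.g b * ∑ a, (x a).1 * P.dual a) = _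
  simp only [Finset.mul_sum, tr_sum, P.tr_smul_dual (x _).2, Gens.coef_gen, mul_ite, mul_one,
    mul_zero, Finset.sum_ite_eq', Finset.mem_univ, if_true]
  rw [mul_comm]

lemma exists_trace_quotient (b : P.B.Idx) {s : ℍ → ℂ} (hs : s ∈ SSpace Γ k) :
    ∃ y ∈ LSpace (k + P.B.wt b - 12), tr Γ (P.B.wt b + k) (P.B.g b * s) = dF * y := by
  have hm := mul_mem_SSpace (k := P.B.wt b + k) rfl (P.B.mem b.1 b.2) hs
  have hz : Tendsto (tr Γ (P.B.wt b + k) (P.B.g b * s)) atImInfty (𝓝 0) := by
    have := tendsto_finsetSum (Finset.univ : Finset (SL(2, ℤ) ⧸ Γ)) fun q _ => hm.2 q.out⁻¹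
    simp only [Finset.sum_const_zero] at this
    exact this.congr fun τ => (tr_apply _ _).symm
  obtain ⟨y, hy, hye⟩ := exists_eq_dF_mul (tr_mem hm.1) hz
  exact ⟨y, by rwa [show k + P.B.wt b - 12 = P.B.wt b + k - 12 by ring], hye⟩

lemma sMap_bijective (k : ℤ) : Bijective (P.sMap k) := by
  constructor
  · rw [← LinearMap.ker_eq_bot, LinearMap.ker_eq_bot']
    intro x hx
    funext b
    refine Subtype.ext (MFIntegral.mdiff_mul_cancel dF_mem.1 (fun h => dF_ne_zero UpperHalfPlane.I
      (congrFun h _)) (x b).2.1 mdifferentiable_const ?_)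
    rw [← P.tr_gen_sMap x b, hx]
    funext z
    simp [tr_apply, sh_zero]
  · intro s
    choose y hy hye using fun b => P.exists_trace_quotient b s.2
    refine ⟨fun b => ⟨y b, hy b⟩, Subtype.ext (sub_eq_zero.mp ?_)⟩
    set d := (P.sMap k fun b => ⟨y b, hy b⟩).1 - s.1
    have hd : d ∈ MSpace Γ k := sub_mem (P.sMap k _).2.1 s.2.1
    have hd0 : ∀ b, tr Γ (P.B.wt b + k) (P.B.g b * d) = 0 := fun b => by
      rw [show P.B.g b * d = P.B.g b * (P.sMap k fun b => ⟨y b, hy b⟩).1 +
          (-1 : ℂ) • (P.B.g b * s.1) by simp [d, sub_eq_add_neg, mul_add],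
        tr_add, tr_smul, P.tr_gen_sMap, hye b, neg_one_smul, add_neg_cancel]
    refine P.S.eq_zero_of_tr hd fun i => ?_
    have hθ := pow_mem_MSpace P.S.mem (i : ℕ) (k := ((i : ℕ) : ℤ) * 12) rfl
    rw [Gens.coef_spec (B := P.B) hθ, Finset.sum_mul, tr_sum]
    refine Finset.sum_eq_zero fun a _ => ?_
    rw [mul_assoc, tr_mul_left (k₂ := P.B.wt a + k) (by ring) (P.B.coef_mem a _ _), hd0 a, mul_zero]

lemma finrank_SSpace (k : ℤ) :
    Module.finrank ℂ (SSpace Γ k) = ∑ a, Module.finrank ℂ (LSpace (k + P.B.wt a - 12)) := by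
  rw [← (LinearEquiv.ofBijective _ (P.sMap_bijective k)).finrank_eq, Module.finrank_pi_fintype]

/-! ### Evaluation at a point -/

/-- Values of the translates of the generators at a point. -/
def val (z : ℍ) (a : P.B.Idx) (q : SL(2, ℤ) ⧸ Γ) : ℂ := sh Γ (P.B.wt a) (P.B.g a) q z

lemma val_linearIndependent (z : ℍ) : LinearIndependent ℂ (P.val z) := by
  classical
  rw [Fintype.linearIndependent_iff]
  intro c hc a
  have h : ∑ q, (∑ b, c b • P.val z b) q * sh Γ (12 - P.B.wt a) (P.dual a) q z = c a * dF z := by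
    simp only [Finset.sum_apply, Pi.smul_apply, smul_eq_mul, Finset.sum_mul]
    rw [Finset.sum_comm]
    have key : ∀ b, ∑ q, c b * P.val z b q * sh Γ (12 - P.B.wt a) (P.dual a) q z =
        c b * (dF z * if a = b then 1 else 0) := by
      intro b
      have h2 := congrFun (P.tr_gen_dual a b) z
      rw [tr_apply, Pi.mul_apply] at h2
      rw [show (dF z * if a = b then (1 : ℂ) else 0) =
        dF z * (if a = b then (1 : ℍ → ℂ) else 0) z by split_ifs <;> rfl, ← h2, Finset.mul_sum]
      refine Finset.sum_congr rfl fun q _ => ?_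
      rw [sh_mul (k₁ := P.B.wt b) rfl, Pi.mul_apply, val, mul_assoc]
    simp [key]
  rw [hc] at h
  simp only [Pi.zero_apply, zero_mul, Finset.sum_const_zero] at h
  exact (mul_eq_zero.mp h.symm).resolve_right (dF_ne_zero z)

lemma card_idx : Fintype.card P.B.Idx = Fintype.card (SL(2, ℤ) ⧸ Γ) := by
  classical
  refine le_antisymm ?_ ?_
  · simpa [Module.finrank_fintype_fun_eq_card] using
      (P.val_linearIndependent UpperHalfPlane.I).fintype_card_le_finrank
  · obtain ⟨z, hz⟩ : ∃ z, P.S.disc z ≠ 0 := by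
      by_contra h
      push Not at h
      exact P.S.disc_ne_zero (funext h)
    set L := Submodule.span ℂ (Set.range (P.val z))
    have hdet : IsUnit (P.S.vand z).det := by
      rw [isUnit_iff_ne_zero]
      intro h
      exact hz (by rw [P.S.disc_eq, h]; ring)
    have hli := Matrix.linearIndependent_cols_of_isUnit
      ((P.S.vand z).isUnit_iff_isUnit_det.mpr hdet)
    have hmem : ∀ i : Fin (Fintype.card (SL(2, ℤ) ⧸ Γ)),
        (fun q => sh Γ 12 P.S.θ q z ^ (i : ℕ)) ∈ L := by
      intro i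
      have hθ := pow_mem_MSpace P.S.mem (i : ℕ) (k := ((i : ℕ) : ℤ) * 12) rfl
      have e := Gens.coef_spec (B := P.B) hθ
      have he : (fun q => sh Γ 12 P.S.θ q z ^ (i : ℕ)) =
          ∑ a ∈ P.B.upTo (((i : ℕ) : ℤ) * 12),
            P.B.coef a (((i : ℕ) : ℤ) * 12) (P.S.θ ^ (i : ℕ)) z • P.val z a := by
        funext q
        have h3 := congrFun (congrArg (fun f => sh Γ (((i : ℕ) : ℤ) * 12) f q) e) z
        simp only [sh_pow (k₁ := (12 : ℤ)) _ _ _ rfl, sh_sum, Finset.sum_apply, Pi.pow_apply] at h3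
        rw [h3, Finset.sum_apply]
        refine Finset.sum_congr rfl fun a _ => ?_
        rw [sh_mul (k₁ := ((i : ℕ) : ℤ) * 12 - P.B.wt a) (k₂ := P.B.wt a) (by ring),
          sh_of_level_one (P.B.coef_mem a _ _)]
        rfl
      rw [he]
      exact Submodule.sum_mem _ fun a _ => Submodule.smul_mem _ _ (Submodule.subset_span ⟨a, rfl⟩)
    have hli2 : LinearIndependent ℂ fun i : Fin (Fintype.card (SL(2, ℤ) ⧸ Γ)) =>
        (⟨_, hmem i⟩ : L) := by
      apply LinearIndependent.of_comp L.subtype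
      rw [Fintype.linearIndependent_iff] at hli ⊢
      intro c hc i
      refine hli c ?_ i
      funext a
      have := congrFun hc ((Fintype.equivFin _).symm a)
      simpa [SepForm.vand, Finset.sum_apply] using this
    calc Fintype.card (SL(2, ℤ) ⧸ Γ) = Fintype.card (Fin (Fintype.card (SL(2, ℤ) ⧸ Γ))) := by simp
      _ ≤ Module.finrank ℂ L := hli2.fintype_card_le_finrank
      _ ≤ Fintype.card P.B.Idx := finrank_range_le_card (P.val z)

lemma val_span (z : ℍ) : Submodule.span ℂ (Set.range (P.val z)) = ⊤ :=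
  Submodule.eq_top_of_finrank_eq (by
    rw [finrank_span_eq_card (P.val_linearIndependent z), Module.finrank_fintype_fun_eq_card,
      P.card_idx])

end Setup

/-- Functions constant on the orbits of `g`. -/
def invFun' (X : Type*) [MulAction SL(2, ℤ) X] (g : SL(2, ℤ)) : Submodule ℂ (X → ℂ) where
  carrier := {v | ∀ x, v (g⁻¹ • x) = v x}
  zero_mem' := fun _ => rfl
  add_mem' := fun {v w} hv hw x => by simp [hv x, hw x]
  smul_mem' := fun c v hv x => by simp [hv x]

lemma finrank_invFun' {X : Type*} [MulAction SL(2, ℤ) X] [Finite X] (g : SL(2, ℤ)) :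
    Module.finrank ℂ (invFun' X g) = orbCount X g := by
  classical
  set r := MulAction.orbitRel (Subgroup.zpowers g) X
  have hconst : ∀ v ∈ invFun' X g, ∀ a b, r a b → v a = v b := by
    intro v hv a b hab
    obtain ⟨⟨h, n, rfl⟩, hn⟩ := (MulAction.orbitRel_apply.mp hab : a ∈ MulAction.orbit _ b)
    rw [← hn]
    change v ((g ^ n) • b) = v b
    clear hn hab
    induction n using Int.induction_on with
    | zero => simp
    | succ n ih =>
      have := hv ((g ^ ((n : ℤ) + 1)) • b)
      rw [add_comm, zpow_one_add, mul_smul, inv_smul_smul] at this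
      rw [add_comm, zpow_one_add, mul_smul, ← this, ih]
    | pred n ih =>
      rw [sub_eq_neg_add, zpow_add, zpow_neg_one, mul_smul, hv, ih]
  let e : invFun' X g ≃ₗ[ℂ] (Quotient r → ℂ) :=
    { toFun := fun v => Quotient.lift v.1 (hconst v.1 v.2)
      map_add' := fun v w => funext fun x => Quotient.inductionOn x fun a => rfl
      map_smul' := fun c v => funext fun x => Quotient.inductionOn x fun a => rfl
      invFun := fun w => ⟨fun x => w (Quotient.mk r x), fun x => congrArg w (Quotient.sound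
        (MulAction.orbitRel_apply.mpr ⟨⟨g⁻¹, -1, zpow_neg_one g⟩, rfl⟩))⟩
      left_inv := fun v => rfl
      right_inv := fun w => funext fun x => Quotient.inductionOn x fun a => rfl }
  have := Fintype.ofFinite (Quotient r)
  rw [e.finrank_eq, Module.finrank_fintype_fun_eq_card, orbCount, Nat.card_eq_fintype_card]

namespace Setup

variable (P : Setup Γ)

open Classical in
/-- Generators of weights invisible to an elliptic element count its orbits. -/
theorem card_elliptic (s : SL(2, ℤ)) (z : ℍ) (hs : s • z = z) :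
    (Finset.univ.filter fun a : P.B.Idx => denom (s : GL (Fin 2) ℝ) z ^ P.B.wt a = 1).card =
      orbCount (SL(2, ℤ) ⧸ Γ) s := by
  set l := denom (s : GL (Fin 2) ℝ) z
  set t := Finset.univ.filter fun a : P.B.Idx => l ^ P.B.wt a = 1
  have heig : ∀ a q, P.val z a (s⁻¹ • q) = l ^ (-P.B.wt a) * P.val z a q := by
    intro a q
    rw [val, ← sh_slash (P.B.mem a.1 a.2).2.1, ModularForm.SL_slash_apply, hs, val, mul_comm]
  let F : (t → ℂ) →ₗ[ℂ] (SL(2, ℤ) ⧸ Γ → ℂ) := Fintype.linearCombination ℂ fun a : t => P.val z a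
  have hinj : Injective F :=
    ((P.val_linearIndependent z).comp _ Subtype.val_injective).fintypeLinearCombination_injective
  have hrange : LinearMap.range F = invFun' (SL(2, ℤ) ⧸ Γ) s := by
    refine le_antisymm ?_ ?_
    · rintro _ ⟨c, rfl⟩ q
      simp only [F, Fintype.linearCombination_apply, Finset.sum_apply, Pi.smul_apply]
      refine Finset.sum_congr rfl fun a _ => ?_
      rw [heig, zpow_neg, (Finset.mem_filter.mp a.2).2, inv_one, one_mul]
    · intro v hv
      obtain ⟨c, hc⟩ := (Submodule.mem_span_range_iff_exists_fun ℂ).mp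
        (show v ∈ Submodule.span ℂ (Set.range (P.val z)) by rw [P.val_span z]; trivial)
      have hzero : ∑ a, (c a * (l ^ (-P.B.wt a) - 1)) • P.val z a = 0 := by
        funext q
        have h1 := congrFun hc q
        have h2 := congrFun hc (s⁻¹ • q)
        simp only [Finset.sum_apply, Pi.smul_apply, smul_eq_mul, heig] at h1 h2 ⊢
        rw [hv q, ← h1] at h2
        simp only [Pi.zero_apply, mul_sub, mul_one, sub_mul, Finset.sum_sub_distrib, sub_eq_zero]
        rw [← h2]
        exact Finset.sum_congr rfl fun a _ => by ring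
      have hc0 : ∀ a, a ∉ t → c a = 0 := by
        intro a ha
        refine (mul_eq_zero.mp (Fintype.linearIndependent_iff.mp (P.val_linearIndependent z) _ hzero
          a)).resolve_right ?_
        rw [sub_eq_zero, zpow_neg, inv_eq_one]
        exact fun h => ha (Finset.mem_filter.mpr ⟨Finset.mem_univ a, h⟩)
      refine ⟨fun a => c a, ?_⟩
      rw [← hc]
      simp only [F, Fintype.linearCombination_apply]
      rw [Finset.sum_coe_sort t fun a => c a • P.val z a]
      exact Finset.sum_subset (Finset.subset_univ _) fun a _ ha => by rw [hc0 a ha, zero_smul]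
  rw [← finrank_invFun', ← hrange, LinearMap.finrank_range_of_inj hinj,
    Module.finrank_fintype_fun_eq_card, Fintype.card_coe]

end Setup

/-! ### The cusps -/

variable (Γ) in
/-- Weight 24 forms vanishing to order `j` at every cusp. -/
def fil (j : ℕ) : Submodule ℂ (ℍ → ℂ) where
  carrier := {f | f ∈ MSpace Γ 24 ∧ ∀ q, Ord (period Γ) j (sh Γ 24 f q)}
  zero_mem' := ⟨zero_mem _, fun q => by rw [sh_zero]; exact Ord.zero⟩
  add_mem' := fun {f g} hf hg => ⟨add_mem hf.1 hg.1, fun q => by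
    rw [sh_add]; exact (hf.2 q).add (hg.2 q)⟩
  smul_mem' := fun c f hf => ⟨Submodule.smul_mem _ c hf.1, fun q => by
    rw [sh_smul]; exact (hf.2 q).smul c⟩

/-- The coefficient map on `fil`. -/
def leadMap (j : ℕ) : fil Γ j →ₗ[ℂ] (SL(2, ℤ) ⧸ Γ → ℂ) where
  toFun f q := lead (period Γ) j (sh Γ 24 f.1 q)
  map_add' f g := funext fun q => by
    simp only [Submodule.coe_add, sh_add, Pi.add_apply]
    exact lead_add period_ne_zero (f.2.2 q) (g.2.2 q)
  map_smul' c f := funext fun q => by
    simp only [SetLike.val_smul, sh_smul, Pi.smul_apply, RingHom.id_apply, smul_eq_mul]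
    exact lead_smul period_ne_zero c (f.2.2 q)

variable (Γ) in
/-- The root of unity at level `period`. -/
def zetaP : ℂ := Complex.exp (2 * Real.pi * Complex.I / (period Γ : ℂ))

lemma isPrimitiveRoot_zetaP : IsPrimitiveRoot (zetaP Γ) (period Γ) :=
  Complex.isPrimitiveRoot_exp _ period_ne_zero

omit [Γ.FiniteIndex] in
lemma u_one_vadd (τ : ℍ) : u (period Γ) ((1 : ℝ) +ᵥ τ) = zetaP Γ * u (period Γ) τ := by
  simp only [u, Periodic.qParam, zetaP, coe_vadd, Complex.ofReal_one, Complex.ofReal_natCast]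
  rw [← Complex.exp_add]
  congr 1
  ring

lemma tendsto_one_vadd : Tendsto (fun τ : ℍ => (1 : ℝ) +ᵥ τ) atImInfty atImInfty := by
  rw [atImInfty, tendsto_comap_iff]
  exact tendsto_comap.congr fun τ => by simp [vadd_im]

/-- Action of `T⁻¹` on functions on the cosets. -/
def shiftT (Γ : Subgroup SL(2, ℤ)) : Module.End ℂ (SL(2, ℤ) ⧸ Γ → ℂ) :=
  LinearMap.funLeft ℂ ℂ fun q => ModularGroup.T⁻¹ • q

lemma range_leadMap_le (j : ℕ) :
    LinearMap.range (leadMap (Γ := Γ) j) ≤ (shiftT Γ).eigenspace (zetaP Γ ^ j) := by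
  rintro _ ⟨f, rfl⟩
  rw [Module.End.mem_eigenspace_iff]
  funext q
  simp only [shiftT, LinearMap.funLeft_apply, Pi.smul_apply, smul_eq_mul]
  change lead (period Γ) j (sh Γ 24 f.1 (ModularGroup.T⁻¹ • q)) =
    zetaP Γ ^ j * lead (period Γ) j (sh Γ 24 f.1 q)
  refine lead_eq_of_tendsto ?_
  have h := (((f.2.2 q).tendsto period_ne_zero).comp tendsto_one_vadd).const_mul (zetaP Γ ^ j)
  refine h.congr fun τ => ?_
  have e := congrFun (sh_slash f.2.1.2.1 (ModularGroup.T ^ (1 : ℤ)) q) τ
  rw [slash_T_zpow_apply, zpow_one, Int.cast_one] at e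
  rw [comp_apply, ← e, u_one_vadd, mul_pow]
  have := u_ne_zero (period Γ) τ
  have : zetaP Γ ≠ 0 := Complex.exp_ne_zero _
  field_simp

lemma ker_leadMap (j : ℕ) :
    LinearMap.ker (leadMap (Γ := Γ) j) = (fil Γ (j + 1)).comap (fil Γ j).subtype := by
  ext f
  simp only [LinearMap.mem_ker, Submodule.mem_comap, Submodule.subtype_apply]
  constructor
  · intro h
    exact ⟨f.2.1, fun q => (f.2.2 q).succ period_ne_zero (congrFun h q)⟩
  · intro h
    funext q
    exact lead_eq_zero_of_ord_succ period_ne_zero (h.2 q)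

omit [Γ.FiniteIndex] in
lemma fil_succ_le (j : ℕ) : fil Γ (j + 1) ≤ fil Γ j :=
  fun _ hf => ⟨hf.1, fun q => (hf.2 q).mono (Nat.le_succ j)⟩

lemma fil_zero : fil Γ 0 = MSpace Γ 24 :=
  le_antisymm (fun _ hf => hf.1) fun _ hf => ⟨hf, fun q => ord_zero_sh hf q⟩

lemma fil_one : fil Γ 1 = SSpace Γ 24 := by
  have hM : period Γ ≠ 0 := period_ne_zero
  refine le_antisymm ?_ ?_
  · intro f hf
    refine ⟨hf.1, fun g => ?_⟩
    rw [slash_eq_sh hf.1.2.1]
    have := ((hf.2 ((g⁻¹ : SL(2, ℤ)) : SL(2, ℤ) ⧸ Γ)).tendsto hM).mul (tendsto_u hM)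
    rw [mul_zero] at this
    refine this.congr fun τ => ?_
    rw [pow_one, div_mul_cancel₀ _ (u_ne_zero _ τ)]
  · intro f hf
    refine ⟨hf.1, fun q => ?_⟩
    refine (ord_zero_sh hf.1 q).succ hM (lead_eq_of_tendsto ?_)
    exact (hf.2 _).congr fun τ => by rw [pow_zero, div_one]; rfl

/-- Multiplication by `Δ` from weight 12. -/
def mulDelta (Γ : Subgroup SL(2, ℤ)) : MSpace Γ 12 →ₗ[ℂ] (ℍ → ℂ) :=
  (mulL dF).comp (MSpace Γ 12).subtype

omit [Γ.FiniteIndex] in
lemma mulDelta_injective : Injective (mulDelta Γ) := by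
  intro f g h
  exact Subtype.ext (MFIntegral.mdiff_mul_cancel dF_mem.1
    (fun h => dF_ne_zero UpperHalfPlane.I (congrFun h _)) f.2.1 g.2.1 h)

lemma range_mulDelta : LinearMap.range (mulDelta Γ) = fil Γ (period Γ) := by
  have hM : period Γ ≠ 0 := period_ne_zero
  refine le_antisymm ?_ ?_
  · rintro _ ⟨f, rfl⟩
    have hmem : dF * f.1 ∈ MSpace Γ 24 :=
      mul_mem_MSpace (by norm_num) (LSpace_le_MSpace dF_mem) f.2
    refine ⟨hmem, fun q => ?_⟩
    change Ord (period Γ) (period Γ) (sh Γ 24 (dF * f.1) q)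
    have key : ∀ b, b ≤ period Γ → Ord (period Γ) b (sh Γ 24 (dF * f.1) q) := by
      intro b
      induction b with
      | zero => exact fun _ => ord_zero_sh hmem q
      | succ b ih =>
        intro hb
        refine (ih (by omega)).succ hM (lead_eq_of_tendsto ?_)
        obtain ⟨c, hc⟩ : ∃ c, period Γ = b + (c + 1) := ⟨period Γ - b - 1, by omega⟩
        have hG := (ord_zero_sh f.2 q).tendsto hM
        have := (((tendsto_u hM).pow (c + 1)).mul tendsto_dUnit).mul hG
        rw [zero_pow (Nat.succ_ne_zero c), zero_mul, zero_mul] at this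
        refine this.congr fun τ => ?_
        have hd : dF τ = u (period Γ) τ ^ period Γ * dUnit τ := by rw [dF_eq τ, u_pow_self hM]
        rw [sh_mul (k₁ := 12) (k₂ := 12) (by norm_num), sh_of_level_one dF_mem, Pi.mul_apply, hd,
          pow_zero, div_one]
        have hpow : u (period Γ) τ ^ period Γ = u (period Γ) τ ^ b * u (period Γ) τ ^ (c + 1) := by
          rw [← pow_add, ← hc]
        rw [hpow]
        have := u_ne_zero (period Γ) τ
        field_simp
    exact key _ le_rfl
  · rintro f ⟨hf, hord⟩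
    have hb : ∀ g : SL(2, ℤ), IsBoundedAtImInfty fun τ => (f ∣[(24 : ℤ)] g) τ / dF τ ^ 1 := by
      intro g
      have := ((hord ((g⁻¹ : SL(2, ℤ)) : SL(2, ℤ) ⧸ Γ)).tendsto hM).div tendsto_dUnit one_ne_zero
      refine (this.congr fun τ => ?_).isBigO_one ℝ
      rw [Pi.div_apply, slash_eq_sh hf.2.1, pow_one, div_div, dF_eq τ, ← u_pow_self hM τ]
    refine ⟨⟨_, by have := div_dF_pow_mem hf hb; norm_num at this; exact this⟩, ?_⟩
    funext τ
    change dF τ * (f τ / dF τ) = f τ
    rw [mul_div_cancel₀ _ (dF_ne_zero τ)]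

lemma sum_finrank_eigenspace_le {ι V : Type*} [AddCommGroup V] [Module ℂ V]
    [FiniteDimensional ℂ V] (f : Module.End ℂ V) (c : ι → ℂ) (s : Finset ι)
    (hc : Set.InjOn c (s : Set ι)) :
    ∑ i ∈ s, Module.finrank ℂ (f.eigenspace (c i)) ≤ Module.finrank ℂ V := by
  classical
  suffices h : ∑ i ∈ s, Module.finrank ℂ (f.eigenspace (c i)) =
      Module.finrank ℂ (s.sup fun i => f.eigenspace (c i) : Submodule ℂ V) by
    rw [h]; exact Submodule.finrank_le _
  induction s using Finset.induction_on with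
  | empty => rw [Finset.sum_empty, Finset.sup_empty, finrank_bot]
  | insert a t ha ih =>
    have hdis : f.eigenspace (c a) ⊓ t.sup (fun i => f.eigenspace (c i)) = ⊥ := by
      rw [← disjoint_iff]
      refine (f.eigenspaces_iSupIndep (c a)).mono_right (Finset.sup_le fun i hi => ?_)
      refine le_iSup₂_of_le (c i) (fun h => ?_) le_rfl
      exact ha (hc (by simp [hi]) (by simp) h ▸ hi)
    have := Submodule.finrank_sup_add_finrank_inf_eq (f.eigenspace (c a))
      (t.sup fun i => f.eigenspace (c i))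
    rw [hdis, finrank_bot, add_zero] at this
    rw [Finset.sum_insert ha, Finset.sup_insert, this, ih (hc.mono (by simp))]

namespace Setup

variable (P : Setup Γ)

/-- The number of generators of weight `n`. -/
abbrev n (i : ℕ) : ℕ := P.B.num i

lemma num_eq_zero_of_odd {i : ℕ} (hi : Odd i) : P.n i = 0 := by
  by_contra h
  have a : P.B.Idx := ⟨i, ⟨0, Nat.pos_of_ne_zero h⟩⟩
  have h0 : P.B.gen i ⟨0, Nat.pos_of_ne_zero h⟩ = 0 :=
    MSpace.eq_zero_of_odd P.neg (by exact_mod_cast hi.natCast) (P.B.mem i _)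
  exact (P.val_linearIndependent UpperHalfPlane.I).ne_zero ⟨i, ⟨0, Nat.pos_of_ne_zero h⟩⟩
    (funext fun q => by simp [val, Gens.g, h0, sh_zero])

lemma sum_idx (F : ℕ → ℕ) :
    ∑ a : P.B.Idx, F a.1 =
      P.n 0 * F 0 + P.n 2 * F 2 + P.n 4 * F 4 + P.n 6 * F 6 + P.n 8 * F 8 + P.n 10 * F 10 := by
  rw [← Finset.sum_subset (Finset.subset_univ (P.B.upTo 11))
    (fun a _ ha => absurd (P.mem_upTo_eleven a) ha), Gens.upTo, Finset.sum_sigma]
  simp only [show ((11 : ℤ) + 1).toNat = 12 from rfl, Finset.sum_const, Finset.card_univ,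
    Fintype.card_fin, smul_eq_mul]
  simp [Finset.sum_range_succ, P.num_eq_zero_of_odd (by decide : Odd 1),
    P.num_eq_zero_of_odd (by decide : Odd 3), P.num_eq_zero_of_odd (by decide : Odd 5),
    P.num_eq_zero_of_odd (by decide : Odd 7), P.num_eq_zero_of_odd (by decide : Odd 9),
    P.num_eq_zero_of_odd (by decide : Odd 11)]

lemma finrank_LSpace_int {j : ℤ} {i : ℕ} (h : j = (i : ℤ)) (hi : Even i) :
    Module.finrank ℂ (LSpace j) = if i % 12 = 2 then i / 12 else i / 12 + 1 := by
  subst h; exact finrank_LSpace i hi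

lemma finrank_MSpace_zero : Module.finrank ℂ (MSpace Γ 0) = 1 := by
  refine finrank_eq_one ⟨1, one_mem_MSpace⟩ ?_ fun f => ?_
  · intro h
    exact one_ne_zero (congrFun (congrArg Subtype.val h) UpperHalfPlane.I)
  · obtain ⟨c, hc⟩ := MSpace.eq_const f.2
    exact ⟨c, Subtype.ext hc.symm⟩

lemma n_zero : P.n 0 = 1 := by
  have h := P.finrank_MSpace 0
  rw [finrank_MSpace_zero, P.sum_idx fun i => Module.finrank ℂ (LSpace ((0 : ℤ) - (i : ℤ)))] at h
  norm_num [finrank_LSpace_int (i := 0), finrank_LSpace_neg] at h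
  exact h.symm

lemma n_sum : P.n 0 + P.n 2 + P.n 4 + P.n 6 + P.n 8 + P.n 10 = Γ.index := by
  have h := P.sum_idx fun _ => 1
  simp only [Finset.sum_const, Finset.card_univ, smul_eq_mul, mul_one] at h
  rw [← h, P.card_idx, Subgroup.index, Nat.card_eq_fintype_card]

lemma finrank_two : Module.finrank ℂ (SSpace Γ 2) = P.n 10 := by
  rw [P.finrank_SSpace, P.sum_idx fun i => Module.finrank ℂ (LSpace ((2 : ℤ) + (i : ℤ) - 12))]
  norm_num [finrank_LSpace_int (i := 0), finrank_LSpace_neg]

lemma orb_S :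
    orbCount (SL(2, ℤ) ⧸ Γ) ModularGroup.S = P.n 0 + P.n 4 + P.n 8 := by
  classical
  have hI : (ModularGroup.S • UpperHalfPlane.I) = UpperHalfPlane.I := by
    rw [modular_S_smul]
    ext1
    simp
  have hl : denom (ModularGroup.S : GL (Fin 2) ℝ) UpperHalfPlane.I = Complex.I := by
    rw [ModularGroup.denom_apply]
    simp [ModularGroup.coe_S]
  rw [← P.card_elliptic _ _ hI, hl, Finset.card_filter,
    P.sum_idx fun i => if Complex.I ^ (i : ℤ) = 1 then 1 else 0]
  simp only [zpow_natCast]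
  have h2 : Complex.I ^ 2 = -1 := Complex.I_sq
  have h4 : Complex.I ^ 4 = 1 := Complex.I_pow_four
  have e : ∀ j, Complex.I ^ (4 + j) = Complex.I ^ j := fun j => by rw [pow_add, h4, one_mul]
  rw [show Complex.I ^ 6 = Complex.I ^ 2 from e 2, show Complex.I ^ 8 = Complex.I ^ 4 from e 4,
    show Complex.I ^ 10 = Complex.I ^ 6 from e 6,
    show Complex.I ^ 6 = Complex.I ^ 2 from e 2, h2, h4]
  norm_num

lemma orb_ST :
    orbCount (SL(2, ℤ) ⧸ Γ) (ModularGroup.S * ModularGroup.T) = P.n 0 + P.n 6 := by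
  classical
  set z : ℍ := ⟨⟨-1 / 2, Real.sqrt 3 / 2⟩, by positivity⟩ with hz
  have hzz : (z : ℂ) ^ 2 + (z : ℂ) + 1 = 0 := by
    have h3 : Real.sqrt 3 * Real.sqrt 3 = 3 := Real.mul_self_sqrt (by norm_num)
    rw [hz, pow_two]
    apply Complex.ext <;> simp <;> nlinarith [h3]
  have hne : (z : ℂ) ≠ 1 := by
    intro h
    rw [h] at hzz
    norm_num at hzz
  have hl : denom ((ModularGroup.S * ModularGroup.T : SL(2, ℤ)) : GL (Fin 2) ℝ) z =
    (z : ℂ) + 1 := by
    rw [ModularGroup.denom_apply, coe_S_mul_T]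
    simp
  have hfix : (ModularGroup.S * ModularGroup.T) • z = z := by
    ext1
    rw [coe_specialLinearGroup_apply, coe_S_mul_T]
    simp only [Matrix.of_apply, Matrix.cons_val', Matrix.cons_val_zero, Matrix.cons_val_one]
    norm_num
    rw [div_eq_iff (fun h => ?_)]
    · linear_combination -hzz
    · have : (z : ℂ) = -1 := by linear_combination h
      rw [this] at hzz
      norm_num at hzz
  rw [← P.card_elliptic _ _ hfix, hl, Finset.card_filter,
    P.sum_idx fun i => if ((z : ℂ) + 1) ^ (i : ℤ) = 1 then 1 else 0]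
  simp only [zpow_natCast]
  have h2 : ((z : ℂ) + 1) ^ 2 = z := by linear_combination hzz
  have h3 : (z : ℂ) ^ 3 = 1 := by linear_combination ((z : ℂ) - 1) * hzz
  have e : ∀ j, ((z : ℂ) + 1) ^ (2 * j) = (z : ℂ) ^ j := fun j => by rw [pow_mul, h2]
  have hne2 : (z : ℂ) ^ 2 ≠ 1 := fun h => hne (by linear_combination h3 - (z : ℂ) * h)
  rw [show ((z : ℂ) + 1) ^ 4 = (z : ℂ) ^ 2 from e 2, show ((z : ℂ) + 1) ^ 6 = (z : ℂ) ^ 3 from e 3,
    show ((z : ℂ) + 1) ^ 8 = (z : ℂ) ^ 4 from e 4, show ((z : ℂ) + 1) ^ 10 = (z : ℂ) ^ 5 from e 5,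
    h2, show (z : ℂ) ^ 4 = z by linear_combination (z : ℂ) * h3,
    show (z : ℂ) ^ 5 = (z : ℂ) ^ 2 by linear_combination (z : ℂ) ^ 2 * h3, h3]
  simp [hne, hne2]

include P in
lemma m_twentyfour_sub :
    Module.finrank ℂ (MSpace Γ 24) = Module.finrank ℂ (MSpace Γ 12) + Γ.index := by
  rw [P.finrank_MSpace, P.finrank_MSpace,
    P.sum_idx fun i => Module.finrank ℂ (LSpace ((24 : ℤ) - (i : ℤ))),
    P.sum_idx fun i => Module.finrank ℂ (LSpace ((12 : ℤ) - (i : ℤ))), ← P.n_sum]
  norm_num [finrank_LSpace_int (i := 24), finrank_LSpace_int (i := 22),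
      finrank_LSpace_int (i := 20),
    finrank_LSpace_int (i := 18), finrank_LSpace_int (i := 16), finrank_LSpace_int (i := 14),
    finrank_LSpace_int (i := 12), finrank_LSpace_int (i := 10), finrank_LSpace_int (i := 8),
    finrank_LSpace_int (i := 6), finrank_LSpace_int (i := 4), finrank_LSpace_int (i := 2),
    show Even 24 by decide, show Even 22 by decide, show Even 20 by decide, show Even 18 by decide,
    show Even 16 by decide, show Even 14 by decide, show Even 12 by decide, show Even 10 by decide,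
    show Even 8 by decide, show Even 6 by decide, show Even 4 by decide, show Even 2 by decide]
  ring

include P in
lemma cusp_equation :
    Module.finrank ℂ (MSpace Γ 24) =
      Module.finrank ℂ (SSpace Γ 24) + orbCount (SL(2, ℤ) ⧸ Γ) ModularGroup.T := by
  have := P.S.finiteDimensional (Γ := Γ) 24
  have : ∀ j, FiniteDimensional ℂ (fil Γ j) := fun j =>
    Submodule.finiteDimensional_of_le (fun f hf => hf.1 : fil Γ j ≤ MSpace Γ 24)
  have hstep : ∀ j, Module.finrank ℂ (fil Γ j) =
      Module.finrank ℂ (LinearMap.range (leadMap (Γ := Γ) j)) +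
        Module.finrank ℂ (fil Γ (j + 1)) := by
    intro j
    rw [← LinearMap.finrank_range_add_finrank_ker (leadMap (Γ := Γ) j), ker_leadMap,
      LinearEquiv.finrank_eq (Submodule.comapSubtypeEquivOfLe (fil_succ_le (Γ := Γ) j))]
  have htel : ∀ N, Module.finrank ℂ (fil Γ 0) =
      (∑ j ∈ Finset.range N, Module.finrank ℂ (LinearMap.range (leadMap (Γ := Γ) j))) +
        Module.finrank ℂ (fil Γ N) := by
    intro N
    induction N with
    | zero => simp
    | succ N ih => rw [ih, hstep N, Finset.sum_range_succ, add_assoc]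
  have hend : Module.finrank ℂ (fil Γ (period Γ)) = Module.finrank ℂ (MSpace Γ 12) := by
    rw [← range_mulDelta, LinearMap.finrank_range_of_inj mulDelta_injective]
  have hsum : ∑ j ∈ Finset.range (period Γ),
      Module.finrank ℂ (LinearMap.range (leadMap (Γ := Γ) j)) = Γ.index := by
    have := htel (period Γ)
    rw [fil_zero, hend, P.m_twentyfour_sub] at this
    omega
  have hle : ∑ j ∈ Finset.range (period Γ),
      Module.finrank ℂ ((shiftT Γ).eigenspace (zetaP Γ ^ j)) ≤ Γ.index := by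
    refine (sum_finrank_eigenspace_le _ _ _ ?_).trans (le_of_eq ?_)
    · intro a ha b hb h
      simp only [Finset.coe_range, Set.mem_Iio] at ha hb
      exact isPrimitiveRoot_zetaP.pow_inj ha hb h
    · rw [Module.finrank_fintype_fun_eq_card, Subgroup.index, Nat.card_eq_fintype_card]
  have heq := (Finset.sum_eq_sum_iff_of_le fun j _ =>
    Submodule.finrank_mono (range_leadMap_le (Γ := Γ) j)).mp
      (le_antisymm (Finset.sum_le_sum fun j _ =>
        Submodule.finrank_mono (range_leadMap_le (Γ := Γ) j)) (hle.trans hsum.ge))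
      0 (Finset.mem_range.mpr (Nat.pos_of_ne_zero period_ne_zero))
  have hinv : (shiftT Γ).eigenspace (zetaP Γ ^ 0) = invFun' (SL(2, ℤ) ⧸ Γ) ModularGroup.T := by
    ext v
    rw [Module.End.mem_eigenspace_iff, pow_zero, one_smul, funext_iff]
    rfl
  rw [hinv, finrank_invFun'] at heq
  have := hstep 0
  rw [heq] at this
  rw [fil_zero, fil_one] at this
  omega

include P in
theorem finrank_formula :
    2 * Module.finrank ℂ (SSpace Γ 2) + orbCount (SL(2, ℤ) ⧸ Γ) ModularGroup.S +
      orbCount (SL(2, ℤ) ⧸ Γ) (ModularGroup.S * ModularGroup.T) +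
      orbCount (SL(2, ℤ) ⧸ Γ) ModularGroup.T = 2 + Γ.index := by
  have hc := P.cusp_equation
  rw [P.finrank_MSpace, P.finrank_SSpace,
    P.sum_idx fun i => Module.finrank ℂ (LSpace ((24 : ℤ) - (i : ℤ))),
    P.sum_idx fun i => Module.finrank ℂ (LSpace ((24 : ℤ) + (i : ℤ) - 12))] at hc
  norm_num [finrank_LSpace_int (i := 24), finrank_LSpace_int (i := 22),
      finrank_LSpace_int (i := 20),
    finrank_LSpace_int (i := 18), finrank_LSpace_int (i := 16), finrank_LSpace_int (i := 14),
    finrank_LSpace_int (i := 12),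
    show Even 24 by decide, show Even 22 by decide, show Even 20 by decide, show Even 18 by decide,
    show Even 16 by decide, show Even 14 by decide, show Even 12 by decide] at hc
  have h0 := P.n_zero
  have h1 := P.n_sum
  rw [P.finrank_two, P.orb_S, P.orb_ST]
  omega

end Setup

/-- **Dimension of weight two cusp forms** for a finite-index subgroup containing `-1` and
admitting a separating form. -/
theorem two_mul_finrank_SSpace_two (S : SepForm Γ) (hneg : (-1 : SL(2, ℤ)) ∈ Γ) :
    2 * Module.finrank ℂ (SSpace Γ 2) + orbCount (SL(2, ℤ) ⧸ Γ) ModularGroup.S +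
      orbCount (SL(2, ℤ) ⧸ Γ) (ModularGroup.S * ModularGroup.T) +
      orbCount (SL(2, ℤ) ⧸ Γ) ModularGroup.T = 2 + Γ.index := by
  obtain ⟨B⟩ := S.exists_gens
  exact (Setup.mk S B hneg).finrank_formula

end FLTAgent.MFDim

end
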