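import Fermat.Agent.MFDim.Forms

/-!
# Orders of vanishing at infinity of periodic holomorphic functions

`Ord` is vanishing to a given order in the parameter `u` at infinity and `lead` the corresponding
coefficient; includes the expansion of the discriminant `dF`.
-/

set_option autoImplicit false

noncomputable section

open UpperHalfPlane Filter Function
open scoped MatrixGroups ModularForm Manifold Topology

namespace FLTAgent.MFDim

/-- The parameter `exp (2πiτ/M)`. -/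
def u (M : ℕ) (τ : ℍ) : ℂ := Periodic.qParam (M : ℝ) (τ : ℂ)

lemma u_ne_zero (M : ℕ) (τ : ℍ) : u M τ ≠ 0 := Periodic.qParam_ne_zero _

lemma u_pow_self {M : ℕ} (hM : M ≠ 0) (τ : ℍ) : u M τ ^ M = u 1 τ := by
  have hM' : (M : ℂ) ≠ 0 := Nat.cast_ne_zero.mpr hM
  rw [u, u, Periodic.qParam, Periodic.qParam, ← Complex.exp_nat_mul]
  congr 1
  push_cast
  field_simp

lemma tendsto_u {M : ℕ} (hM : M ≠ 0) : Tendsto (u M) atImInfty (𝓝 0) :=
  qParam_tendsto_atImInfty (by positivity)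

/-- The modular discriminant. -/
def dF : ℍ → ℂ := ⇑CuspForm.discriminant

lemma dF_ne_zero (τ : ℍ) : dF τ ≠ 0 := ModularForm.discriminant_ne_zero τ

/-- `Δ / q`. -/
def dUnit (τ : ℍ) : ℂ := dF τ / u 1 τ

lemma dF_eq (τ : ℍ) : dF τ = u 1 τ * dUnit τ := by
  rw [dUnit, mul_div_cancel₀ _ (u_ne_zero 1 τ)]

lemma dUnit_ne_zero (τ : ℍ) : dUnit τ ≠ 0 := div_ne_zero (dF_ne_zero τ) (u_ne_zero 1 τ)

lemma tendsto_dUnit : Tendsto dUnit atImInfty (𝓝 1) := by
  refine ModularForm.tendsto_atImInfty_tprod_one_sub_eta_q_pow.congr fun τ => ?_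
  have h : dF τ = Periodic.qParam 1 (τ : ℂ) * ∏' n, (1 - ModularForm.eta_q n τ) ^ 24 := by
    rw [show dF τ = ModularForm.discriminant τ from rfl, ModularForm.discriminant_eq_q_prod τ]
  rw [dUnit, h, u, Nat.cast_one, mul_div_cancel_left₀ _ (Periodic.qParam_ne_zero _)]

/-- `f = u ^ b · G(u)` with `G` analytic at `0`. -/
def Ord (M b : ℕ) (f : ℍ → ℂ) : Prop :=
  ∃ G : ℂ → ℂ, AnalyticAt ℂ G 0 ∧ ∀ τ : ℍ, f τ = u M τ ^ b * G (u M τ)

variable {M b : ℕ}

lemma Ord.add {f g : ℍ → ℂ} (hf : Ord M b f) (hg : Ord M b g) : Ord M b (f + g) := by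
  obtain ⟨F, hF, hf⟩ := hf
  obtain ⟨G, hG, hg⟩ := hg
  exact ⟨F + G, hF.add hG, fun τ => by simp [hf τ, hg τ, mul_add]⟩

lemma Ord.smul {f : ℍ → ℂ} (c : ℂ) (hf : Ord M b f) : Ord M b (c • f) := by
  obtain ⟨F, hF, hf⟩ := hf
  refine ⟨fun w => c * F w, analyticAt_const.mul hF, fun τ => ?_⟩
  simp [hf τ]
  ring

/-- The zero function vanishes to every order at the cusp. -/
lemma Ord.zero : Ord M b (0 : ℍ → ℂ) :=
  ⟨0, analyticAt_const, fun τ => by simp⟩

lemma Ord.mono {f : ℍ → ℂ} {c : ℕ} (hcb : c ≤ b) (hf : Ord M b f) : Ord M c f := by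
  obtain ⟨F, hF, hf⟩ := hf
  refine ⟨fun w => w ^ (b - c) * F w, (analyticAt_id.pow _).mul hF, fun τ => ?_⟩
  rw [hf τ, ← mul_assoc, ← pow_add, Nat.add_sub_cancel' hcb]

/-- The coefficient of `u ^ b`. -/
def lead (M b : ℕ) (f : ℍ → ℂ) : ℂ := limUnder atImInfty fun τ => f τ / u M τ ^ b

lemma Ord.tendsto {f : ℍ → ℂ} (hM : M ≠ 0) (hf : Ord M b f) :
    Tendsto (fun τ => f τ / u M τ ^ b) atImInfty (𝓝 (lead M b f)) := by
  obtain ⟨F, hF, hf⟩ := hf
  refine tendsto_nhds_limUnder ⟨F 0, (hF.continuousAt.tendsto.comp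
    (tendsto_u hM)).congr fun τ => ?_⟩
  rw [comp_apply, hf τ, mul_div_cancel_left₀ _ (pow_ne_zero _ (u_ne_zero M τ))]

lemma lead_eq_of_tendsto {f : ℍ → ℂ} {L : ℂ}
    (h : Tendsto (fun τ => f τ / u M τ ^ b) atImInfty (𝓝 L)) : lead M b f = L :=
  h.limUnder_eq

lemma lead_add {f g : ℍ → ℂ} (hM : M ≠ 0) (hf : Ord M b f) (hg : Ord M b g) :
    lead M b (f + g) = lead M b f + lead M b g :=
  lead_eq_of_tendsto (((hf.tendsto hM).add (hg.tendsto hM)).congr fun τ => by simp [add_div])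

lemma lead_smul {f : ℍ → ℂ} (hM : M ≠ 0) (c : ℂ) (hf : Ord M b f) :
    lead M b (c • f) = c * lead M b f :=
  lead_eq_of_tendsto (((hf.tendsto hM).const_mul c).congr fun τ => by simp [mul_div_assoc])

lemma Ord.succ {f : ℍ → ℂ} (hM : M ≠ 0) (hf : Ord M b f) (h0 : lead M b f = 0) :
    Ord M (b + 1) f := by
  obtain ⟨F, hF, hfe⟩ := hf
  have hF0 : F 0 = 0 := by
    refine Eq.trans ?_ h0
    refine (lead_eq_of_tendsto ((hF.continuousAt.tendsto.comp (tendsto_u hM)).congr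
      fun τ => ?_)).symm
    rw [comp_apply, hfe τ, mul_div_cancel_left₀ _ (pow_ne_zero _ (u_ne_zero M τ))]
  obtain ⟨p, hp⟩ := hF
  refine ⟨dslope F 0, ⟨p.fslope, hp.has_fpower_series_dslope_fslope⟩, fun τ => ?_⟩
  have := sub_smul_dslope F 0 (u M τ)
  rw [sub_zero, smul_eq_mul, hF0, sub_zero] at this
  rw [hfe τ, pow_succ, mul_assoc, this]

lemma lead_eq_zero_of_ord_succ {f : ℍ → ℂ} (hM : M ≠ 0) (hf : Ord M (b + 1) f) :
    lead M b f = 0 := by
  refine lead_eq_of_tendsto ?_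
  have h := (hf.tendsto hM).mul (tendsto_u hM)
  rw [mul_zero] at h
  refine h.congr fun τ => ?_
  rw [pow_succ]
  field_simp [u_ne_zero M τ]

/-- Analyticity of a periodic bounded holomorphic function in the parameter at infinity. -/
lemma ord_zero {f : ℍ → ℂ} (hM : M ≠ 0) (hper : Periodic (f ∘ UpperHalfPlane.ofComplex)
    ((M : ℝ) : ℂ))
    (hhol : MDiff f) (hbdd : IsBoundedAtImInfty f) : Ord M 0 f := by
  have hM' : (0 : ℝ) < M := by positivity
  refine ⟨cuspFunction (M : ℝ) f, analyticAt_cuspFunction_zero hM' hper hhol hbdd, fun τ => ?_⟩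
  rw [pow_zero, one_mul, u, eq_cuspFunction τ hM'.ne' hper]

lemma periodic_ofComplex {f : ℍ → ℂ} {h : ℝ} (hf : ∀ τ : ℍ, f (h +ᵥ τ) = f τ) :
    Periodic (f ∘ UpperHalfPlane.ofComplex) h := by
  intro w
  by_cases hw : 0 < w.im
  · have hw' : 0 < (w + h).im := by simpa using hw
    simp only [comp_apply, ofComplex_apply_of_im_pos hw', ofComplex_apply_of_im_pos hw]
    convert! hf ⟨w, hw⟩ using 2
    ext1
    simp [add_comm]
  · have hw' : (w + h).im ≤ 0 := by simpa using not_lt.mp hw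
    simp [ofComplex_apply_of_im_nonpos hw', ofComplex_apply_of_im_nonpos (not_lt.mp hw)]

end FLTAgent.MFDim

end
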