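import Fermat.Agent.MFDim.LevelOne

/-!
# Dividing by a level one form with simple zeros

`exists_div_mem`: a form vanishing at the zeros of a good level one form is that form times a form
of the complementary weight.
-/

set_option autoImplicit false

noncomputable section

open UpperHalfPlane Filter Function
open scoped MatrixGroups ModularForm Manifold Topology

namespace FLTAgent.MFDim

lemma exists_div_mdiff {P h : ℍ → ℂ} (hP : MDiff P) (hh : MDiff h)
    (hsimple : ∀ z : ℍ, P z = 0 → deriv (P ∘ UpperHalfPlane.ofComplex) z ≠ 0)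
    (hz : ∀ z : ℍ, P z = 0 → h z = 0) : ∃ G : ℍ → ℂ, MDiff G ∧ h = P * G := by
  classical
  set Pc := P ∘ UpperHalfPlane.ofComplex
  set hc := h ∘ UpperHalfPlane.ofComplex
  have hPan := (UpperHalfPlane.mdifferentiable_iff.mp hP).analyticOnNhd isOpen_upperHalfPlaneSet
  have hhan := (UpperHalfPlane.mdifferentiable_iff.mp hh).analyticOnNhd isOpen_upperHalfPlaneSet
  let Gc : ℂ → ℂ := fun w => if Pc w = 0 then deriv hc w / deriv Pc w else hc w / Pc w
  refine ⟨fun z => Gc z, ?_, ?_⟩
  · rw [UpperHalfPlane.mdifferentiable_iff]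
    intro w hw
    refine DifferentiableWithinAt.congr (f := Gc) (DifferentiableAt.differentiableWithinAt ?_)
      (fun x hx => ?_) ?_
    · by_cases h0 : Pc w = 0
      · obtain ⟨pP, hpP⟩ := hPan w hw
        obtain ⟨ph, hph⟩ := hhan w hw
        have hdP : AnalyticAt ℂ (dslope Pc w) w := ⟨_, hpP.has_fpower_series_dslope_fslope⟩
        have hdh : AnalyticAt ℂ (dslope hc w) w := ⟨_, hph.has_fpower_series_dslope_fslope⟩
        have hd0 : deriv Pc w ≠ 0 := by
          have h0' : P ⟨w, hw⟩ = 0 := by
            simpa [Pc, ofComplex_apply_of_im_pos hw] using h0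
          exact hsimple ⟨w, hw⟩ h0'
        have hne : dslope Pc w w ≠ 0 := by rwa [dslope_same]
        have hch : hc w = 0 := by
          have h0' : P ⟨w, hw⟩ = 0 := by
            simpa [Pc, ofComplex_apply_of_im_pos hw] using h0
          simpa [hc, ofComplex_apply_of_im_pos hw] using hz ⟨w, hw⟩ h0'
        refine ((hdh.div hdP hne).differentiableAt).congr_of_eventuallyEq ?_
        filter_upwards [hdP.continuousAt.eventually_ne hne] with x hx
        have e1 := sub_smul_dslope Pc w x
        have e2 := sub_smul_dslope hc w x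
        rw [h0, sub_zero, smul_eq_mul] at e1
        rw [hch, sub_zero, smul_eq_mul] at e2
        by_cases hxw : x = w
        · subst hxw
          simp [Gc, h0, dslope_same]
        · have : Pc x ≠ 0 := by
            rw [← e1]; exact mul_ne_zero (sub_ne_zero.mpr hxw) hx
          simp only [Gc, this, if_false, Pi.div_apply]
          rw [← e1, ← e2, mul_div_mul_left _ _ (sub_ne_zero.mpr hxw)]
      · refine ((hhan w hw).differentiableAt.div (hPan w hw).differentiableAt
          h0).congr_of_eventuallyEq ?_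
        filter_upwards [(hPan w hw).continuousAt.eventually_ne h0] with x hx
        simp [Gc, Pi.div_apply, Pc, hc] at hx ⊢
        simp [hx]
    · simp [ofComplex_apply_of_im_pos hx]
    · simp [ofComplex_apply_of_im_pos hw]
  · funext z
    by_cases h0 : P z = 0
    · simp [h0, hz z h0]
    · simp [Gc, Pc, hc, h0, mul_div_cancel₀]

lemma exists_div_mem {Γ : Subgroup SL(2, ℤ)} {k p : ℤ} {P h : ℍ → ℂ} (hP : IsGood p P)
    (hh : h ∈ MSpace Γ k) (hz : ∀ z : ℍ, P z = 0 → h z = 0) :
    ∃ G ∈ MSpace Γ (k - p), h = P * G := by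
  obtain ⟨G, hG, hhG⟩ := exists_div_mdiff hP.mem.1 hh.1 hP.simple hz
  have key : ∀ g : SL(2, ℤ), h ∣[k] g = P * (G ∣[k - p] g) := fun g => by
    rw [hhG, mul_slash_eq (k₁ := p) (k₂ := k - p) (by ring), LSpace.slash_eq hP.mem]
  refine ⟨G, ⟨hG, fun γ hγ => ?_, fun g => ?_⟩, hhG⟩
  · refine MFIntegral.mdiff_mul_cancel hP.mem.1 hP.ne_zero ?_ hG ?_
    · rw [ModularForm.SL_slash]; exact hG.slash _ _
    · rw [← key γ, MSpace.slash_eq hh hγ, ← hhG]
  · have hev : ∀ᶠ z in atImInfty, P z ≠ 0 := hP.tendsto.eventually_ne one_ne_zero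
    have hbdd : IsBoundedAtImInfty (fun z => (h ∣[k] g) z * (P z)⁻¹) :=
      (MSpace.bdd hh g).mul ((hP.tendsto.inv₀ one_ne_zero).isBigO_one ℝ)
    refine Asymptotics.IsBigO.congr' hbdd ?_ EventuallyEq.rfl
    filter_upwards [hev] with z hz
    rw [key g, Pi.mul_apply, mul_comm (P z), mul_assoc, mul_inv_cancel₀ hz, mul_one]

end FLTAgent.MFDim

end
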