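import Fermat.Agent.MFDim.Free

/-!
# Trace duality between forms and cusp forms

`SepForm.exists_dual`: each generator over level one has a dual cusp form for the trace pairing,
obtained by dividing traces by the discriminant (`cusp_descent`).
-/

set_option autoImplicit false

noncomputable section

open UpperHalfPlane Filter Function
open scoped MatrixGroups ModularForm Manifold Topology

namespace FLTAgent.MFDim


variable {Γ : Subgroup SL(2, ℤ)} [Γ.FiniteIndex] {k : ℤ}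

namespace Gens

variable {B : Gens Γ}

open Classical in
/-- The coefficient of a form along a generator. -/
def coef (B : Gens Γ) (a : B.Idx) (k : ℤ) (f : ℍ → ℂ) : ℍ → ℂ :=
  if h : f ∈ MSpace Γ k then (B.exists_coeffs h).choose a else 0

lemma coef_mem (a : B.Idx) (k : ℤ) (f : ℍ → ℂ) : B.coef a k f ∈ LSpace (k - B.wt a) := by
  unfold coef
  split_ifs with h
  · exact (B.exists_coeffs h).choose_spec.1 a
  · exact zero_mem _

lemma coef_spec {f : ℍ → ℂ} (hf : f ∈ MSpace Γ k) :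
    f = ∑ a ∈ B.upTo k, B.coef a k f * B.g a := by
  simp only [coef, dif_pos hf]
  exact (B.exists_coeffs hf).choose_spec.2

lemma coef_unique {x : B.Idx → ℍ → ℂ} (hx : ∀ a, x a ∈ LSpace (k - B.wt a)) {f : ℍ → ℂ}
    (hf : f = ∑ a ∈ B.upTo k, x a * B.g a) (a : B.Idx) : B.coef a k f = x a := by
  have hfM : f ∈ MSpace Γ k := hf ▸ sum_mem x hx _
  refine sub_eq_zero.mp (coeffs_eq_zero (x := fun a => B.coef a k f - x a)
    (fun a => sub_mem (coef_mem a k f) (hx a)) ?_ a)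
  simp only [sub_mul, Finset.sum_sub_distrib, ← hf, ← coef_spec hfM, sub_self]

lemma coef_linear {ι : Type*} (s : Finset ι) (kk : ι → ℤ) (x f : ι → ℍ → ℂ)
    (hx : ∀ i ∈ s, x i ∈ LSpace (k - kk i)) (hf : ∀ i ∈ s, f i ∈ MSpace Γ (kk i)) (a : B.Idx) :
    B.coef a k (∑ i ∈ s, x i * f i) = ∑ i ∈ s, x i * B.coef a (kk i) (f i) := by
  refine coef_unique (x := fun a => ∑ i ∈ s, x i * B.coef a (kk i) (f i))
    (fun a => Submodule.sum_mem _ fun i hi => mul_mem_MSpace (by ring) (hx i hi)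
        (coef_mem a _ _)) ?_ a
  simp only [Finset.sum_mul, mul_assoc]
  rw [Finset.sum_comm]
  refine Finset.sum_congr rfl fun i hi => ?_
  rw [← Finset.mul_sum]
  by_cases hki : kk i ≤ k
  · rw [← sum_upTo_eq hki _ fun a => coef_mem a (kk i) (f i), ← coef_spec (hf i hi)]
  · rw [LSpace.eq_zero_of_neg (by omega) (hx i hi), zero_mul, zero_mul]

lemma coef_gen (a b : B.Idx) [DecidableEq B.Idx] :
    B.coef a (B.wt b) (B.g b) = if a = b then 1 else 0 := by
  refine coef_unique (x := fun a => if a = b then 1 else 0) (fun a => ?_) ?_ a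
  · split_ifs with h
    · subst h; rw [sub_self]; exact one_mem_LSpace
    · exact zero_mem _
  · rw [Finset.sum_eq_single b]
    · simp
    · intro c _ hcb; simp [hcb]
    · intro h; exact absurd (mem_upTo.mpr le_rfl) h

end Gens

/-- A multiple of `D` as a level one form. -/
lemma SepForm.disc_mul_eq (S : SepForm Γ) {f : ℍ → ℂ} (hf : f ∈ MSpace Γ k) :
    ∃ e : Fin (Fintype.card (SL(2, ℤ) ⧸ Γ)) → ℍ → ℂ,
      (∀ j : Fin (Fintype.card (SL(2, ℤ) ⧸ Γ)), e j ∈ LSpace (k + 12 *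
      (discLevel Γ : ℤ) - ((j : ℕ) : ℤ) * 12)) ∧
      S.disc * f = ∑ j, e j * S.θ ^ (j : ℕ) := by
  obtain ⟨e, he, hmem, htr⟩ := S.exists_expansion (k := k)
    (fun i => tr Γ (((i : ℕ) : ℤ) * 12 + k) (S.θ ^ (i : ℕ) * f)) fun i => by
      rw [add_comm k]
      exact tr_mem (mul_mem_MSpace rfl (pow_mem_MSpace S.mem _ rfl) hf)
  refine ⟨e, he, sub_eq_zero.mp ?_⟩
  have hDf : S.disc * f ∈ MSpace Γ (k + 12 * (discLevel Γ : ℤ)) :=
    mul_mem_MSpace (add_comm _ _) (LSpace_le_MSpace S.disc_mem) hf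
  refine S.eq_zero_of_tr (sub_mem hDf hmem) fun i => ?_
  rw [mul_sub, sub_eq_add_neg, ← neg_one_smul ℂ, tr_add, tr_smul, htr i, mul_left_comm,
    tr_mul_left (k₁ := 12 * (discLevel Γ : ℤ)) (k₂ := ((i : ℕ) : ℤ) * 12 + k) (by ring) S.disc_mem,
    neg_one_smul, add_neg_cancel]

/-- The dual candidate `disc · g`. -/
lemma SepForm.exists_predual (S : SepForm Γ) (B : Gens Γ) (a : B.Idx) :
    ∃ h ∈ MSpace Γ (12 - B.wt a + 12 * (discLevel Γ : ℤ)), ∀ (k : ℤ) (f : ℍ → ℂ), f ∈ MSpace Γ k →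
      tr Γ (k + (12 - B.wt a + 12 * (discLevel Γ : ℤ))) (f * h) = S.disc * (dF * B.coef a k f) := by
  set W := 12 * (discLevel Γ : ℤ) with hW
  set v := 12 - B.wt a with hv
  obtain ⟨c, hc, hmem, htr⟩ := S.exists_expansion (k := v)
    (fun i => dF * B.coef a (((i : ℕ) : ℤ) * 12) (S.θ ^ (i : ℕ))) fun i =>
      mul_mem_MSpace (by rw [hv]; ring) dF_mem (B.coef_mem a _ _)
  refine ⟨_, hmem, fun k f hf => ?_⟩
  set h := ∑ j, c j * S.θ ^ (j : ℕ)
  obtain ⟨e, he, hDf⟩ := S.disc_mul_eq hf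
  refine MFIntegral.mdiff_mul_cancel S.disc_mdiff S.disc_ne_zero
    (tr_mem (mul_mem_MSpace rfl hf hmem)).1
    (S.disc_mdiff.mul (dF_mem.1.mul (B.coef_mem a k f).1)) ?_
  have h1 : S.disc * B.coef a k f =
      ∑ j, e j * B.coef a (((j : ℕ) : ℤ) * 12) (S.θ ^ (j : ℕ)) := by
    have hA := B.coef_linear (k := k + W) {()} (fun _ => k) (fun _ => S.disc) (fun _ => f)
      (by intro _ _; rw [add_sub_cancel_left]; exact S.disc_mem) (fun _ _ => hf) a
    simp only [Finset.sum_singleton] at hA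
    rw [← hA, hDf]
    exact B.coef_linear (k := k + W) Finset.univ
      (fun j : Fin (Fintype.card (SL(2, ℤ) ⧸ Γ)) => ((j : ℕ) : ℤ) * 12) e
      (fun j => S.θ ^ (j : ℕ)) (fun j _ => he j) (fun j _ => pow_mem_MSpace S.mem _ rfl) a
  rw [← tr_mul_left (k₁ := W) (k₂ := k + (v + W)) rfl S.disc_mem, ← mul_assoc, hDf,
    Finset.sum_mul, tr_sum]
  rw [show S.disc * (S.disc * (dF * B.coef a k f)) = S.disc * dF * (S.disc * B.coef a k f) by ring,
    h1, Finset.mul_sum]
  refine Finset.sum_congr rfl fun j _ => ?_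
  rw [mul_assoc (e j), tr_mul_left (k₁ := k + W - ((j : ℕ) : ℤ) * 12)
    (k₂ := ((j : ℕ) : ℤ) * 12 + (v + W)) (by ring) (he j), htr j]
  ring

/-- A finite family all of whose positive power sums vanish is zero. -/
lemma eq_zero_of_powerSums {α : Type*} [Fintype α] (v : α → ℂ)
    (h : ∀ i : ℕ, 1 ≤ i → ∑ a, v a ^ i = 0) : v = 0 := by
  classical
  funext a
  by_contra ha
  simp only [Pi.zero_apply] at ha
  let s := (Finset.univ.image v).erase (v a)
  let p : Polynomial ℂ := Polynomial.X * ∏ r ∈ s, (Polynomial.X - Polynomial.C r)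
  have h0 : ∑ b, p.eval (v b) = 0 := by
    simp only [Polynomial.eval_eq_sum_range]
    rw [Finset.sum_comm]
    refine Finset.sum_eq_zero fun i _ => ?_
    rw [← Finset.mul_sum]
    rcases Nat.eq_zero_or_pos i with rfl | hi
    · simp [p]
    · rw [h i hi, mul_zero]
  have h1 : ∑ b, p.eval (v b) = (Finset.univ.filter fun b => v b = v a).card * p.eval (v a) := by
    rw [← nsmul_eq_mul, ← Finset.sum_const, Finset.sum_filter]
    refine Finset.sum_congr rfl fun b _ => ?_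
    split_ifs with hb
    · rw [hb]
    · have : v b ∈ s := by simp [s, hb]
      simp [p, Polynomial.eval_prod, Finset.prod_eq_zero this]
  have hpa : p.eval (v a) ≠ 0 := by
    simp only [p, Polynomial.eval_mul, Polynomial.eval_X, Polynomial.eval_prod, Polynomial.eval_sub,
      Polynomial.eval_C]
    exact mul_ne_zero ha (Finset.prod_ne_zero_iff.mpr fun r hr =>
      sub_ne_zero.mpr (Finset.ne_of_mem_erase hr).symm)
  rw [h1] at h0
  refine (mul_ne_zero ?_ hpa) h0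
  rw [Nat.cast_ne_zero, ← Nat.pos_iff_ne_zero, Finset.card_pos]
  exact ⟨a, by simp⟩

lemma slash_T_zpow_apply (k : ℤ) (f : ℍ → ℂ) (n : ℤ) (τ : ℍ) :
    (f ∣[k] (ModularGroup.T ^ n)) τ = f ((n : ℝ) +ᵥ τ) := by
  rw [ModularForm.SL_slash_apply, modular_T_zpow_smul, ModularGroup.denom_apply,
    ModularGroup.coe_T_zpow]
  simp

variable (Γ) in
/-- A period of `T` acting on the cosets. -/
def period : ℕ := orderOf (MulAction.toPerm ModularGroup.T : Equiv.Perm (SL(2, ℤ) ⧸ Γ))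

lemma period_ne_zero : period Γ ≠ 0 := (orderOf_pos _).ne'

omit [Γ.FiniteIndex] in
lemma T_pow_period_smul (q : SL(2, ℤ) ⧸ Γ) : (ModularGroup.T ^ period Γ) • q = q := by
  have h := pow_orderOf_eq_one (MulAction.toPermHom SL(2, ℤ) (SL(2, ℤ) ⧸ Γ) ModularGroup.T)
  rw [← map_pow] at h
  exact congrArg (fun e : Equiv.Perm (SL(2, ℤ) ⧸ Γ) => e q) h

lemma ord_zero_sh {f : ℍ → ℂ} (hf : f ∈ MSpace Γ k) (q : SL(2, ℤ) ⧸ Γ) :
    Ord (period Γ) 0 (sh Γ k f q) := by
  refine ord_zero period_ne_zero (periodic_ofComplex fun τ => ?_) (sh_mdiff hf.1 q) (sh_bdd hf q)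
  have h := congrFun (sh_slash hf.2.1 (ModularGroup.T ^ ((period Γ : ℕ) : ℤ)) q) τ
  rw [slash_T_zpow_apply] at h
  have hq : (ModularGroup.T ^ ((period Γ : ℕ) : ℤ))⁻¹ • q = q := by
    rw [inv_smul_eq_iff, zpow_natCast, T_pow_period_smul]
  rw [hq] at h
  exact_mod_cast h

omit [Γ.FiniteIndex] in
lemma div_dF_pow_mem {F : ℍ → ℂ} {c : ℕ} (hF : F ∈ MSpace Γ k)
    (hb : ∀ g : SL(2, ℤ), IsBoundedAtImInfty fun τ => (F ∣[k] g) τ / dF τ ^ c) :
    (fun τ => F τ / dF τ ^ c) ∈ MSpace Γ (k - 12 * (c : ℤ)) := by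
  have hΔ : dF ^ c ∈ LSpace (12 * (c : ℤ)) := pow_mem_MSpace dF_mem c (by ring)
  have key : ∀ g : SL(2, ℤ), ((fun τ => F τ / dF τ ^ c) ∣[k - 12 * (c : ℤ)] g) =
      fun τ => (F ∣[k] g) τ / dF τ ^ c := by
    intro g
    have e : F = dF ^ c * fun τ => F τ / dF τ ^ c := by
      funext τ
      rw [Pi.mul_apply, Pi.pow_apply, mul_div_cancel₀ _ (pow_ne_zero _ (dF_ne_zero τ))]
    have h := congrArg (fun f : ℍ → ℂ => f ∣[k] g) e
    simp only [mul_slash_eq (k₁ := 12 * (c : ℤ)) (k₂ := k - 12 * (c : ℤ)) (k := k) (by ring) g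
      (dF ^ c) (fun τ => F τ / dF τ ^ c), LSpace.slash_eq hΔ] at h
    funext τ
    have := congrFun h τ
    rw [Pi.mul_apply, Pi.pow_apply] at this
    rw [this, mul_div_cancel_left₀ _ (pow_ne_zero _ (dF_ne_zero τ))]
  refine ⟨?_, fun γ hγ => ?_, fun g => ?_⟩
  · intro τ
    rw [UpperHalfPlane.mdifferentiableAt_iff]
    have h1 := UpperHalfPlane.mdifferentiableAt_iff.mp (hF.1 τ)
    have h2 := UpperHalfPlane.mdifferentiableAt_iff.mp (hΔ.1 τ)
    exact h1.div h2 (by simpa using pow_ne_zero c (dF_ne_zero τ))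
  · rw [key γ, MSpace.slash_eq hF hγ]
  · rw [key g]; exact hb g

/-- A form all of whose traces against forms are `Δ ^ m` times cusp forms is `Δ ^ m` times a cusp
form. -/
lemma cusp_descent {v : ℤ} (m : ℕ) {h : ℍ → ℂ} (hh : h ∈ MSpace Γ (v + 12 * (m : ℤ)))
    (H : ∀ (k : ℤ) (f : ℍ → ℂ), f ∈ MSpace Γ k → ∃ y ∈ LSpace (k + v),
      Tendsto y atImInfty (𝓝 0) ∧ tr Γ (k + (v + 12 * (m : ℤ))) (f * h) = dF ^ m * y) :
    ∃ g ∈ SSpace Γ v, h = dF ^ m * g := by
  set M := period Γ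
  have hM : M ≠ 0 := period_ne_zero
  set w := v + 12 * (m : ℤ) with hw
  set R : ℕ → (SL(2, ℤ) ⧸ Γ) → ℍ → ℂ := fun b q τ => sh Γ w h q τ / u M τ ^ b
  have hshu : ∀ b q τ, sh Γ w h q τ = u M τ ^ b * R b q τ := fun b q τ => by
    simp only [R]; rw [mul_div_cancel₀ _ (pow_ne_zero _ (u_ne_zero M τ))]
  have hΔu : ∀ τ, dF τ = u M τ ^ M * dUnit τ := fun τ => by rw [dF_eq τ, u_pow_self hM]
  have main : ∀ b, b ≤ M * m + 1 → ∀ q, Ord M b (sh Γ w h q) := by
    intro b
    induction b with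
    | zero => exact fun _ q => ord_zero_sh hh q
    | succ b ih =>
      intro hb
      have hord := ih (by omega)
      suffices hL : ∀ q, lead M b (sh Γ w h q) = 0 from fun q => (hord q).succ hM (hL q)
      suffices hL : (fun q => lead M b (sh Γ w h q) ^ M) = 0 from
        fun q => (pow_eq_zero_iff hM).mp (congrFun hL q)
      refine eq_zero_of_powerSums _ fun i hi => ?_
      obtain ⟨n, hn⟩ : ∃ n, M * i = n + 1 := ⟨M * i - 1, by
        have : 0 < M * i := Nat.mul_pos (Nat.pos_of_ne_zero hM) hi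
        omega⟩
      have hFmem : h ^ n * dF ^ m ∈ MSpace Γ ((n : ℤ) * w + 12 * (m : ℤ)) :=
        mul_mem_MSpace rfl (pow_mem_MSpace hh n rfl)
          (LSpace_le_MSpace (pow_mem_MSpace dF_mem m (by ring)))
      have hbd : ∀ g : SL(2, ℤ), IsBoundedAtImInfty fun τ =>
          ((h ^ n * dF ^ m) ∣[(n : ℤ) * w + 12 * (m : ℤ)] g) τ / dF τ ^ (i * b) := by
        intro g
        set q : SL(2, ℤ) ⧸ Γ := ((g⁻¹ : SL(2, ℤ)) : SL(2, ℤ) ⧸ Γ)
        have e : ∀ τ, ((h ^ n * dF ^ m) ∣[(n : ℤ) * w + 12 * (m : ℤ)] g) τ / dF τ ^ (i * b) =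
            u M τ ^ (M * m - b) * R b q τ ^ n * (dUnit τ ^ m / dUnit τ ^ (i * b)) := by
          intro τ
          rw [slash_eq_sh hFmem.2.1, sh_mul (k₁ := (n : ℤ) * w) rfl, sh_pow (k₁ := w) _ _ _ rfl,
            sh_of_level_one (pow_mem_MSpace dF_mem m (by ring)), Pi.mul_apply, Pi.pow_apply,
            Pi.pow_apply, hshu b, hΔu]
          have hexp : b * n + M * m = (M * m - b) + M * (i * b) := by
            have h1 : b * n + b = M * (i * b) := by
              have : b * (M * i) = b * (n + 1) := by rw [hn]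
              linarith
            have h2 : b ≤ M * m := by omega
            omega
          have hu : u M τ ^ (b * n) * u M τ ^ (M * m) =
              u M τ ^ (M * m - b) * u M τ ^ (M * (i * b)) := by
            rw [← pow_add, ← pow_add, hexp]
          have hu0 := u_ne_zero M τ
          have hd0 := dUnit_ne_zero τ
          rw [mul_pow, mul_pow, mul_pow, ← pow_mul, ← pow_mul, ← pow_mul]
          field_simp
          linear_combination (R b q τ ^ n) * hu
        simp only [e]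
        have t1 := ((tendsto_u hM).pow (M * m - b)).mul ((hord q).tendsto hM |>.pow n)
        have t2 := (tendsto_dUnit.pow m).div (tendsto_dUnit.pow (i * b)) (by simp)
        exact (t1.mul t2).isBigO_one ℝ
      obtain ⟨y, -, hy0, hy⟩ := H _ _ (div_dF_pow_mem hFmem hbd)
      have hyτ : ∀ τ, y τ = ∑ q, R b q τ ^ (M * i) / dUnit τ ^ (i * b) := by
        intro τ
        have hΔib : dF ^ (i * b) ∈ LSpace (12 * ((i * b : ℕ) : ℤ)) :=
          pow_mem_MSpace dF_mem _ (by ring)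
        have hΔm : dF ^ m ∈ LSpace (12 * (m : ℤ)) := pow_mem_MSpace dF_mem _ (by ring)
        have e : dF ^ (i * b) * ((fun τ => (h ^ n * dF ^ m) τ / dF τ ^ (i * b)) * h) =
            dF ^ m * h ^ (M * i) := by
          funext τ
          simp only [Pi.mul_apply, Pi.pow_apply]
          rw [← mul_assoc, mul_div_cancel₀ _ (pow_ne_zero _ (dF_ne_zero τ)), hn, pow_succ]
          ring
        have h2 := congrArg (tr Γ (((M * i : ℕ) : ℤ) * w + 12 * (m : ℤ))) e
        rw [tr_mul_left (k₂ := (n : ℤ) * w + 12 * (m : ℤ) - 12 * ((i * b : ℕ) : ℤ) + w)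
          (by rw [hn]; push_cast; ring) hΔib, hy,
          tr_mul_left (k₂ := ((M * i : ℕ) : ℤ) * w) (by ring) hΔm] at h2
        have h3 := congrFun h2 τ
        simp only [Pi.mul_apply, Pi.pow_apply, tr_apply, sh_pow (k₁ := w) _ _ _ rfl] at h3
        rw [mul_left_comm, mul_right_inj' (pow_ne_zero _ (dF_ne_zero τ))] at h3
        rw [Finset.sum_congr rfl fun q _ => by rw [hshu b q τ, mul_pow, ← pow_mul]] at h3
        rw [hΔu τ, mul_pow, ← pow_mul, show b * (M * i) = M * (i * b) by ring, ← Finset.mul_sum,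
          mul_assoc, mul_right_inj' (pow_ne_zero _ (u_ne_zero M τ))] at h3
        rw [← Finset.sum_div, ← h3, mul_div_cancel_left₀ _ (pow_ne_zero _ (dUnit_ne_zero τ))]
      have hlim : Tendsto y atImInfty (𝓝 (∑ q, lead M b (sh Γ w h q) ^ (M * i))) := by
        have := tendsto_finsetSum Finset.univ fun q (_ : q ∈ Finset.univ) =>
          (((hord q).tendsto hM).pow (M * i)).div (tendsto_dUnit.pow (i * b)) (by simp)
        simp only [one_pow, div_one] at this
        exact this.congr fun τ => (hyτ τ).symm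
      simp only [← pow_mul]
      exact tendsto_nhds_unique hlim hy0
  have hz : ∀ g : SL(2, ℤ), Tendsto (fun τ => (h ∣[w] g) τ / dF τ ^ m) atImInfty (𝓝 0) := by
    intro g
    set q : SL(2, ℤ) ⧸ Γ := ((g⁻¹ : SL(2, ℤ)) : SL(2, ℤ) ⧸ Γ)
    have := (((main (M * m + 1) le_rfl q).tendsto hM).mul (tendsto_u hM)).div
      (tendsto_dUnit.pow m) (by simp)
    rw [mul_zero, zero_div] at this
    refine this.congr fun τ => ?_
    rw [slash_eq_sh hh.2.1, Pi.div_apply, hΔu, mul_pow, ← pow_mul, pow_succ]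
    have := u_ne_zero M τ
    field_simp
    rfl
  have hgmem := div_dF_pow_mem hh fun g => (hz g).isBigO_one ℝ
  rw [show w - 12 * (m : ℤ) = v by rw [hw]; ring] at hgmem
  have he : h = dF ^ m * fun τ => h τ / dF τ ^ m := by
    funext τ
    rw [Pi.mul_apply, Pi.pow_apply, mul_div_cancel₀ _ (pow_ne_zero _ (dF_ne_zero τ))]
  refine ⟨_, ⟨hgmem, fun g => ?_⟩, he⟩
  refine (hz g).congr fun τ => ?_
  have h2 := congrArg (fun f : ℍ → ℂ => (f ∣[w] g) τ) he
  simp only [mul_slash_eq (k₁ := 12 * (m : ℤ)) (k₂ := v) (k := w) (by rw [hw]; ring) g (dF ^ m)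
    (fun τ => h τ / dF τ ^ m), LSpace.slash_eq (pow_mem_MSpace dF_mem m
    (k := 12 * (m : ℤ)) (by ring)), Pi.mul_apply, Pi.pow_apply] at h2
  rw [h2, mul_div_cancel_left₀ _ (pow_ne_zero _ (dF_ne_zero τ))]

/-- Division by a factored level one form. -/
lemma exists_cusp_quotient {l : ℕ} {D : ℍ → ℂ} (hD : D ∈ LSpace (12 * (l : ℤ))) (hD0 : D ≠ 0)
    {v : ℤ} {h : ℍ → ℂ} (hh : h ∈ MSpace Γ (v + 12 * (l : ℤ)))
    (H : ∀ (k : ℤ) (f : ℍ → ℂ), f ∈ MSpace Γ k → ∃ y ∈ LSpace (k + v),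
      Tendsto y atImInfty (𝓝 0) ∧ tr Γ (k + (v + 12 * (l : ℤ))) (f * h) = D * y) :
    ∃ g ∈ SSpace Γ v, h = D * g := by
  refine levelOne_induction (C := fun w D => ∀ (v : ℤ) (h : ℍ → ℂ), h ∈ MSpace Γ (v + w) →
    (∀ (k : ℤ) (f : ℍ → ℂ), f ∈ MSpace Γ k → ∃ y ∈ LSpace (k + v),
      Tendsto y atImInfty (𝓝 0) ∧ tr Γ (k + (v + w)) (f * h) = D * y) →
    ∃ g ∈ SSpace Γ v, h = D * g) ?_ ?_ hD hD0 v h hh H
  · intro c m hc v h hh H
    obtain ⟨g, hg, hge⟩ := cusp_descent m (h := c⁻¹ • h) (Submodule.smul_mem _ _ hh)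
      fun k f hf => by
        obtain ⟨y, hy, hy0, he⟩ := H k f hf
        refine ⟨y, hy, hy0, ?_⟩
        rw [mul_smul_comm, tr_smul, he, smul_mul_assoc, inv_smul_smul₀ hc]
    refine ⟨g, hg, ?_⟩
    rw [smul_mul_assoc, ← hge, smul_inv_smul₀ hc]
  · intro p w P D hP hD' ih v h hh H
    have hvan : ∀ z, P z = 0 → h z = 0 := by
      intro z hz
      have := eq_zero_of_powerSums (fun q => sh Γ (v + (p + w)) h q z) fun i hi => by
        obtain ⟨i, rfl⟩ : ∃ j, i = j + 1 := ⟨i - 1, by omega⟩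
        obtain ⟨y, -, -, he⟩ := H _ _ (pow_mem_MSpace hh i rfl)
        have h2 := congrFun he z
        rw [Pi.mul_apply, Pi.mul_apply, hz, zero_mul, zero_mul, ← pow_succ, tr_apply] at h2
        rw [← h2]
        refine Finset.sum_congr rfl fun q _ => ?_
        rw [sh_pow (k₁ := v + (p + w)) _ _ (i + 1) (by push_cast; ring)]
        rfl
      have h1 := congrFun this ((1 : SL(2, ℤ)) : SL(2, ℤ) ⧸ Γ)
      rwa [sh_base hh.2.1] at h1
    obtain ⟨G, hG, hGe⟩ := exists_div_mem hP hh hvan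
    rw [show v + (p + w) - p = v + w by ring] at hG
    obtain ⟨g, hg, hge⟩ := ih v G hG fun k f hf => by
      obtain ⟨y, hy, hy0, he⟩ := H k f hf
      refine ⟨y, hy, hy0, MFIntegral.mdiff_mul_cancel hP.mem.1 hP.ne_zero
        (tr_mem (mul_mem_MSpace rfl hf hG)).1 (hD'.1.mul hy.1) ?_⟩
      rw [hGe, mul_left_comm, tr_mul_left (k₂ := k + (v + w)) (by ring) hP.mem, mul_assoc] at he
      exact he
    exact ⟨g, hg, by rw [hGe, hge, mul_assoc]⟩

/-- The dual cusp form of a generator. -/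
theorem SepForm.exists_dual (S : SepForm Γ) (B : Gens Γ) (a : B.Idx) :
    ∃ g ∈ SSpace Γ (12 - B.wt a), ∀ (k : ℤ) (f : ℍ → ℂ), f ∈ MSpace Γ k →
      tr Γ (k + (12 - B.wt a)) (f * g) = dF * B.coef a k f := by
  obtain ⟨h, hh, htr⟩ := S.exists_predual B a
  obtain ⟨g, hg, hge⟩ := exists_cusp_quotient S.disc_mem S.disc_ne_zero hh fun k f hf =>
    ⟨dF * B.coef a k f, mul_mem_MSpace (by ring) dF_mem (B.coef_mem a k f), by
      have := (LSpace.bdd (B.coef_mem a k f))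
      exact Filter.ZeroAtFilter.mul_boundedAtFilter tendsto_dF this, htr k f hf⟩
  refine ⟨g, hg, fun k f hf => ?_⟩
  refine MFIntegral.mdiff_mul_cancel S.disc_mdiff S.disc_ne_zero
    (tr_mem (mul_mem_MSpace rfl hf hg.1)).1 (dF_mem.1.mul (B.coef_mem a k f).1) ?_
  rw [← tr_mul_left (k₁ := 12 * (discLevel Γ : ℤ)) rfl S.disc_mem, mul_left_comm, ← hge,
    show 12 * (discLevel Γ : ℤ) + (k + (12 - B.wt a)) =
      k + (12 - B.wt a + 12 * (discLevel Γ : ℤ)) by ring]
  exact htr k f hf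

end FLTAgent.MFDim

end
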