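import Fermat.Agent.MFIntegral.Fun
import Mathlib

/-!
# Modular forms for `Γ ≤ SL(2, ℤ)` as submodules of `ℍ → ℂ`, and their translates

The spaces `MSpace`, `SSpace` and `LSpace`, the translate `sh` attached to a coset and the trace
`tr` to level one. The basis of the dimension computation.
-/

set_option autoImplicit false

noncomputable section

open UpperHalfPlane Filter
open scoped MatrixGroups ModularForm Manifold Topology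

namespace FLTAgent.MFDim

variable (Γ : Subgroup SL(2, ℤ)) (k : ℤ)

/-- The set of weight `k` modular forms for `Γ`, as functions. -/
def IsMod (f : ℍ → ℂ) : Prop :=
  MDiff f ∧ (∀ γ ∈ Γ, f ∣[k] γ = f) ∧ ∀ g : SL(2, ℤ), IsBoundedAtImInfty (f ∣[k] g)

/-- Modular forms of weight `k` for `Γ`, as a submodule of functions. -/
def MSpace : Submodule ℂ (ℍ → ℂ) where
  carrier := {f | IsMod Γ k f}
  zero_mem' := ⟨mdifferentiable_const, fun γ _ => SlashAction.zero_slash k γ, fun g => by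
    rw [SlashAction.zero_slash]; exact zero_form_isBoundedAtImInfty⟩
  add_mem' := by
    rintro f g ⟨hf1, hf2, hf3⟩ ⟨hg1, hg2, hg3⟩
    refine ⟨hf1.add hg1, fun γ hγ => by rw [SlashAction.add_slash, hf2 γ hγ, hg2 γ hγ], fun h => ?_⟩
    rw [SlashAction.add_slash]
    exact (hf3 h).add (hg3 h)
  smul_mem' := by
    rintro c f ⟨hf1, hf2, hf3⟩
    refine ⟨hf1.const_smul c, fun γ hγ => by rw [ModularForm.SL_smul_slash, hf2 γ hγ], fun g => ?_⟩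
    rw [ModularForm.SL_smul_slash]
    exact (hf3 g).smul c

/-- Cusp forms of weight `k` for `Γ`, as a submodule of functions. -/
def SSpace : Submodule ℂ (ℍ → ℂ) where
  carrier := {f | IsMod Γ k f ∧ ∀ g : SL(2, ℤ), IsZeroAtImInfty (f ∣[k] g)}
  zero_mem' := ⟨(MSpace Γ k).zero_mem, fun g => by
    rw [SlashAction.zero_slash]; exact tendsto_const_nhds⟩
  add_mem' := by
    rintro f g ⟨hf, hf0⟩ ⟨hg, hg0⟩
    refine ⟨(MSpace Γ k).add_mem hf hg, fun h => ?_⟩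
    rw [SlashAction.add_slash]
    exact (hf0 h).add (hg0 h)
  smul_mem' := by
    rintro c f ⟨hf, hf0⟩
    refine ⟨(MSpace Γ k).smul_mem c hf, fun g => ?_⟩
    rw [ModularForm.SL_smul_slash]
    exact (hf0 g).smul c

/-- Level one modular forms, as functions. -/
abbrev LSpace : Submodule ℂ (ℍ → ℂ) := MSpace ⊤ k

variable {Γ k}

lemma MSpace.mdiff {f : ℍ → ℂ} (h : f ∈ MSpace Γ k) : MDiff f := h.1
lemma MSpace.slash_eq {f : ℍ → ℂ} (h : f ∈ MSpace Γ k) {γ : SL(2, ℤ)} (hγ : γ ∈ Γ) :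
    f ∣[k] γ = f := h.2.1 γ hγ
lemma MSpace.bdd {f : ℍ → ℂ} (h : f ∈ MSpace Γ k) (g : SL(2, ℤ)) :
    IsBoundedAtImInfty (f ∣[k] g) := h.2.2 g

lemma LSpace_le_MSpace : LSpace k ≤ MSpace Γ k :=
  fun _ h => ⟨h.1, fun γ _ => h.2.1 γ (Subgroup.mem_top γ), h.2.2⟩

lemma LSpace.slash_eq {f : ℍ → ℂ} (h : f ∈ LSpace k) (γ : SL(2, ℤ)) : f ∣[k] γ = f :=
  h.2.1 γ (Subgroup.mem_top γ)

lemma LSpace.bdd {f : ℍ → ℂ} (h : f ∈ LSpace k) : IsBoundedAtImInfty f := by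
  simpa using h.2.2 1

lemma mem_LSpace {f : ℍ → ℂ} :
    f ∈ LSpace k ↔ MDiff f ∧ (∀ γ : SL(2, ℤ), f ∣[k] γ = f) ∧ IsBoundedAtImInfty f :=
  ⟨fun h => ⟨h.1, LSpace.slash_eq h, LSpace.bdd h⟩,
    fun ⟨h1, h2, h3⟩ => ⟨h1, fun γ _ => h2 γ, fun g => by rw [h2 g]; exact h3⟩⟩

lemma mul_slash_eq {k₁ k₂ : ℤ} (h : k₁ + k₂ = k) (A : SL(2, ℤ)) (f g : ℍ → ℂ) :
    (f * g) ∣[k] A = f ∣[k₁] A * g ∣[k₂] A := by
  subst h; exact ModularForm.mul_slash_SL2 k₁ k₂ A f g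

lemma mul_mem_MSpace {k₁ k₂ : ℤ} (h : k₁ + k₂ = k) {f g : ℍ → ℂ} (hf : f ∈ MSpace Γ k₁)
    (hg : g ∈ MSpace Γ k₂) : f * g ∈ MSpace Γ k :=
  ⟨hf.1.mul hg.1, fun γ hγ => by rw [mul_slash_eq h, hf.2.1 γ hγ, hg.2.1 γ hγ],
    fun A => by rw [mul_slash_eq h]; exact (hf.2.2 A).mul (hg.2.2 A)⟩

lemma mul_mem_SSpace {k₁ k₂ : ℤ} (h : k₁ + k₂ = k) {f g : ℍ → ℂ} (hf : f ∈ MSpace Γ k₁)
    (hg : g ∈ SSpace Γ k₂) : f * g ∈ SSpace Γ k := by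
  refine ⟨mul_mem_MSpace h hf hg.1, fun A => ?_⟩
  rw [mul_slash_eq h, mul_comm]
  exact (hg.2 A).mul_boundedAtFilter (hf.2.2 A)

lemma one_mem_MSpace : (1 : ℍ → ℂ) ∈ MSpace Γ 0 :=
  ⟨mdifferentiable_const, fun γ _ => ModularForm.is_invariant_one γ, fun g => by
    rw [ModularForm.is_invariant_one g]; exact const_boundedAtFilter atImInfty (1 : ℂ)⟩

lemma pow_mem_MSpace {k₁ : ℤ} {f : ℍ → ℂ} (hf : f ∈ MSpace Γ k₁) :
    ∀ (n : ℕ) {k : ℤ}, (n : ℤ) * k₁ = k → f ^ n ∈ MSpace Γ k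
  | 0, k, h => by
    obtain rfl : k = 0 := by simpa using h.symm
    simpa using one_mem_MSpace
  | n + 1, k, h => by
    rw [pow_succ]
    exact mul_mem_MSpace (k₁ := n * k₁) (by push_cast at h; linarith) (pow_mem_MSpace hf n rfl) hf

/-! ### Translates -/

/-- The translate of `f` attached to the coset `q`. -/
def sh (Γ : Subgroup SL(2, ℤ)) (k : ℤ) (f : ℍ → ℂ) (q : SL(2, ℤ) ⧸ Γ) : ℍ → ℂ :=
  f ∣[k] (q.out)⁻¹

lemma sh_mk {f : ℍ → ℂ} (hf : ∀ γ ∈ Γ, f ∣[k] γ = f) (g : SL(2, ℤ)) :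
    sh Γ k f (g : SL(2, ℤ) ⧸ Γ) = f ∣[k] g⁻¹ := by
  obtain ⟨h, hh⟩ := QuotientGroup.mk_out_eq_mul Γ g
  rw [sh, hh, mul_inv_rev, SlashAction.slash_mul, hf _ (inv_mem h.2)]

lemma sh_base {f : ℍ → ℂ} (hf : ∀ γ ∈ Γ, f ∣[k] γ = f) :
    sh Γ k f ((1 : SL(2, ℤ)) : SL(2, ℤ) ⧸ Γ) = f := by
  rw [sh_mk hf, inv_one, SlashAction.slash_one]

lemma slash_eq_sh {f : ℍ → ℂ} (hf : ∀ γ ∈ Γ, f ∣[k] γ = f) (g : SL(2, ℤ)) :
    f ∣[k] g = sh Γ k f ((g⁻¹ : SL(2, ℤ)) : SL(2, ℤ) ⧸ Γ) := by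
  rw [sh_mk hf, inv_inv]

lemma sh_slash {f : ℍ → ℂ} (hf : ∀ γ ∈ Γ, f ∣[k] γ = f) (g : SL(2, ℤ)) (q : SL(2, ℤ) ⧸ Γ) :
    sh Γ k f q ∣[k] g = sh Γ k f (g⁻¹ • q) := by
  induction q using QuotientGroup.induction_on with | H a =>
  rw [MulAction.Quotient.smul_coe, sh_mk hf, sh_mk hf, smul_eq_mul, mul_inv_rev, inv_inv,
    SlashAction.slash_mul]

lemma sh_mul {k₁ k₂ : ℤ} (h : k₁ + k₂ = k) (f g : ℍ → ℂ) (q : SL(2, ℤ) ⧸ Γ) :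
    sh Γ k (f * g) q = sh Γ k₁ f q * sh Γ k₂ g q :=
  mul_slash_eq h _ f g

lemma sh_add (f g : ℍ → ℂ) (q : SL(2, ℤ) ⧸ Γ) :
    sh Γ k (f + g) q = sh Γ k f q + sh Γ k g q :=
  SlashAction.add_slash _ _ _ _

lemma sh_smul (c : ℂ) (f : ℍ → ℂ) (q : SL(2, ℤ) ⧸ Γ) :
    sh Γ k (c • f) q = c • sh Γ k f q :=
  ModularForm.SL_smul_slash _ _ _ _

lemma sh_zero (q : SL(2, ℤ) ⧸ Γ) : sh Γ k 0 q = 0 := SlashAction.zero_slash _ _

lemma sh_of_level_one {f : ℍ → ℂ} (hf : f ∈ LSpace k) (q : SL(2, ℤ) ⧸ Γ) : sh Γ k f q = f :=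
  LSpace.slash_eq hf _

lemma sh_one (q : SL(2, ℤ) ⧸ Γ) : sh Γ 0 1 q = 1 := ModularForm.is_invariant_one _

lemma sh_pow {k₁ : ℤ} (f : ℍ → ℂ) (q : SL(2, ℤ) ⧸ Γ) :
    ∀ (n : ℕ) {k : ℤ}, (n : ℤ) * k₁ = k → sh Γ k (f ^ n) q = sh Γ k₁ f q ^ n
  | 0, k, h => by
    obtain rfl : k = 0 := by simpa using h.symm
    simp [sh_one]
  | n + 1, k, h => by
    rw [pow_succ, pow_succ, sh_mul (k₁ := n * k₁) (k₂ := k₁) (by push_cast at h; linarith),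
      sh_pow f q n rfl]

lemma sh_mdiff {f : ℍ → ℂ} (hf : MDiff f) (q : SL(2, ℤ) ⧸ Γ) : MDiff (sh Γ k f q) := by
  rw [sh, ModularForm.SL_slash]
  exact hf.slash k _

lemma sh_bdd {f : ℍ → ℂ} (hf : f ∈ MSpace Γ k) (q : SL(2, ℤ) ⧸ Γ) :
    IsBoundedAtImInfty (sh Γ k f q) := hf.2.2 _

lemma sh_sum {ι : Type*} (s : Finset ι) (f : ι → ℍ → ℂ) (q : SL(2, ℤ) ⧸ Γ) :
    sh Γ k (∑ i ∈ s, f i) q = ∑ i ∈ s, sh Γ k (f i) q :=
  SlashAction.sum_slash _ _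

section Trace

variable [Γ.FiniteIndex]

instance : Fintype (SL(2, ℤ) ⧸ Γ) := Subgroup.fintypeQuotientOfFiniteIndex

variable (Γ k)

/-- Sum of all translates: the trace to level one. -/
def tr (f : ℍ → ℂ) : ℍ → ℂ := ∑ q : SL(2, ℤ) ⧸ Γ, sh Γ k f q

variable {Γ k}

lemma tr_apply (f : ℍ → ℂ) (z : ℍ) : tr Γ k f z = ∑ q : SL(2, ℤ) ⧸ Γ, sh Γ k f q z := by
  simp [tr]

lemma tr_mem {f : ℍ → ℂ} (hf : f ∈ MSpace Γ k) : tr Γ k f ∈ LSpace k := by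
  refine mem_LSpace.mpr ⟨?_, fun γ => ?_, ?_⟩
  · exact MDifferentiable.sum fun q _ => sh_mdiff hf.1 q
  · rw [tr, SlashAction.sum_slash]
    simp only [sh_slash hf.2.1]
    exact Equiv.sum_comp (MulAction.toPerm γ⁻¹) (sh Γ k f)
  · exact (boundedFilterSubalgebra ℂ atImInfty).sum_mem fun q _ => sh_bdd hf q

lemma tr_add (f g : ℍ → ℂ) : tr Γ k (f + g) = tr Γ k f + tr Γ k g := by
  simp [tr, sh_add, Finset.sum_add_distrib]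

lemma tr_sum {ι : Type*} (s : Finset ι) (f : ι → ℍ → ℂ) :
    tr Γ k (∑ i ∈ s, f i) = ∑ i ∈ s, tr Γ k (f i) := by
  simp only [tr, sh_sum]
  exact Finset.sum_comm

lemma tr_smul (c : ℂ) (f : ℍ → ℂ) : tr Γ k (c • f) = c • tr Γ k f := by
  simp [tr, sh_smul, Finset.smul_sum]

lemma tr_mul_left {k₁ k₂ : ℤ} (h : k₁ + k₂ = k) {x : ℍ → ℂ} (hx : x ∈ LSpace k₁) (f : ℍ → ℂ) :
    tr Γ k (x * f) = x * tr Γ k₂ f := by
  simp only [tr, sh_mul h, sh_of_level_one hx, Finset.mul_sum]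

end Trace

end FLTAgent.MFDim

end
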