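import Fermat.Agent.MFDim.Trace

/-!
# The space of forms for `Γ` is free over the level one forms

Generators `g` indexed by `Idx` such that each form is uniquely a combination of them with level
one coefficients (`exists_coeffs`, `coeffs_eq_zero`).
-/

set_option autoImplicit false

noncomputable section

open UpperHalfPlane Filter Function
open scoped MatrixGroups ModularForm Manifold Topology

namespace FLTAgent.MFDim

variable {Γ : Subgroup SL(2, ℤ)} [Γ.FiniteIndex] {k : ℤ}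


/-- A form for `Γ` as a bundled `ModularForm`. -/
def toModularFormΓ {f : ℍ → ℂ} (hf : f ∈ MSpace Γ k) :
    ModularForm (Γ : Subgroup (GL (Fin 2) ℝ)) k where
  toFun := f
  slash_action_eq' := fun g hg => by
    obtain ⟨γ, hγ, rfl⟩ := hg
    exact MSpace.slash_eq hf hγ
  holo' := hf.1
  bdd_at_cusps' := fun {c} hc => by
    rw [Subgroup.IsArithmetic.isCusp_iff_isCusp_SL2Z] at hc
    rw [OnePoint.isBoundedAt_iff_forall_SL2Z hc]
    exact fun γ _ => hf.2.2 γ

lemma MSpace.eq_zero_of_neg {f : ℍ → ℂ} (hk : k < 0) (hf : f ∈ MSpace Γ k) : f = 0 := by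
  have := ModularForm.isZero_of_neg_weight hk (toModularFormΓ hf)
  funext z
  exact DFunLike.congr_fun this z

lemma MSpace.eq_const {f : ℍ → ℂ} (hf : f ∈ MSpace Γ 0) : ∃ c : ℂ, f = c • 1 := by
  obtain ⟨c, hc⟩ := ModularForm.eq_const_of_weight_zero (toModularFormΓ hf)
  exact ⟨c, funext fun z => by simpa using show f z = c from congrFun hc z⟩

/-- All traces against powers of `θ`. -/
def SepForm.pairMap (S : SepForm Γ) (k : ℤ) :
    MSpace Γ k →ₗ[ℂ] ∀ i : Fin (Fintype.card (SL(2, ℤ) ⧸ Γ)), LSpace (((i : ℕ) : ℤ) * 12 + k) where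
  toFun f i := ⟨tr Γ (((i : ℕ) : ℤ) * 12 + k) (S.θ ^ (i : ℕ) * f.1),
    tr_mem (mul_mem_MSpace rfl (pow_mem_MSpace S.mem _ rfl) f.2)⟩
  map_add' f g := by
    funext i
    ext1
    simp [mul_add, tr_add]
  map_smul' c f := by
    funext i
    ext1
    simp [tr_smul]

lemma SepForm.pairMap_injective (S : SepForm Γ) (k : ℤ) : Injective (S.pairMap k) := by
  rw [← LinearMap.ker_eq_bot, LinearMap.ker_eq_bot']
  intro f hf
  exact Subtype.ext (S.eq_zero_of_tr f.2 fun i => congrArg Subtype.val (congrFun hf i))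

lemma SepForm.finiteDimensional (S : SepForm Γ) (k : ℤ) : FiniteDimensional ℂ (MSpace Γ k) :=
  FiniteDimensional.of_injective _ (S.pairMap_injective k)

/-! ### Minimal generators -/

/-- Multiplication by `x` as a linear map. -/
def mulL (x : ℍ → ℂ) : (ℍ → ℂ) →ₗ[ℂ] (ℍ → ℂ) := LinearMap.mulLeft ℂ x

variable (Γ) in
/-- Decomposable forms `E₄ y + E₆ z`. -/
def decomp (k : ℤ) : Submodule ℂ (ℍ → ℂ) :=
  (MSpace Γ (k - 4)).map (mulL e4) ⊔ (MSpace Γ (k - 6)).map (mulL e6)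

omit [Γ.FiniteIndex] in
lemma mem_decomp {f : ℍ → ℂ} :
    f ∈ decomp Γ k ↔ ∃ y ∈ MSpace Γ (k - 4), ∃ z ∈ MSpace Γ (k - 6), f = e4 * y + e6 * z := by
  simp only [decomp, Submodule.mem_sup, Submodule.mem_map, mulL, LinearMap.mulLeft_apply]
  constructor
  · rintro ⟨_, ⟨y, hy, rfl⟩, _, ⟨z, hz, rfl⟩, rfl⟩
    exact ⟨y, hy, z, hz, rfl⟩
  · rintro ⟨y, hy, z, hz, rfl⟩
    exact ⟨_, ⟨y, hy, rfl⟩, _, ⟨z, hz, rfl⟩, rfl⟩

/-- Minimal homogeneous generators of the forms for `Γ` over level one. -/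
structure Gens (Γ : Subgroup SL(2, ℤ)) where
  num : ℕ → ℕ
  gen : (n : ℕ) → Fin (num n) → ℍ → ℂ
  mem : ∀ (n : ℕ) (i : Fin (num n)), gen n i ∈ MSpace Γ (n : ℤ)
  span : ∀ (n : ℕ) (f : ℍ → ℂ), f ∈ MSpace Γ (n : ℤ) →
    ∃ c : Fin (num n) → ℂ, f - ∑ i, c i • gen n i ∈ decomp Γ (n : ℤ)
  indep : ∀ (n : ℕ) (c : Fin (num n) → ℂ), ∑ i, c i • gen n i ∈ decomp Γ (n : ℤ) → c = 0

lemma SepForm.exists_gens (S : SepForm Γ) : Nonempty (Gens Γ) := by
  have key : ∀ n : ℕ, ∃ (m : ℕ) (g : Fin m → ℍ → ℂ), (∀ i, g i ∈ MSpace Γ (n : ℤ)) ∧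
      (∀ f ∈ MSpace Γ (n : ℤ), ∃ c : Fin m → ℂ, f - ∑ i, c i • g i ∈ decomp Γ (n : ℤ)) ∧
      (∀ c : Fin m → ℂ, ∑ i, c i • g i ∈ decomp Γ (n : ℤ) → c = 0) := by
    intro n
    have := S.finiteDimensional (Γ := Γ) (n : ℤ)
    obtain ⟨C₀, hC₀⟩ := Submodule.exists_isCompl
      ((decomp Γ (n : ℤ)).comap (MSpace Γ (n : ℤ)).subtype)
    set C := C₀.map (MSpace Γ (n : ℤ)).subtype
    have hCM : C ≤ MSpace Γ (n : ℤ) := Submodule.map_subtype_le _ _
    have hdisj : ∀ f ∈ decomp Γ (n : ℤ), f ∈ C → f = 0 := by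
      rintro f hf ⟨v, hv, rfl⟩
      have := Submodule.disjoint_def.mp hC₀.disjoint v hf hv
      simp [this]
    have : FiniteDimensional ℂ C := Submodule.finiteDimensional_of_le hCM
    have : Module.Free ℂ C := Module.Free.of_divisionRing ℂ C
    let bs := Module.finBasis ℂ C
    refine ⟨_, fun i => (bs i : ℍ → ℂ), fun i => hCM (bs i).2, fun f hf => ?_, fun c hc => ?_⟩
    · obtain ⟨w, hw, v, hv, hwv⟩ := Submodule.mem_sup.mp
        (hC₀.sup_eq_top ▸ Submodule.mem_top :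
          (⟨f, hf⟩ : MSpace Γ (n : ℤ)) ∈ _ ⊔ C₀)
      have hvC : (v : ℍ → ℂ) ∈ C := ⟨v, hv, rfl⟩
      refine ⟨fun i => bs.repr ⟨_, hvC⟩ i, ?_⟩
      have h1 := congrArg (C.subtype) (bs.sum_repr ⟨_, hvC⟩)
      simp only [map_sum, map_smul, Submodule.subtype_apply] at h1
      have h2 : (w : ℍ → ℂ) + (v : ℍ → ℂ) = f := congrArg Subtype.val hwv
      rw [h1, ← h2, add_sub_cancel_right]
      exact hw
    · have hmem : (∑ i, c i • bs i : C).1 = ∑ i, c i • (bs i : ℍ → ℂ) := by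
        rw [AddSubmonoidClass.coe_finsetSum]; rfl
      have h0 : (∑ i, c i • bs i : C) = 0 :=
        Subtype.ext (hdisj _ (hmem ▸ hc) (∑ i, c i • bs i : C).2)
      funext i
      exact Fintype.linearIndependent_iff.mp bs.linearIndependent c h0 i
  choose m g h1 h2 h3 using key
  exact ⟨⟨m, g, h1, h2, h3⟩⟩

namespace Gens

variable (B : Gens Γ)

/-- Index type of the generators. -/
abbrev Idx := Σ n : ℕ, Fin (B.num n)

/-- Weight of a generator. -/
abbrev wt (a : B.Idx) : ℤ := (a.1 : ℤ)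

/-- The generator. -/
abbrev g (a : B.Idx) : ℍ → ℂ := B.gen a.1 a.2

/-- Generators of weight at most `k`. -/
def upTo (k : ℤ) : Finset B.Idx := (Finset.range (k + 1).toNat).sigma fun _ => Finset.univ

variable {B}

omit [Γ.FiniteIndex] in
lemma mem_upTo {a : B.Idx} : a ∈ B.upTo k ↔ B.wt a ≤ k := by
  simp only [upTo, Finset.mem_sigma, Finset.mem_range, Finset.mem_univ, and_true, Gens.wt]
  omega

omit [Γ.FiniteIndex] in
lemma sum_upTo_eq {j : ℤ} (hjk : j ≤ k) (x : B.Idx → ℍ → ℂ)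
    (hx : ∀ a, x a ∈ LSpace (j - B.wt a)) :
    ∑ a ∈ B.upTo j, x a * B.g a = ∑ a ∈ B.upTo k, x a * B.g a := by
  refine Finset.sum_subset (fun a ha => mem_upTo.mpr ((mem_upTo.mp ha).trans hjk)) fun a _ ha => ?_
  rw [mem_upTo, not_le] at ha
  rw [LSpace.eq_zero_of_neg (by omega) (hx a), zero_mul]

omit [Γ.FiniteIndex] in
/-- A combination of the generators with modular coefficients is modular. -/
lemma sum_mem (x : B.Idx → ℍ → ℂ) (hx : ∀ a, x a ∈ LSpace (k - B.wt a)) (s : Finset B.Idx) :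
    ∑ a ∈ s, x a * B.g a ∈ MSpace Γ k :=
  Submodule.sum_mem _ fun a _ =>
    mul_mem_MSpace (k₁ := k - B.wt a) (by ring) (LSpace_le_MSpace (hx a)) (B.mem a.1 a.2)

/-- Top coefficients placed on the generators of weight `n`. -/
def top (n : ℕ) (c : Fin (B.num n) → ℂ) (a : B.Idx) : ℍ → ℂ :=
  if h : a.1 = n then c (Fin.cast (congrArg B.num h) a.2) • 1 else 0

omit [Γ.FiniteIndex] in
lemma top_mem (n : ℕ) (c : Fin (B.num n) → ℂ) (a : B.Idx) :
    top n c a ∈ LSpace ((n : ℤ) - B.wt a) := by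
  unfold top
  split_ifs with h
  · rw [show (n : ℤ) - B.wt a = 0 by simp [Gens.wt, h]]
    exact Submodule.smul_mem _ _ one_mem_LSpace
  · exact zero_mem _

omit [Γ.FiniteIndex] in
lemma sum_top (n : ℕ) (c : Fin (B.num n) → ℂ) :
    ∑ a ∈ B.upTo n, top n c a * B.g a = ∑ i, c i • B.gen n i := by
  rw [upTo, Finset.sum_sigma, Finset.sum_eq_single n]
  · refine Finset.sum_congr rfl fun i _ => ?_
    simp [top, Gens.g]
  · intro b _ hb
    simp [top, hb]
  · intro h
    simp at h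

theorem exists_coeffs {f : ℍ → ℂ} (hf : f ∈ MSpace Γ k) :
    ∃ x : B.Idx → ℍ → ℂ, (∀ a, x a ∈ LSpace (k - B.wt a)) ∧
      f = ∑ a ∈ B.upTo k, x a * B.g a := by
  suffices H : ∀ (N : ℕ) {k : ℤ} {f : ℍ → ℂ}, k < (N : ℤ) → f ∈ MSpace Γ k →
      ∃ x : B.Idx → ℍ → ℂ, (∀ a, x a ∈ LSpace (k - B.wt a)) ∧
        f = ∑ a ∈ B.upTo k, x a * B.g a from
    H (k.toNat + 1) (by omega) hf
  intro N
  induction N with
  | zero =>
    intro k f hk hf
    exact ⟨0, fun a => zero_mem _, by simp [MSpace.eq_zero_of_neg (by omega) hf]⟩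
  | succ N ih =>
    intro k f hk hf
    rcases lt_or_eq_of_le (show k ≤ N by omega) with h | rfl
    · exact ih h hf
    obtain ⟨c, hc⟩ := B.span N f hf
    obtain ⟨y, hy, z, hz, hyz⟩ := mem_decomp.mp hc
    obtain ⟨xy, hxy, hye⟩ := ih (by omega) hy
    obtain ⟨xz, hxz, hze⟩ := ih (by omega) hz
    refine ⟨fun a => top N c a + (e4 * xy a + e6 * xz a), fun a => ?_, ?_⟩
    · exact add_mem (top_mem N c a) (add_mem
        (mul_mem_MSpace (by ring) e4_mem (hxy a)) (mul_mem_MSpace (by ring) e6_mem (hxz a)))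
    · rw [sum_upTo_eq (k := (N : ℤ)) (by omega) xy hxy] at hye
      rw [sum_upTo_eq (k := (N : ℤ)) (by omega) xz hxz] at hze
      simp only [add_mul, Finset.sum_add_distrib, sum_top, mul_assoc, ← Finset.mul_sum, ← hye,
        ← hze, ← hyz, add_sub_cancel]

theorem coeffs_eq_zero {x : B.Idx → ℍ → ℂ} (hx : ∀ a, x a ∈ LSpace (k - B.wt a))
    (h : ∑ a ∈ B.upTo k, x a * B.g a = 0) (a : B.Idx) : x a = 0 := by
  revert x a
  suffices H : ∀ (N : ℕ) {k : ℤ} {x : B.Idx → ℍ → ℂ}, k < (N : ℤ) →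
      (∀ a, x a ∈ LSpace (k - B.wt a)) → ∑ a ∈ B.upTo k, x a * B.g a = 0 → ∀ a, x a = 0 from
    fun {x} hx h a => H (k.toNat + 1) (by omega) hx h a
  intro N
  induction N with
  | zero =>
    intro k x hk hx _ a
    exact LSpace.eq_zero_of_neg (by simp only [Gens.wt]; omega) (hx a)
  | succ N ih =>
    intro k x hk hx h
    rcases lt_or_eq_of_le (show k ≤ N by omega) with h' | rfl
    · exact ih h' hx h
    have hdec : ∀ a : B.Idx, ∃ (c : ℂ) (y z : ℍ → ℂ), (a.1 ≠ N → c = 0) ∧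
        y ∈ LSpace ((N : ℤ) - 4 - B.wt a) ∧ z ∈ LSpace ((N : ℤ) - 6 - B.wt a) ∧
        x a = c • 1 + (e4 * y + e6 * z) := by
      intro a
      rcases lt_trichotomy a.1 N with ha | ha | ha
      · obtain ⟨y, hy, z, hz, he⟩ :=
          exists_decomp (show 0 < (N : ℤ) - B.wt a by simp only [Gens.wt]; omega) (hx a)
        refine ⟨0, y, z, fun _ => rfl, ?_, ?_, by rw [zero_smul, zero_add, he]⟩
        · rwa [sub_right_comm]
        · rwa [sub_right_comm]
      · have hx' := hx a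
        rw [show (N : ℤ) - B.wt a = 0 by simp [Gens.wt, ha]] at hx'
        obtain ⟨c, hc⟩ := LSpace.eq_const hx'
        exact ⟨c, 0, 0, fun h => absurd ha h, zero_mem _, zero_mem _, by simp [hc]⟩
      · exact ⟨0, 0, 0, fun _ => rfl, zero_mem _, zero_mem _,
          by simp [LSpace.eq_zero_of_neg (by simp only [Gens.wt]; omega) (hx a)]⟩
    choose c y z hc hy hz hxe using hdec
    set c' : Fin (B.num N) → ℂ := fun i => c ⟨N, i⟩
    have htop : ∀ a : B.Idx, c a • (1 : ℍ → ℂ) = top N c' a := by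
      rintro ⟨n, i⟩
      by_cases hn : n = N
      · subst hn; simp [top, c']
      · simp [top, hn, hc ⟨n, i⟩ hn]
    set Y := ∑ a ∈ B.upTo N, y a * B.g a
    set Z := ∑ a ∈ B.upTo N, z a * B.g a
    have hY : Y ∈ MSpace Γ ((N : ℤ) - 4) := sum_mem y hy _
    have hZ : Z ∈ MSpace Γ ((N : ℤ) - 6) := sum_mem z hz _
    simp only [hxe, htop, add_mul, Finset.sum_add_distrib, sum_top, mul_assoc,
      ← Finset.mul_sum] at h
    have hc0 : c' = 0 := B.indep N c' (by
      rw [eq_neg_of_add_eq_zero_left h]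
      exact neg_mem (mem_decomp.mpr ⟨Y, hY, Z, hZ, rfl⟩))
    simp only [hc0, Pi.zero_apply, zero_smul, Finset.sum_const_zero, zero_add] at h
    have hzero : ∀ τ : ℍ, e6 τ = 0 → Y τ = 0 := by
      intro τ hτ
      have h4 : e4 τ ≠ 0 := fun h4 => by
        have := e4_cube_sub_e6_sq τ
        rw [h4, hτ] at this
        exact dF_ne_zero τ (by linear_combination -this / 1728)
      have := congrFun h τ
      change e4 τ * Y τ + e6 τ * Z τ = 0 at this
      rw [hτ, zero_mul, add_zero] at this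
      exact (mul_eq_zero.mp this).resolve_left h4
    obtain ⟨W, hW, hYW⟩ := exists_div_mem isGood_e6 hY hzero
    obtain ⟨w, hw, hwe⟩ := B.exists_coeffs hW
    rw [sum_upTo_eq (k := (N : ℤ)) (by omega) w hw] at hwe
    have hy0 := ih (k := (N : ℤ) - 4) (x := fun a => y a - e6 * w a) (by omega)
      (fun a => sub_mem (hy a) (mul_mem_MSpace (by ring) e6_mem (hw a))) (by
        rw [sum_upTo_eq (k := (N : ℤ)) (by omega) _ fun a =>
          sub_mem (hy a) (mul_mem_MSpace (by ring) e6_mem (hw a))]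
        simp only [sub_mul, Finset.sum_sub_distrib, mul_assoc, ← Finset.mul_sum, ← hwe]
        exact sub_eq_zero.mpr hYW)
    have hZW : Z + e4 * W = 0 := by
      refine MFIntegral.mdiff_mul_cancel e6_mem.1 isGood_e6.ne_zero (hZ.1.add (e4_mem.1.mul hW.1))
        mdifferentiable_const ?_
      change e4 * Y + e6 * Z = 0 at h
      rw [hYW] at h
      rw [mul_zero, ← h]
      ring
    have hz0 := ih (k := (N : ℤ) - 6) (x := fun a => z a + e4 * w a) (by omega)
      (fun a => add_mem (hz a) (mul_mem_MSpace (by ring) e4_mem (hw a))) (by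
        rw [sum_upTo_eq (k := (N : ℤ)) (by omega) _ fun a =>
          add_mem (hz a) (mul_mem_MSpace (by ring) e4_mem (hw a))]
        simp only [add_mul, Finset.sum_add_distrib, mul_assoc, ← Finset.mul_sum, ← hwe]
        exact hZW)
    intro a
    have h1 := hy0 a
    have h2 := hz0 a
    rw [hxe a, htop, hc0, sub_eq_zero.mp h1, eq_neg_of_add_eq_zero_left h2]
    simp [top]
    ring

end Gens

end FLTAgent.MFDim

end
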