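import Fermat.Agent.MFDim.Cusp

/-!
# Level one: simple zeros of `E₄`, `E₆` and `E₄³ - cΔ`, factorisation, dimensions

`IsGood` forms (one at infinity, simple zeros), induction over their products
(`levelOne_induction`) and the decomposition `exists_decomp` along `E₄` and `E₆`.
-/

set_option autoImplicit false

noncomputable section

open UpperHalfPlane Filter Function
open Derivative (normalizedDerivOfComplex serreDerivative serreDerivative_apply
  serreDerivative_mdifferentiable serreDerivative_slash_invariant normalizedDerivOfComplex_add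
  normalizedDerivOfComplex_smul normalizedDerivOfComplex_pow)
open scoped MatrixGroups ModularForm Manifold Topology

namespace FLTAgent.MFDim

variable {k : ℤ}

/-- A level one form as a bundled `ModularForm`. -/
def toModularForm {f : ℍ → ℂ} (hf : f ∈ LSpace k) : ModularForm 𝒮ℒ k where
  toFun := f
  slash_action_eq' := fun g hg => by
    obtain ⟨γ, rfl⟩ := hg
    exact LSpace.slash_eq hf γ
  holo' := hf.1
  bdd_at_cusps' := fun {c} hc => by
    rw [OnePoint.isBoundedAt_iff_forall_SL2Z hc]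
    exact fun γ _ => hf.2.2 γ

@[simp] lemma coe_toModularForm {f : ℍ → ℂ} (hf : f ∈ LSpace k) : ⇑(toModularForm hf) = f := rfl

lemma coe_mem_LSpace (f : ModularForm 𝒮ℒ k) : (⇑f : ℍ → ℂ) ∈ LSpace k :=
  mem_LSpace.mpr ⟨f.holo', fun γ => f.slash_action_eq' _ ⟨γ, rfl⟩,
    ModularFormClass.bdd_at_infty f⟩

/-- Level one forms as functions versus bundled. -/
def lEquiv (k : ℤ) : LSpace k ≃ₗ[ℂ] ModularForm 𝒮ℒ k where
  toFun f := toModularForm f.2
  map_add' f g := by ext; rfl
  map_smul' c f := by ext; rfl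
  invFun f := ⟨f, coe_mem_LSpace f⟩
  left_inv f := rfl
  right_inv f := by ext; rfl

instance (k : ℤ) : FiniteDimensional ℂ (LSpace k) :=
  LinearEquiv.finiteDimensional (lEquiv k).symm

lemma LSpace.eq_zero_of_neg {f : ℍ → ℂ} (hk : k < 0) (hf : f ∈ LSpace k) : f = 0 :=
  ModularFormClass.levelOne_neg_weight_eq_zero hk (toModularForm hf)

lemma LSpace.eq_zero_of_odd {f : ℍ → ℂ} (hk : Odd k) (hf : f ∈ LSpace k) : f = 0 := by
  have := ModularForm.levelOne_odd_weight_eq_zero hk (toModularForm hf)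
  funext z
  exact DFunLike.congr_fun this z

lemma LSpace.eq_zero_of_two {f : ℍ → ℂ} (hf : f ∈ LSpace 2) : f = 0 := by
  have := rank_zero_iff_forall_zero.mp ModularForm.levelOne_weight_two_rank_zero (toModularForm hf)
  funext z
  exact DFunLike.congr_fun this z

lemma LSpace.eq_const {f : ℍ → ℂ} (hf : f ∈ LSpace 0) : ∃ c : ℂ, f = c • 1 := by
  obtain ⟨c, hc⟩ := ModularFormClass.levelOne_weight_zero_const (toModularForm hf)
  exact ⟨c, by funext z; simpa using congrFun hc z⟩

lemma one_mem_LSpace : (1 : ℍ → ℂ) ∈ LSpace 0 := one_mem_MSpace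

lemma finrank_LSpace (n : ℕ) (hn : Even n) :
    Module.finrank ℂ (LSpace (n : ℤ)) = if n % 12 = 2 then n / 12 else n / 12 + 1 := by
  rw [(lEquiv _).finrank_eq]
  apply Module.finrank_eq_of_rank_eq
  rw [ModularForm.dimension_level_one n hn]
  simp only [Nat.ModEq]
  norm_num

lemma finrank_LSpace_neg (hk : k < 0) : Module.finrank ℂ (LSpace k) = 0 := by
  rw [(lEquiv _).finrank_eq]
  exact Module.finrank_eq_of_rank_eq (ModularForm.levelOne_neg_weight_rank_zero hk)

/-- `E₄` as a function. -/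
abbrev e4 : ℍ → ℂ := ⇑ModularForm.E₄
/-- `E₆` as a function. -/
abbrev e6 : ℍ → ℂ := ⇑ModularForm.E₆

lemma e4_mem : e4 ∈ LSpace 4 := coe_mem_LSpace _
lemma e6_mem : e6 ∈ LSpace 6 := coe_mem_LSpace _
lemma dF_mem : dF ∈ LSpace 12 :=
  mem_LSpace.mpr ⟨CuspForm.discriminant.holo', fun γ =>
      CuspForm.discriminant.slash_action_eq' _ ⟨γ, rfl⟩,
    (CuspFormClass.zero_at_infty CuspForm.discriminant).isBoundedAtImInfty⟩

lemma tendsto_dF : Tendsto dF atImInfty (𝓝 0) := CuspFormClass.zero_at_infty CuspForm.discriminant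

lemma e4_cube_sub_e6_sq (z : ℍ) : e4 z ^ 3 - e6 z ^ 2 = 1728 * dF z := by
  have := ModularForm.discriminant_eq_E₄_cube_sub_E₆_sq z
  rw [show dF z = ModularForm.discriminant z from rfl, this]
  ring

lemma periodic_of_mem_LSpace {f : ℍ → ℂ} (hf : f ∈ LSpace k) :
    Periodic (f ∘ UpperHalfPlane.ofComplex) ((1 : ℝ) : ℂ) :=
  SlashInvariantFormClass.periodic_comp_ofComplex (toModularForm hf) one_mem_strictPeriods_SL

lemma analyticAt_cusp {f : ℍ → ℂ} (hf : f ∈ LSpace k) : AnalyticAt ℂ (cuspFunction 1 f) 0 :=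
  analyticAt_cuspFunction_zero one_pos (periodic_of_mem_LSpace hf) hf.1 (LSpace.bdd hf)

lemma tendsto_LSpace {f : ℍ → ℂ} (hf : f ∈ LSpace k) :
    Tendsto f atImInfty (𝓝 ((qExpansion 1 f).coeff 0)) := by
  rw [qExpansion_coeff]
  simp only [Nat.factorial_zero, Nat.cast_one, inv_one, one_mul, iteratedDeriv_zero]
  refine ((analyticAt_cusp hf).continuousAt.tendsto.comp (qParam_tendsto_atImInfty one_pos)).congr
    fun τ => eq_cuspFunction τ one_ne_zero (periodic_of_mem_LSpace hf)

/-- The normalised derivative in terms of the cusp function. -/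
lemma normalizedDeriv_eq {f : ℍ → ℂ} (hf : f ∈ LSpace k) (τ : ℍ) :
    normalizedDerivOfComplex f τ = deriv (cuspFunction 1 f) (u 1 τ) * u 1 τ := by
  have hq : ‖Periodic.qParam 1 (τ : ℂ)‖ < 1 := Periodic.norm_qParam_lt_one one_pos τ.im_pos
  have hF := (differentiableAt_cuspFunction one_pos (periodic_of_mem_LSpace hf) hf.1
    (LSpace.bdd hf) hq).hasDerivAt
  have hQ : HasDerivAt (Periodic.qParam 1)
      (Periodic.qParam 1 (τ : ℂ) * (2 * Real.pi * Complex.I)) (τ : ℂ) := by
    have := ((hasDerivAt_id (τ : ℂ)).const_mul (2 * Real.pi * Complex.I)).cexp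
    rw [show (Periodic.qParam 1 : ℂ → ℂ) = fun x => Complex.exp (2 * Real.pi * Complex.I * x) from
      funext fun x => by simp [Periodic.qParam]]
    simpa using! this
  have hev : (f ∘ UpperHalfPlane.ofComplex) =ᶠ[𝓝 (τ : ℂ)]
      (cuspFunction 1 f ∘ Periodic.qParam 1) := by
    filter_upwards [isOpen_upperHalfPlaneSet.mem_nhds τ.im_pos] with w hw
    rw [comp_apply, comp_apply, ofComplex_apply_of_im_pos hw,
      ← eq_cuspFunction ⟨w, hw⟩ one_ne_zero (periodic_of_mem_LSpace hf)]
  rw [normalizedDerivOfComplex, ((hF.comp (τ : ℂ) hQ).congr_of_eventuallyEq hev).deriv, u,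
    Nat.cast_one]
  field_simp [Complex.two_pi_I_ne_zero]

lemma tendsto_normalizedDeriv_div {f : ℍ → ℂ} (hf : f ∈ LSpace k) :
    Tendsto (fun τ => normalizedDerivOfComplex f τ / u 1 τ) atImInfty
      (𝓝 ((qExpansion 1 f).coeff 1)) := by
  have h1 : (qExpansion 1 f).coeff 1 = deriv (cuspFunction 1 f) 0 := by
    rw [qExpansion_coeff]; simp [iteratedDeriv_one]
  rw [h1]
  refine ((analyticAt_cusp hf).deriv.continuousAt.tendsto.comp
    (tendsto_u one_ne_zero)).congr fun τ => ?_
  rw [normalizedDeriv_eq hf, comp_apply, mul_div_cancel_right₀ _ (u_ne_zero 1 τ)]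

lemma tendsto_e4 : Tendsto e4 atImInfty (𝓝 1) := by
  have := tendsto_LSpace e4_mem
  rwa [EisensteinSeries.E_qExpansion_coeff_zero _ ⟨2, rfl⟩] at this

lemma tendsto_e6 : Tendsto e6 atImInfty (𝓝 1) := by
  have := tendsto_LSpace e6_mem
  rwa [EisensteinSeries.E_qExpansion_coeff_zero _ ⟨3, rfl⟩] at this

/-- A cusp form of level one is divisible by `Δ`. -/
lemma exists_eq_dF_mul {f : ℍ → ℂ} (hf : f ∈ LSpace k) (h0 : Tendsto f atImInfty (𝓝 0)) :
    ∃ g ∈ LSpace (k - 12), f = dF * g := by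
  have hc : (qExpansion 1 (toModularForm hf)).coeff 0 = 0 :=
    tendsto_nhds_unique (tendsto_LSpace hf) h0
  let g := CuspForm.discriminantEquiv (ModularForm.toCuspForm (toModularForm hf) hc)
  exact ⟨g, coe_mem_LSpace g,
    (ModularForm.discriminant_mul_discriminantEquiv
    (ModularForm.toCuspForm (toModularForm hf) hc)).symm⟩

/-- The Rankin–Cohen bracket of `E₄` and `E₆`. -/
def bracket (z : ℍ) : ℂ :=
  4 * e4 z * normalizedDerivOfComplex e6 z - 6 * e6 z * normalizedDerivOfComplex e4 z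

lemma bracket_eq : bracket = fun z => -3456 * dF z := by
  have hb : bracket = (4 : ℂ) • (e4 * serreDerivative (((6 : ℤ) : ℂ)) e6) -
      (6 : ℂ) • (e6 * serreDerivative (((4 : ℤ) : ℂ)) e4) := by
    funext z
    simp only [bracket, Pi.sub_apply, Pi.smul_apply, Pi.mul_apply, smul_eq_mul,
      serreDerivative_apply, Int.cast_ofNat]
    ring
  have hlim : Tendsto (fun z => bracket z / u 1 z) atImInfty (𝓝 (-3456)) := by
    have h4 := tendsto_normalizedDeriv_div e4_mem
    have h6 := tendsto_normalizedDeriv_div e6_mem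
    rw [ModularForm.E₄_qExpansion_coeff_one] at h4
    rw [ModularForm.E₆_qExpansion_coeff_one] at h6
    have := (((tendsto_const_nhds (x := (4 : ℂ))).mul tendsto_e4).mul h6).sub
      (((tendsto_const_nhds (x := (6 : ℂ))).mul tendsto_e6).mul h4)
    norm_num at this
    refine this.congr fun z => ?_
    simp only [bracket]
    field_simp
  have hzero : Tendsto bracket atImInfty (𝓝 0) := by
    have := hlim.mul (tendsto_u one_ne_zero)
    rw [mul_zero] at this
    exact this.congr fun z => by rw [div_mul_cancel₀ _ (u_ne_zero 1 z)]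
  have hmem : bracket ∈ LSpace 12 := by
    refine mem_LSpace.mpr ⟨?_, fun γ => ?_, IsZeroAtImInfty.isBoundedAtImInfty hzero⟩
    · rw [hb]
      exact ((e4_mem.1.mul (serreDerivative_mdifferentiable _ e6_mem.1)).const_smul _).sub
        ((e6_mem.1.mul (serreDerivative_mdifferentiable _ e4_mem.1)).const_smul _)
    · rw [hb, sub_eq_add_neg, SlashAction.add_slash, SlashAction.neg_slash,
        ModularForm.SL_smul_slash, ModularForm.SL_smul_slash,
        mul_slash_eq (k₁ := 4) (k₂ := 6 + 2) (by norm_num),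
        mul_slash_eq (k₁ := 6) (k₂ := 4 + 2) (by norm_num),
        LSpace.slash_eq e4_mem, LSpace.slash_eq e6_mem,
        serreDerivative_slash_invariant e6_mem.1 (LSpace.slash_eq e6_mem γ),
        serreDerivative_slash_invariant e4_mem.1 (LSpace.slash_eq e4_mem γ)]
  obtain ⟨g, hg, hge⟩ := exists_eq_dF_mul hmem hzero
  norm_num at hg
  obtain ⟨c, rfl⟩ := LSpace.eq_const hg
  have hc : c = -3456 := by
    have h2 : Tendsto (fun z => bracket z / u 1 z) atImInfty (𝓝 c) := by
      have := tendsto_dUnit.mul_const c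
      rw [one_mul] at this
      refine this.congr fun z => ?_
      rw [hge, dUnit]
      simp only [Pi.mul_apply, Pi.smul_apply, Pi.one_apply, smul_eq_mul, mul_one]
      ring
    exact tendsto_nhds_unique h2 hlim
  subst hc
  funext z
  rw [hge]
  simp [mul_comm]

lemma bracket_ne_zero (z : ℍ) : bracket z ≠ 0 := by
  rw [bracket_eq]
  exact mul_ne_zero (by norm_num) (dF_ne_zero z)

/-- A level one form which is `1` at infinity and has only simple zeros. -/
structure IsGood (p : ℤ) (P : ℍ → ℂ) : Prop where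
  mem : P ∈ LSpace p
  tendsto : Tendsto P atImInfty (𝓝 1)
  simple : ∀ z : ℍ, P z = 0 → deriv (P ∘ UpperHalfPlane.ofComplex) z ≠ 0

/-- A good function is nonzero. -/
lemma IsGood.ne_zero {p : ℤ} {P : ℍ → ℂ} (h : IsGood p P) : P ≠ 0 := by
  rintro rfl
  exact one_ne_zero (tendsto_nhds_unique h.tendsto tendsto_const_nhds)

lemma deriv_ne_zero_of_normalized {f : ℍ → ℂ} {z : ℍ} (h : normalizedDerivOfComplex f z ≠ 0) :
    deriv (f ∘ UpperHalfPlane.ofComplex) z ≠ 0 := by
  intro hd
  exact h (by rw [normalizedDerivOfComplex, hd, mul_zero])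

lemma isGood_e4 : IsGood 4 e4 := by
  refine ⟨e4_mem, tendsto_e4, fun z hz => deriv_ne_zero_of_normalized fun hd =>
    bracket_ne_zero z ?_⟩
  simp [bracket, hz, hd]

lemma isGood_e6 : IsGood 6 e6 := by
  refine ⟨e6_mem, tendsto_e6, fun z hz => deriv_ne_zero_of_normalized fun hd =>
    bracket_ne_zero z ?_⟩
  simp [bracket, hz, hd]

/-- `E₄³ - c Δ`. -/
def pC (c : ℂ) : ℍ → ℂ := e4 ^ 3 - c • dF

lemma isGood_pC {c : ℂ} (h0 : c ≠ 0) (h1728 : c ≠ 1728) : IsGood 12 (pC c) := by
  refine ⟨sub_mem (pow_mem_MSpace e4_mem 3 (by norm_num)) (Submodule.smul_mem _ c dF_mem), ?_, ?_⟩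
  · have := (tendsto_e4.pow 3).sub (tendsto_dF.const_mul c)
    simp only [one_pow, mul_zero, sub_zero] at this
    exact this.congr fun z => by simp [pC]
  intro z hz
  apply deriv_ne_zero_of_normalized
  simp only [pC, Pi.sub_apply, Pi.pow_apply, Pi.smul_apply, smul_eq_mul] at hz
  have h4 : e4 z ≠ 0 := by
    intro h
    rw [h] at hz
    have : c * dF z = 0 := by linear_combination -hz
    exact mul_ne_zero h0 (dF_ne_zero z) this
  have hfun : pC c = (1 - c / 1728) • e4 ^ 3 + (c / 1728) • e6 ^ 2 := by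
    funext w
    simp only [pC, Pi.sub_apply, Pi.pow_apply, Pi.smul_apply, smul_eq_mul, Pi.add_apply]
    linear_combination (c / 1728) * e4_cube_sub_e6_sq w
  have hd : normalizedDerivOfComplex (pC c) z =
      (1 - c / 1728) * (3 * e4 z ^ 2 * normalizedDerivOfComplex e4 z) +
        (c / 1728) * (2 * e6 z * normalizedDerivOfComplex e6 z) := by
    rw [hfun, normalizedDerivOfComplex_add _ _ ((e4_mem.1.pow 3).const_smul _)
      ((e6_mem.1.pow 2).const_smul _), normalizedDerivOfComplex_smul _ _ (e4_mem.1.pow 3),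
      normalizedDerivOfComplex_smul _ _ (e6_mem.1.pow 2), normalizedDerivOfComplex_pow _ _ e4_mem.1,
      normalizedDerivOfComplex_pow _ _ e6_mem.1]
    simp
  have hkey : normalizedDerivOfComplex (pC c) z * e4 z = (c / 1728) * e6 z / 2 * bracket z := by
    rw [hd, bracket]
    linear_combination 3 * normalizedDerivOfComplex e4 z * hz -
      3 * normalizedDerivOfComplex e4 z * (c / 1728) * e4_cube_sub_e6_sq z
  intro hcon
  rw [hcon, zero_mul] at hkey
  rcases mul_eq_zero.mp hkey.symm with h | h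
  · have h6 : e6 z = 0 := by
      simpa [h0] using h
    have hΔ := e4_cube_sub_e6_sq z
    rw [h6] at hΔ
    have : (1728 - c) * dF z = 0 := by linear_combination hz - hΔ
    exact mul_ne_zero (sub_ne_zero.mpr h1728.symm) (dF_ne_zero z) this
  · exact bracket_ne_zero z h

lemma exists_poly : ∀ (l : ℕ) {D : ℍ → ℂ}, D ∈ LSpace (12 * (l : ℤ)) →
    ∃ Φ : Polynomial ℂ, Φ.natDegree ≤ l ∧
      ∀ z, D z = dF z ^ l * Φ.eval (e4 z ^ 3 / dF z)
  | 0, D, hD => by
    norm_num at hD
    obtain ⟨c, rfl⟩ := LSpace.eq_const hD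
    exact ⟨Polynomial.C c, by simp, fun z => by simp⟩
  | l + 1, D, hD => by
    set c := (qExpansion 1 D).coeff 0
    have hE : e4 ^ (3 * (l + 1)) ∈ LSpace (12 * ((l + 1 : ℕ) : ℤ)) :=
      pow_mem_MSpace e4_mem _ (by push_cast; ring)
    have h0 : Tendsto (D - c • e4 ^ (3 * (l + 1))) atImInfty (𝓝 0) := by
      have := (tendsto_LSpace hD).sub ((tendsto_e4.pow (3 * (l + 1))).const_mul c)
      simp only [one_pow, mul_one, sub_self, c] at this
      exact this.congr fun z => by simp [c]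
    obtain ⟨g, hg, hge⟩ := exists_eq_dF_mul (sub_mem hD (Submodule.smul_mem _ c hE)) h0
    rw [show (12 * ((l + 1 : ℕ) : ℤ)) - 12 = 12 * (l : ℤ) by push_cast; ring] at hg
    obtain ⟨Φ, hdeg, hΦ⟩ := exists_poly l hg
    refine ⟨Polynomial.C c * Polynomial.X ^ (l + 1) + Φ,
      (Polynomial.natDegree_add_le _ _).trans (max_le (Polynomial.natDegree_C_mul_X_pow_le c _)
        (by omega)), fun z => ?_⟩
    have hz := congrFun hge z
    simp only [Pi.sub_apply, Pi.smul_apply, Pi.pow_apply, Pi.mul_apply, smul_eq_mul] at hz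
    rw [hΦ z] at hz
    simp only [Polynomial.eval_add, Polynomial.eval_mul, Polynomial.eval_C, Polynomial.eval_pow,
      Polynomial.eval_X]
    have hΔ := dF_ne_zero z
    rw [mul_add, ← mul_assoc, mul_comm _ c, mul_assoc, ← mul_pow, mul_div_cancel₀ _ hΔ, ← pow_mul,
      pow_succ', mul_assoc]
    linear_combination hz

/-- Induction over the factorisation of a nonzero level one form of weight `12 l`. -/
theorem levelOne_induction {C : ℤ → (ℍ → ℂ) → Prop}
    (base : ∀ (c : ℂ) (m : ℕ), c ≠ 0 → C (12 * (m : ℤ)) (c • dF ^ m))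
    (step : ∀ (p w : ℤ) (P D : ℍ → ℂ), IsGood p P → D ∈ LSpace w → C w D → C (p + w) (P * D))
    {l : ℕ} {D : ℍ → ℂ} (hD : D ∈ LSpace (12 * (l : ℤ))) (hD0 : D ≠ 0) :
    C (12 * (l : ℤ)) D := by
  obtain ⟨Φ, hdeg, hΦ⟩ := exists_poly l hD
  have hΦ0 : Φ ≠ 0 := by
    rintro rfl
    exact hD0 (funext fun z => by simp [hΦ z])
  have hlc : Φ.leadingCoeff ≠ 0 := Polynomial.leadingCoeff_ne_zero.mpr hΦ0
  have hsplit := IsAlgClosed.splits Φ
  have hcard : Φ.roots.card = Φ.natDegree := (hsplit.natDegree_eq_card_roots).symm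
  obtain ⟨m, hm⟩ : ∃ m, l = m + Φ.roots.card := ⟨l - Φ.roots.card, by omega⟩
  set F : Multiset ℂ → ℍ → ℂ := fun R =>
    (Φ.leadingCoeff • dF ^ m) * fun z => (R.map fun r => e4 z ^ 3 - r * dF z).prod
  have hpad : ∀ R : Multiset ℂ,
      F R ∈ LSpace (12 * (m : ℤ) + 12 * (R.card : ℤ)) ∧
      C (12 * (m : ℤ) + 12 * (R.card : ℤ)) (F R) := by
    intro R
    induction R using Multiset.induction_on with
    | empty =>
      have : F 0 = Φ.leadingCoeff • dF ^ m := by funext z; simp [F]
      rw [this]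
      simp only [Multiset.card_zero, Nat.cast_zero, mul_zero, add_zero]
      exact ⟨Submodule.smul_mem _ _ (pow_mem_MSpace dF_mem m (by ring)), base _ m hlc⟩
    | cons r R ih =>
      obtain ⟨hmem, hC⟩ := ih
      set w := 12 * (m : ℤ) + 12 * (R.card : ℤ)
      have hw : 12 * (m : ℤ) + 12 * ((r ::ₘ R).card : ℤ) = 12 + w := by
        simp only [Multiset.card_cons, w]; push_cast; ring
      rw [hw]
      by_cases h0 : r = 0
      · have : F (r ::ₘ R) = e4 * (e4 * (e4 * F R)) := by funext z; simp [F, h0]; ring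
        rw [this]
        have m1 := mul_mem_MSpace (k := 4 + w) rfl e4_mem hmem
        have m2 := mul_mem_MSpace (k := 4 + (4 + w)) rfl e4_mem m1
        refine ⟨mul_mem_MSpace (by ring) e4_mem m2, ?_⟩
        have := step 4 (4 + (4 + w)) _ _ isGood_e4 m2
          (step 4 (4 + w) _ _ isGood_e4 m1 (step 4 w _ _ isGood_e4 hmem hC))
        rwa [show (4 : ℤ) + (4 + (4 + w)) = 12 + w by ring] at this
      by_cases h1 : r = 1728
      · have : F (r ::ₘ R) = e6 * (e6 * F R) := by
          funext z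
          simp [F, h1]
          linear_combination (Φ.leadingCoeff * dF z ^ m *
            (R.map fun r => e4 z ^ 3 - r * dF z).prod) * e4_cube_sub_e6_sq z
        rw [this]
        have m1 := mul_mem_MSpace (k := 6 + w) rfl e6_mem hmem
        refine ⟨mul_mem_MSpace (by ring) e6_mem m1, ?_⟩
        have := step 6 (6 + w) _ _ isGood_e6 m1 (step 6 w _ _ isGood_e6 hmem hC)
        rwa [show (6 : ℤ) + (6 + w) = 12 + w by ring] at this
      · have : F (r ::ₘ R) = pC r * F R := by funext z; simp [F, pC]; ring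
        rw [this]
        exact ⟨mul_mem_MSpace rfl (isGood_pC h0 h1).mem hmem,
          step 12 w _ _ (isGood_pC h0 h1) hmem hC⟩
  have hDF : D = F Φ.roots := by
    funext z
    rw [hΦ z]
    conv_lhs => rw [hsplit.eq_prod_roots]
    have hprod : ∀ R : Multiset ℂ, dF z ^ R.card * (R.map fun r => e4 z ^ 3 / dF z - r).prod =
        (R.map fun r => e4 z ^ 3 - r * dF z).prod := by
      intro R
      induction R using Multiset.induction_on with
      | empty => simp
      | cons r R ih =>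
        simp only [Multiset.card_cons, Multiset.map_cons, Multiset.prod_cons]
        rw [← ih]
        field_simp [dF_ne_zero z]
        ring
    simp only [Polynomial.eval_mul, Polynomial.eval_C, Polynomial.eval_multiset_prod,
      Multiset.map_map, Function.comp_def, Polynomial.eval_sub, Polynomial.eval_X, F, Pi.mul_apply,
      Pi.smul_apply, Pi.pow_apply, smul_eq_mul]
    rw [hm, pow_add, ← hprod]
    ring
  have := (hpad Φ.roots).2
  rw [← hDF] at this
  rwa [show 12 * (m : ℤ) + 12 * (Φ.roots.card : ℤ) = 12 * (l : ℤ) by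
    rw [hm]; push_cast; ring] at this

/-- Decomposition of a level one form of positive weight along `E₄` and `E₆`. -/
lemma exists_decomp {j : ℤ} (hj : 0 < j) {x : ℍ → ℂ} (hx : x ∈ LSpace j) :
    ∃ y ∈ LSpace (j - 4), ∃ z ∈ LSpace (j - 6), x = e4 * y + e6 * z := by
  have zero_case : x = 0 → ∃ y ∈ LSpace (j - 4), ∃ z ∈ LSpace (j - 6), x = e4 * y + e6 * z :=
    fun h => ⟨0, zero_mem _, 0, zero_mem _, by simp [h]⟩
  rcases Int.even_or_odd j with ⟨i, rfl⟩ | hodd
  swap; · exact zero_case (LSpace.eq_zero_of_odd hodd hx)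
  rcases eq_or_lt_of_le (show 1 ≤ i by omega) with h | hi
  · subst h; exact zero_case (LSpace.eq_zero_of_two hx)
  obtain ⟨a, b, hab⟩ : ∃ a b : ℕ, (i : ℤ) = 2 * a + 3 * b := by
    rcases Int.even_or_odd i with ⟨t, ht⟩ | ⟨t, ht⟩
    · exact ⟨t.toNat, 0, by omega⟩
    · exact ⟨(t - 1).toNat, 1, by omega⟩
  set c := (qExpansion 1 x).coeff 0
  set mon : ℍ → ℂ := e4 ^ a * e6 ^ b
  have hmon : mon ∈ LSpace (i + i) :=
    mul_mem_MSpace (k₁ := (a : ℤ) * 4) (k₂ := (b : ℤ) * 6) (by omega) (pow_mem_MSpace e4_mem a rfl)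
      (pow_mem_MSpace e6_mem b rfl)
  have h0 : Tendsto (x - c • mon) atImInfty (𝓝 0) := by
    have := (tendsto_LSpace hx).sub (((tendsto_e4.pow a).mul (tendsto_e6.pow b)).const_mul c)
    simp only [one_pow, mul_one, sub_self, c] at this
    exact this.congr fun z => by simp [c, mon]
  obtain ⟨g, hg, hge⟩ := exists_eq_dF_mul (sub_mem hx (Submodule.smul_mem _ c hmon)) h0
  have hy1 : ((1 / 1728 : ℂ) • (e4 ^ 2 * g)) ∈ LSpace (i + i - 4) :=
    Submodule.smul_mem _ _ (mul_mem_MSpace (k₁ := 8) (by omega)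
        (pow_mem_MSpace e4_mem 2 (by norm_num)) hg)
  have hz1 : ((-1 / 1728 : ℂ) • (e6 * g)) ∈ LSpace (i + i - 6) :=
    Submodule.smul_mem _ _ (mul_mem_MSpace (k₁ := 6) (by omega) e6_mem hg)
  rcases Nat.eq_zero_or_pos a with rfl | ha
  · have hb : 0 < b := by omega
    refine ⟨_, hy1, _, add_mem hz1 (Submodule.smul_mem _ c (pow_mem_MSpace e6_mem (b - 1)
      (k := i + i - 6) (by rw [Nat.cast_sub hb]; omega))), ?_⟩
    funext z
    have hz := congrFun hge z
    simp [mon] at hz
    simp only [Pi.add_apply, Pi.mul_apply, Pi.smul_apply, Pi.pow_apply, smul_eq_mul]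
    have hp : e6 z * e6 z ^ (b - 1) = e6 z ^ b := by
      rw [← pow_succ', Nat.sub_add_cancel hb]
    linear_combination hz - c * hp - (g z / 1728) * e4_cube_sub_e6_sq z
  · refine ⟨_, add_mem hy1 (Submodule.smul_mem _ c (mul_mem_MSpace (k := i + i - 4)
      (k₁ := ((a - 1 : ℕ) : ℤ) * 4) (k₂ := (b : ℤ) * 6) (by rw [Nat.cast_sub ha]; omega)
      (pow_mem_MSpace e4_mem (a - 1) rfl) (pow_mem_MSpace e6_mem b rfl))), _, hz1, ?_⟩
    funext z
    have hz := congrFun hge z
    simp [mon] at hz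
    simp only [Pi.add_apply, Pi.mul_apply, Pi.smul_apply, Pi.pow_apply, smul_eq_mul]
    have hp : e4 z * e4 z ^ (a - 1) = e4 z ^ a := by
      rw [← pow_succ', Nat.sub_add_cancel ha]
    linear_combination hz - c * e6 z ^ b * hp - (g z / 1728) * e4_cube_sub_e6_sq z

end FLTAgent.MFDim

end
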