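import Fermat.Agent.MFDim.Count
import Fermat.Agent.MFIntegral.Gamma0

/-!
# The separating form `Δ(Nz)` for `Γ₀(N)`

`sepGamma0`: the form `MFIntegral.sepForm`, a multiple of `Δ(Nz)`, separates the cosets of `Γ₀(N)`,
so the dimension count applies; `cuspFormEquiv` transports it to `CuspForm`.  The spaces `MSpace`
are the sets of `MFIntegral.IsMF` functions (`mem_MSpace_iff_isMF`).
-/

set_option autoImplicit false

noncomputable section

open UpperHalfPlane
open scoped MatrixGroups ModularForm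
open CongruenceSubgroup (Gamma0)

namespace FLTAgent.MFDim

/-- Membership of `MSpace Γ k` is the predicate `MFIntegral.IsMF`. -/
theorem mem_MSpace_iff_isMF {Γ : Subgroup SL(2, ℤ)} {k : ℤ} {f : ℍ → ℂ} :
    f ∈ MSpace Γ k ↔ MFIntegral.IsMF k Γ f :=
  ⟨fun h => ⟨h.2.1, h.1, h.2.2⟩, fun h => ⟨h.holo, h.slash, h.bdd⟩⟩

/-- `Δ(Nz)` separates the cosets of `Γ₀(N)`. -/
def sepGamma0 (N : ℕ) [NeZero N] : SepForm (Gamma0 N) where
  θ := MFIntegral.sepForm N
  mem := mem_MSpace_iff_isMF.mpr (MFIntegral.sepForm_isMF N)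
  inj := by
    intro q q' h
    induction q using QuotientGroup.induction_on with | H g =>
    induction q' using QuotientGroup.induction_on with | H g' =>
    simp only [sh_mk (MFIntegral.sepForm_isMF N).slash] at h
    rw [QuotientGroup.eq]
    refine MFIntegral.sepForm_stab N _ ?_
    rw [SlashAction.slash_mul, h, ← SlashAction.slash_mul, inv_mul_cancel, SlashAction.slash_one]

/-- Weight two cusp forms for `Γ₀(N)` as functions. -/
def cuspFormEquiv (N : ℕ) [NeZero N] :
    CuspForm ((Gamma0 N : Subgroup SL(2, ℤ)) : Subgroup (GL (Fin 2) ℝ)) 2 ≃ₗ[ℂ]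
      SSpace (Gamma0 N) 2 where
  toFun f := ⟨⇑f, ⟨f.holo', fun γ hγ => f.slash_action_eq' _ ⟨γ, hγ, rfl⟩,
    fun g => ModularFormClass.bdd_at_infty_slash f g⟩,
    fun g => CuspFormClass.zero_at_infty_slash f g⟩
  map_add' f g := rfl
  map_smul' c f := rfl
  invFun f :=
    { toFun := f.1
      slash_action_eq' := fun g hg => by
        obtain ⟨γ, hγ, rfl⟩ := hg
        exact MSpace.slash_eq f.2.1 hγ
      holo' := f.2.1.1
      zero_at_cusps' := fun {c} hc => by
        rw [Subgroup.IsArithmetic.isCusp_iff_isCusp_SL2Z] at hc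
        rw [OnePoint.isZeroAt_iff_forall_SL2Z hc]
        exact fun γ _ => f.2.2 γ }
  left_inv f := by ext; rfl
  right_inv f := rfl

end FLTAgent.MFDim

end
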