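import Fermat.Agent.MFDim.Divide

/-!
# Expansion along the powers of a separating form

`SepForm` and its discriminant; `SepForm.exists_expansion` solves for the coefficients of a form
along the powers of the separating form from traces to level one.
-/

set_option autoImplicit false

noncomputable section

open UpperHalfPlane Filter Function
open scoped MatrixGroups ModularForm Manifold Topology Matrix

namespace FLTAgent.MFDim

/-- A weight 12 form whose translates are pairwise distinct. -/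
structure SepForm (Γ : Subgroup SL(2, ℤ)) where
  θ : ℍ → ℂ
  mem : θ ∈ MSpace Γ 12
  inj : Function.Injective fun q : SL(2, ℤ) ⧸ Γ => sh Γ 12 θ q

lemma mdiff_det {ι : Type} [Fintype ι] [DecidableEq ι] {A : ι → ι → ℍ → ℂ}
    (h : ∀ i j, MDiff (A i j)) : MDiff fun z => (Matrix.of fun i j => A i j z).det := by
  simp only [Matrix.det_apply', Matrix.of_apply]
  have e : (fun z => ∑ τ : Equiv.Perm ι, ((Equiv.Perm.sign τ : ℤ) : ℂ) * ∏ i, A (τ i) i z) =
      ∑ τ : Equiv.Perm ι, ((fun _ : ℍ => ((Equiv.Perm.sign τ : ℤ) : ℂ)) * ∏ i, A (τ i) i) := by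
    funext z; simp [Finset.sum_apply, Finset.prod_apply]
  rw [e]
  apply MDifferentiable.sum
  intro τ _
  refine MDifferentiable.mul mdifferentiable_const ?_
  exact MDifferentiable.prod fun i _ => h (τ i) i

lemma bdd_det {ι : Type*} [Fintype ι] [DecidableEq ι] {A : ι → ι → ℍ → ℂ}
    (h : ∀ i j, IsBoundedAtImInfty (A i j)) :
    IsBoundedAtImInfty fun z => (Matrix.of fun i j => A i j z).det := by
  simp only [Matrix.det_apply', Matrix.of_apply]
  have : (∑ τ : Equiv.Perm ι, fun z => ((Equiv.Perm.sign τ : ℤ) : ℂ) * ∏ i, A (τ i) i z) ∈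
      boundedFilterSubalgebra ℂ atImInfty := by
    refine sum_mem fun τ _ => ?_
    have hp : (∏ i, A (τ i) i) ∈ boundedFilterSubalgebra ℂ atImInfty :=
      prod_mem fun i _ => h (τ i) i
    have := mul_mem ((boundedFilterSubalgebra ℂ (atImInfty : Filter ℍ)).algebraMap_mem
      ((Equiv.Perm.sign τ : ℤ) : ℂ)) hp
    simpa [Pi.mul_def, Finset.prod_fn] using! this
  simpa [Finset.sum_fn] using! this

variable {Γ : Subgroup SL(2, ℤ)} [Γ.FiniteIndex] (S : SepForm Γ) {k : ℤ}

/-- Number of cosets. -/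
local notation "μ" => Fintype.card (SL(2, ℤ) ⧸ Γ)

/-- The Vandermonde matrix of the translates of `θ`. -/
def SepForm.vand (z : ℍ) : Matrix (Fin μ) (Fin μ) ℂ :=
  Matrix.vandermonde fun a => sh Γ 12 S.θ ((Fintype.equivFin _).symm a) z

/-- Traces of the powers of `θ`. -/
def SepForm.gram (i j : Fin μ) : ℍ → ℂ :=
  tr Γ (((i : ℕ) + (j : ℕ) : ℕ) * 12) (S.θ ^ ((i : ℕ) + (j : ℕ)))

/-- The discriminant of the powers of `θ`. -/
def SepForm.disc (z : ℍ) : ℂ := (Matrix.of fun i j => S.gram i j z).det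

variable (Γ) in
/-- `SepForm.disc` has weight `12 * discLevel`. -/
def discLevel : ℕ := 2 * ∑ i : Fin μ, (i : ℕ)

lemma SepForm.gram_eq (z : ℍ) :
    (Matrix.of fun i j => S.gram i j z) = (S.vand z)ᵀ * S.vand z := by
  ext i j
  simp only [Matrix.of_apply, Matrix.mul_apply, Matrix.transpose_apply, SepForm.vand,
    Matrix.vandermonde_apply, SepForm.gram, tr_apply, ← pow_add]
  rw [← Equiv.sum_comp (Fintype.equivFin _).symm]
  refine Finset.sum_congr rfl fun a _ => ?_
  rw [sh_pow (k₁ := 12) _ _ _ rfl, Pi.pow_apply]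

lemma SepForm.gram_mem (i j : Fin μ) :
    S.gram i j ∈ LSpace ((((i : ℕ) + (j : ℕ) : ℕ) : ℤ) * 12) :=
  tr_mem (pow_mem_MSpace S.mem _ rfl)

lemma SepForm.disc_eq (z : ℍ) : S.disc z = (S.vand z).det ^ 2 := by
  rw [SepForm.disc, S.gram_eq, Matrix.det_mul, Matrix.det_transpose, pow_two]

lemma SepForm.disc_mdiff : MDiff S.disc := mdiff_det fun i j => (S.gram_mem i j).1

lemma SepForm.disc_mem : S.disc ∈ LSpace (12 * (discLevel Γ : ℤ)) := by
  refine mem_LSpace.mpr ⟨S.disc_mdiff, fun γ => ?_, bdd_det fun i j => LSpace.bdd (S.gram_mem i j)⟩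
  funext z
  rw [ModularForm.SL_slash_apply]
  set d := denom γ z with hd
  have hd0 : d ≠ 0 := denom_ne_zero γ z
  have hG : (Matrix.of fun i j => S.gram i j (γ • z)) =
      Matrix.diagonal (fun i : Fin μ => d ^ (12 * (i : ℕ))) * (Matrix.of fun i j => S.gram i j z) *
        Matrix.diagonal (fun i : Fin μ => d ^ (12 * (i : ℕ))) := by
    ext i j
    rw [Matrix.mul_diagonal, Matrix.diagonal_mul, Matrix.of_apply, Matrix.of_apply]
    have := congrFun (LSpace.slash_eq (S.gram_mem i j) γ) z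
    rw [ModularForm.SL_slash_apply, ← hd, zpow_neg, mul_inv_eq_iff_eq_mul₀ (zpow_ne_zero _ hd0)]
      at this
    rw [this, show ((((i : ℕ) + (j : ℕ) : ℕ) : ℤ) * 12) = ((12 * (i : ℕ) + 12 * (j : ℕ) : ℕ) : ℤ) by
      push_cast; ring, zpow_natCast, pow_add]
    ring
  rw [SepForm.disc, hG, Matrix.det_mul, Matrix.det_mul, Matrix.det_diagonal, SepForm.disc,
    Finset.prod_pow_eq_pow_sum,
    show (12 * (discLevel Γ : ℤ)) = ((2 * ∑ i : Fin μ, 12 * (i : ℕ) : ℕ) : ℤ) by
      rw [← Finset.mul_sum, discLevel]; push_cast; ring, zpow_neg, zpow_natCast]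
  field_simp
  ring

lemma SepForm.disc_ne_zero : S.disc ≠ 0 := by
  intro h
  classical
  let idx := Finset.univ.filter fun p : Fin μ × Fin μ => p.1 < p.2
  let fn : Fin μ × Fin μ → ℍ → ℂ := fun p =>
    sh Γ 12 S.θ ((Fintype.equivFin _).symm p.2) - sh Γ 12 S.θ ((Fintype.equivFin _).symm p.1)
  have hprod : ∏ p ∈ idx, fn p = 0 := by
    funext z
    have hz := congrFun h z
    rw [S.disc_eq, Pi.zero_apply, sq_eq_zero_iff, SepForm.vand,
      Matrix.det_vandermonde_eq_zero_iff] at hz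
    obtain ⟨a, b, hab, hne⟩ := hz
    rw [Finset.prod_apply, Pi.zero_apply, Finset.prod_eq_zero_iff]
    rcases lt_or_gt_of_ne hne with hlt | hlt
    · exact ⟨(a, b), by simp [idx, hlt], by simp [fn, hab]⟩
    · exact ⟨(b, a), by simp [idx, hlt], by simp [fn, hab]⟩
  have hmd : ∀ p ∈ idx, MDiff (fn p) := fun p _ => (sh_mdiff S.mem.1 _).sub (sh_mdiff S.mem.1 _)
  obtain ⟨p, hp, hp0⟩ := (UpperHalfPlane.prod_eq_zero_iff hmd).mp hprod
  have := (Fintype.equivFin _).symm.injective (S.inj (sub_eq_zero.mp hp0))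
  exact (Finset.mem_filter.mp hp).2.ne this.symm

lemma SepForm.eq_zero_of_pairing {z : ℍ} (hz : S.disc z ≠ 0) (v : SL(2, ℤ) ⧸ Γ → ℂ)
    (h : ∀ i : Fin μ, ∑ q, v q * sh Γ 12 S.θ q z ^ (i : ℕ) = 0) : v = 0 := by
  rw [S.disc_eq, pow_ne_zero_iff two_ne_zero] at hz
  have h0 : (S.vand z)ᵀ *ᵥ (fun a => v ((Fintype.equivFin _).symm a)) = 0 := by
    funext i
    rw [Pi.zero_apply, ← h i, ← Equiv.sum_comp (Fintype.equivFin _).symm]
    simp [Matrix.mulVec, dotProduct, SepForm.vand, mul_comm]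
  have := Matrix.eq_zero_of_mulVec_eq_zero (by rwa [Matrix.det_transpose]) h0
  funext q
  simpa using congrFun this (Fintype.equivFin _ q)

/-- A form is determined by the traces of its products with powers of `θ`. -/
lemma SepForm.eq_zero_of_tr {f : ℍ → ℂ} (hf : f ∈ MSpace Γ k)
    (h : ∀ i : Fin μ, tr Γ ((i : ℕ) * 12 + k) (S.θ ^ (i : ℕ) * f) = 0) : f = 0 := by
  refine MFIntegral.mdiff_mul_cancel S.disc_mdiff S.disc_ne_zero hf.1 mdifferentiable_const ?_
  funext z
  by_cases hz : S.disc z = 0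
  · simp [hz]
  have hv := S.eq_zero_of_pairing hz (fun q => sh Γ k f q z) fun i => by
    have := congrFun (h i) z
    rw [tr_apply, Pi.zero_apply] at this
    rw [← this]
    refine Finset.sum_congr rfl fun q _ => ?_
    rw [sh_mul (k₁ := ((i : ℕ) : ℤ) * 12) rfl, sh_pow (k₁ := 12) _ _ _ rfl, Pi.mul_apply,
      Pi.pow_apply, mul_comm]
  have := congrFun hv ((1 : SL(2, ℤ)) : SL(2, ℤ) ⧸ Γ)
  rw [sh_base hf.2.1] at this
  simp [this]

/-- Solving `tr (θ ^ i · h) = disc · φᵢ`. -/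
lemma SepForm.exists_expansion (φ : Fin μ → ℍ → ℂ)
    (hφ : ∀ i : Fin μ, φ i ∈ LSpace (k + (i : ℕ) * 12)) :
    ∃ c : Fin μ → ℍ → ℂ, (∀ j : Fin μ, c j ∈ LSpace (k + 12 * (discLevel Γ : ℤ) - (j : ℕ) * 12)) ∧
      (∑ j, c j * S.θ ^ (j : ℕ)) ∈ MSpace Γ (k + 12 * (discLevel Γ : ℤ)) ∧
      ∀ i : Fin μ, tr Γ ((i : ℕ) * 12 + (k + 12 * (discLevel Γ : ℤ)))
        (S.θ ^ (i : ℕ) * ∑ j, c j * S.θ ^ (j : ℕ)) = S.disc * φ i := by
  classical
  set W := 12 * (discLevel Γ : ℤ)
  let c : Fin μ → ℍ → ℂ := fun j z =>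
    ((Matrix.of fun i j => S.gram i j z).adjugate *ᵥ fun i => φ i z) j
  have hsolve : ∀ i, ∑ j, S.gram i j * c j = S.disc * φ i := by
    intro i
    funext z
    have := congrFun (Matrix.mulVec_mulVec (fun i => φ i z) (Matrix.of fun i j => S.gram i j z)
      (Matrix.of fun i j => S.gram i j z).adjugate) i
    rw [Matrix.mul_adjugate, Matrix.smul_mulVec, Matrix.one_mulVec, Pi.smul_apply] at this
    rw [Finset.sum_apply, Pi.mul_apply]
    simpa [Matrix.mulVec, dotProduct, c, SepForm.disc] using this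
  let A : Fin μ → Fin μ → Fin μ → Fin μ → ℍ → ℂ := fun j l a b =>
    if a = l then fun _ => (Pi.single j (1 : ℂ) : Fin μ → ℂ) b else S.gram a b
  have hadj : ∀ j l (z : ℍ), (Matrix.of fun i j => S.gram i j z).adjugate j l =
      (Matrix.of fun a b => A j l a b z).det := by
    intro j l z
    rw [Matrix.adjugate_apply]
    congr 1
    ext a b
    by_cases hal : a = l
    · subst hal; simp [A]
    · simp [A, hal]
  have hc_eq : ∀ j, c j = ∑ l, (fun z => (Matrix.of fun a b => A j l a b z).det) * φ l := by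
    intro j
    funext z
    simp [c, Matrix.mulVec, dotProduct, hadj]
  have hcd : ∀ j, MDiff (c j) := fun j => by
    rw [hc_eq]
    refine MDifferentiable.sum fun l _ => (mdiff_det fun a b => ?_).mul (hφ l).1
    by_cases hal : a = l
    · simp only [A, hal, if_true]; exact mdifferentiable_const
    · simp only [A, hal, if_false]; exact (S.gram_mem a b).1
  have hcb : ∀ j, IsBoundedAtImInfty (c j) := fun j => by
    rw [hc_eq]
    refine (boundedFilterSubalgebra ℂ atImInfty).sum_mem fun l _ =>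
      mul_mem (?_ : _ ∈ boundedFilterSubalgebra ℂ atImInfty) (LSpace.bdd (hφ l))
    refine bdd_det fun a b => ?_
    by_cases hal : a = l
    · simp only [A, hal, if_true]; exact const_boundedAtFilter _ _
    · simp only [A, hal, if_false]; exact LSpace.bdd (S.gram_mem a b)
  have hc : ∀ j : Fin μ, c j ∈ LSpace (k + W - (j : ℕ) * 12) := by
    intro j
    refine mem_LSpace.mpr ⟨hcd j, fun γ => ?_, hcb j⟩
    set c' : Fin μ → ℍ → ℂ := fun j => c j ∣[k + W - ((j : ℕ) : ℤ) * 12] γ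
    have hsolve' : ∀ i, ∑ j, S.gram i j * c' j = S.disc * φ i := by
      intro i
      have hh := congrArg (fun f : ℍ → ℂ => f ∣[W + (k + ((i : ℕ) : ℤ) * 12)] γ) (hsolve i)
      rw [SlashAction.sum_slash, mul_slash_eq (k₁ := W) (k₂ := k + ((i : ℕ) : ℤ) * 12) rfl
          γ S.disc (φ i), LSpace.slash_eq S.disc_mem, LSpace.slash_eq (hφ i)] at hh
      rw [← hh]
      refine Finset.sum_congr rfl fun j _ => ?_
      rw [mul_slash_eq (k₁ := (((i : ℕ) + (j : ℕ) : ℕ) : ℤ) * 12)
        (k₂ := k + W - ((j : ℕ) : ℤ) * 12) (by simp only [W]; push_cast; ring),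
        LSpace.slash_eq (S.gram_mem i j)]
    have hdiff : ∀ z, S.disc z • (fun j => c' j z - c j z) = 0 := by
      intro z
      have hz : (Matrix.of fun i j => S.gram i j z) *ᵥ (fun j => c' j z - c j z) = 0 := by
        funext i
        have h1 := congrFun (hsolve i) z
        have h2 := congrFun (hsolve' i) z
        simp only [Finset.sum_apply, Pi.mul_apply] at h1 h2
        simp [Matrix.mulVec, dotProduct, mul_sub, h1, h2]
      have h := congrArg ((Matrix.of fun i j => S.gram i j z).adjugate *ᵥ ·) hz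
      simp only [Matrix.mulVec_mulVec, Matrix.adjugate_mul, Matrix.mulVec_zero,
        Matrix.smul_mulVec, Matrix.one_mulVec] at h
      exact h
    refine MFIntegral.mdiff_mul_cancel S.disc_mdiff S.disc_ne_zero ?_ (hcd j) ?_
    · rw [ModularForm.SL_slash]; exact (hcd j).slash _ _
    · funext z
      have := congrFun (hdiff z) j
      simp only [Pi.smul_apply, smul_eq_mul, Pi.zero_apply, mul_sub, sub_eq_zero, c'] at this
      exact this
  have hmem : (∑ j, c j * S.θ ^ (j : ℕ)) ∈ MSpace Γ (k + W) :=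
    sum_mem fun j _ => mul_mem_MSpace (k₁ := k + W - ((j : ℕ) : ℤ) * 12)
      (k₂ := ((j : ℕ) : ℤ) * 12) (by ring) (LSpace_le_MSpace (hc j)) (pow_mem_MSpace S.mem _ rfl)
  refine ⟨c, hc, hmem, fun i => ?_⟩
  rw [← hsolve i, Finset.mul_sum, tr_sum]
  refine Finset.sum_congr rfl fun j _ => ?_
  rw [show S.θ ^ (i : ℕ) * (c j * S.θ ^ (j : ℕ)) = c j * S.θ ^ ((i : ℕ) + (j : ℕ)) by
    rw [pow_add]; ring,
    tr_mul_left (k₁ := k + W - ((j : ℕ) : ℤ) * 12)
      (k₂ := (((i : ℕ) + (j : ℕ) : ℕ) : ℤ) * 12) (by push_cast; ring) (hc j),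
    SepForm.gram, mul_comm]

end FLTAgent.MFDim

end
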